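import Mathlib.LinearAlgebra.FiniteDimensional.Lemmas
import Mathlib.NumberTheory.ModularForms.QExpansion
import Fermat.Prelude.Def_CuspForm_HeckeAlgebra
import Fermat.Prelude.Def_CuspForm_IntegralStructure
import Fermat.Prelude.Thm_CongruenceSubgroup_one_mem_strictPeriods_Gamma0
import Fermat.Prelude.Thm_ModularFormClass_qCoeff_heckeT
import Fermat.Prelude.Thm_ModularFormClass_qCoeff_heckeU
import Fermat.Prelude.Thm_ModularForm_sturm_bound_Gamma0

/-!
Linearity of `qCoeff` on cusp forms of level `Γ₀(N)`, the coefficient formulas for the Hecke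
operators, and finite dimensionality. These are the basic tools for computing with Hecke operators
on coefficients.
-/

noncomputable section

open CongruenceSubgroup ModularFormClass

namespace Fermat.Agent.Eis

variable {N : ℕ} {k : ℤ}

theorem qCoeff_add (f g : CuspForm (Gamma0 N) k) (n : ℕ) :
    qCoeff ⇑(f + g) n = qCoeff ⇑f n + qCoeff ⇑g n := by
  simp only [qCoeff, FunLike.coe_add]
  rw [ModularForm.qExpansion_add one_pos (one_mem_strictPeriods_Gamma0 N) f g, map_add]

theorem qCoeff_smul (c : ℂ) (f : CuspForm (Gamma0 N) k) (n : ℕ) :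
    qCoeff ⇑(c • f) n = c * qCoeff ⇑f n := by
  simp only [qCoeff, FunLike.coe_smul]
  rw [ModularForm.qExpansion_smul one_pos (one_mem_strictPeriods_Gamma0 N) c f]
  simp

theorem qCoeff_zero_form (n : ℕ) : qCoeff ⇑(0 : CuspForm (Gamma0 N) k) n = 0 := by
  simp only [qCoeff, FunLike.coe_zero]
  rw [UpperHalfPlane.qExpansion_zero, map_zero]

/-- The `n`-th coefficient as a linear functional. -/
def coeffLin (N : ℕ) (k : ℤ) (n : ℕ) : CuspForm (Gamma0 N) k →ₗ[ℂ] ℂ where
  toFun f := qCoeff f n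
  map_add' f g := qCoeff_add f g n
  map_smul' c f := qCoeff_smul c f n

@[simp] theorem coeffLin_apply (n : ℕ) (f : CuspForm (Gamma0 N) k) :
    coeffLin N k n f = qCoeff f n := rfl

theorem qCoeff_sub (f g : CuspForm (Gamma0 N) k) (n : ℕ) :
    qCoeff ⇑(f - g) n = qCoeff ⇑f n - qCoeff ⇑g n :=
  map_sub (coeffLin N k n) f g

theorem qCoeff_cusp_zero (f : CuspForm (Gamma0 N) k) : qCoeff ⇑f 0 = 0 :=
  CuspFormClass.qExpansion_coeff_zero f one_pos (one_mem_strictPeriods_Gamma0 N)

/-- Sturm bound: a cusp form with vanishing coefficients up to the bound is zero. -/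
theorem eq_zero_of_sturm [NeZero N] (f : CuspForm (Gamma0 N) k)
    (h : ∀ n ≤ (k * (Gamma0 N).index).toNat / 12, qCoeff f n = 0) : f = 0 := by
  have hmf : (ModularFormClass.modularForm f : ModularForm (Gamma0 N) k) = 0 :=
    ModularForm.sturm_bound_Gamma0 N _ h
  have hcoe : (⇑f : UpperHalfPlane → ℂ) = 0 :=
    congrArg (fun F : ModularForm (Gamma0 N) k ↦ (⇑F : UpperHalfPlane → ℂ)) hmf
  exact DFunLike.coe_injective (hcoe.trans FunLike.coe_zero.symm)

/-- A cusp form is determined by its expansion at `∞`. -/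
theorem eq_zero_of_qCoeff [NeZero N] (f : CuspForm (Gamma0 N) k) (h : ∀ n, qCoeff f n = 0) :
    f = 0 :=
  eq_zero_of_sturm f fun n _ => h n

/-- The space of cusp forms of level `Γ₀(N)` is finite dimensional. -/
theorem finiteDimensional_cuspForm (N : ℕ) [NeZero N] (k : ℤ) :
    FiniteDimensional ℂ (CuspForm (Gamma0 N) k) := by
  refine FiniteDimensional.of_injective
    (LinearMap.pi fun i : Fin ((k * (Gamma0 N).index).toNat / 12 + 1) => coeffLin N k i)
    ((injective_iff_map_eq_zero _).mpr fun f hf => ?_)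
  exact eq_zero_of_sturm f fun n hn => congrFun hf ⟨n, Nat.lt_succ_of_le hn⟩

/-- The integral lattice consists of the forms with integral coefficients. -/
theorem mem_intLattice_iff (f : CuspForm (Gamma0 N) k) :
    f ∈ CuspForm.intLattice N k ↔ ∀ n : ℕ, ∃ m : ℤ, qCoeff f n = (m : ℂ) := by
  refine ⟨fun hf => ?_, fun hf => Submodule.subset_span hf⟩
  induction hf using Submodule.span_induction with
  | mem x hx => exact hx
  | zero => exact fun n => ⟨0, by rw [qCoeff_zero_form]; simp⟩
  | add x y _ _ hx hy =>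
    intro n
    obtain ⟨a, ha⟩ := hx n
    obtain ⟨b, hb⟩ := hy n
    exact ⟨a + b, by rw [qCoeff_add, ha, hb]; push_cast; ring⟩
  | smul c x _ hx =>
    intro n
    obtain ⟨a, ha⟩ := hx n
    exact ⟨c * a, by rw [← Int.cast_smul_eq_zsmul ℂ, qCoeff_smul, ha]; push_cast; ring⟩

/-- Coefficients of `T_p f` in weight two, for `p ∤ N`. -/
theorem qCoeff_heckeTLin {p : ℕ} (hp : p.Prime) (hpN : ¬ p ∣ N)
    (f : CuspForm (Gamma0 N) 2) (n : ℕ) :
    qCoeff ⇑(CuspForm.heckeTLin 2 hp hpN f) n =
      qCoeff f (p * n) + (p : ℂ) * if p ∣ n then qCoeff f (n / p) else 0 := by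
  rw [CuspForm.coe_heckeTLin_apply,
    ModularFormClass.qCoeff_heckeT f (one_mem_strictPeriods_Gamma0 N) hp.ne_zero,
    ModularForm.coeffHeckeT_apply, mul_comm n p, show (2 : ℤ) - 1 = 1 by norm_num, zpow_one]
  split_ifs <;> ring

/-- Coefficients of `U_p f`, for `p ∣ N`. -/
theorem qCoeff_heckeULin [NeZero N] {p : ℕ} (hp : p.Prime) (hpN : p ∣ N)
    (f : CuspForm (Gamma0 N) k) (n : ℕ) :
    qCoeff ⇑(CuspForm.heckeULin k hpN f) n = qCoeff f (p * n) := by
  rw [CuspForm.coe_heckeULin_apply,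
    ModularFormClass.qCoeff_heckeU f (one_mem_strictPeriods_Gamma0 N) hp.ne_zero,
    ModularForm.coeffHeckeU_apply, mul_comm n p]

end Fermat.Agent.Eis
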