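import Mathlib

/-!
Common eigenvectors of a commutative ring acting on a finite-dimensional complex vector space,
with control of the kernel of the eigencharacter. Applied to Hecke algebras, it provides
eigenforms from maximal ideals.
-/

namespace Fermat.Agent.Eis

variable {V : Type*} [AddCommGroup V] [Module ℂ V] [FiniteDimensional ℂ V]
variable {T : Type*} [CommRing T] (ρ : T →+* Module.End ℂ V)

/-- `W` is stable under every element of `T`. -/
def IsStableSub (W : Submodule ℂ V) : Prop := ∀ t : T, ∀ w ∈ W, ρ t w ∈ W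

/-- A nonzero stable subspace contains a common eigenvector. -/
theorem exists_common_eigenvector (W : Submodule ℂ V) (hW : IsStableSub ρ W) (hne : W ≠ ⊥) :
    ∃ v ∈ W, v ≠ 0 ∧ ∀ t : T, ∃ c : ℂ, ρ t v = c • v := by
  induction W using WellFoundedLT.induction with
  | ind W ih =>
  by_cases hsc : ∀ t : T, ∃ c : ℂ, ∀ w ∈ W, ρ t w = c • w
  · obtain ⟨v, hv, hv0⟩ := Submodule.exists_mem_ne_zero_of_ne_bot hne
    exact ⟨v, hv, hv0, fun t => ⟨(hsc t).choose, (hsc t).choose_spec v hv⟩⟩
  · push Not at hsc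
    obtain ⟨t, ht⟩ := hsc
    have : Nontrivial W := Submodule.nontrivial_iff_ne_bot.mpr hne
    obtain ⟨μ, hμ⟩ := Module.End.exists_eigenvalue ((ρ t).restrict (hW t))
    obtain ⟨⟨v, hvW⟩, hv⟩ := hμ.exists_hasEigenvector
    have hv' : ρ t v = μ • v := congrArg Subtype.val hv.apply_eq_smul
    have hv0 : v ≠ 0 := fun h => hv.2 (Subtype.ext h)
    let E : Submodule ℂ V := W ⊓ Module.End.eigenspace (ρ t) μ
    have hEW : E < W := by
      refine lt_of_le_of_ne inf_le_left fun h => ?_
      obtain ⟨w, hw, hne'⟩ := ht μ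
      have hw' : w ∈ E := h.symm ▸ hw
      exact hne' (Module.End.mem_eigenspace_iff.mp hw'.2)
    have hEst : IsStableSub ρ E := by
      intro s w hw
      refine ⟨hW s w hw.1, Module.End.mem_eigenspace_iff.mpr ?_⟩
      have h1 : ρ t w = μ • w := Module.End.mem_eigenspace_iff.mp hw.2
      have h2 : ρ t (ρ s w) = ρ s (ρ t w) := by
        rw [← Module.End.mul_apply, ← Module.End.mul_apply, ← map_mul, ← map_mul, mul_comm]
      rw [h2, h1, map_smul]
    have hEne : E ≠ ⊥ := Submodule.ne_bot_iff _ |>.mpr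
      ⟨v, ⟨hvW, Module.End.mem_eigenspace_iff.mpr hv'⟩, hv0⟩
    obtain ⟨u, hu, hu0, hu'⟩ := ih E hEW hEst hEne
    exact ⟨u, hu.1, hu0, hu'⟩

omit [FiniteDimensional ℂ V] in
/-- The character of a common eigenvector. -/
theorem exists_character_of_eigenvector {v : V} (hv0 : v ≠ 0)
    (hv : ∀ t : T, ∃ c : ℂ, ρ t v = c • v) :
    ∃ χ : T →+* ℂ, ∀ t, ρ t v = χ t • v := by
  choose c hc using hv
  have inj : ∀ {a b : ℂ}, a • v = b • v → a = b := fun h => smul_left_injective ℂ hv0 h
  refine ⟨{ toFun := c, map_one' := ?_, map_mul' := ?_, map_zero' := ?_, map_add' := ?_ }, hc⟩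
  · exact inj (by rw [← hc, map_one, Module.End.one_apply, one_smul])
  · intro a b
    exact inj (by rw [← hc, map_mul, Module.End.mul_apply, hc b, map_smul, hc a, smul_smul,
      mul_comm])
  · exact inj (by rw [← hc, map_zero, LinearMap.zero_apply, zero_smul])
  · intro a b
    exact inj (by rw [← hc, map_add, LinearMap.add_apply, hc a, hc b, add_smul])

/-- If no eigencharacter in `W` has kernel in the prime `m`, some element outside `m` kills `W`. -/
theorem exists_killing_or_eigen (m : Ideal T) (hm : m.IsPrime) (W : Submodule ℂ V)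
    (hW : IsStableSub ρ W)
    (hno : ∀ (χ : T →+* ℂ) (v : V), v ∈ W → v ≠ 0 → (∀ t, ρ t v = χ t • v) →
      ¬ RingHom.ker χ ≤ m) :
    ∃ s : T, s ∉ m ∧ ∀ w ∈ W, ρ s w = 0 := by
  induction W using WellFoundedLT.induction with
  | ind W ih =>
  rcases eq_or_ne W ⊥ with rfl | hne
  · refine ⟨1, fun h => hm.ne_top ((Ideal.eq_top_iff_one m).mpr h), ?_⟩
    intro w hw
    rw [(Submodule.mem_bot ℂ).mp hw, map_zero]
  obtain ⟨v, hvW, hv0, hv⟩ := exists_common_eigenvector ρ W hW hne
  obtain ⟨χ, hχ⟩ := exists_character_of_eigenvector ρ hv0 hv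
  obtain ⟨u, hu, hum⟩ := SetLike.not_le_iff_exists.mp (hno χ v hvW hv0 hχ)
  have huv : ρ u v = 0 := by rw [hχ, RingHom.mem_ker.mp hu, zero_smul]
  let W' : Submodule ℂ V := W.map (ρ u)
  have hle : W' ≤ W := by
    rintro _ ⟨w, hw, rfl⟩
    exact hW u w hw
  have hlt : W' < W := by
    refine lt_of_le_of_ne hle fun h => ?_
    have hsurj : Function.Surjective ((ρ u).restrict (hW u)) := by
      rintro ⟨w, hw⟩
      have hw' : w ∈ W' := h.symm ▸ hw
      obtain ⟨x, hx, hxw⟩ := hw'
      exact ⟨⟨x, hx⟩, Subtype.ext hxw⟩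
    have hinj : Function.Injective ((ρ u).restrict (hW u)) :=
      LinearMap.injective_iff_surjective.mpr hsurj
    exact hv0 (congrArg Subtype.val (hinj (a₁ := ⟨v, hvW⟩) (a₂ := 0)
      (Subtype.ext (by simp [huv]))))
  have hst : IsStableSub ρ W' := by
    rintro s _ ⟨w, hw, rfl⟩
    refine ⟨ρ s w, hW s w hw, ?_⟩
    rw [← Module.End.mul_apply, ← Module.End.mul_apply, ← map_mul, ← map_mul, mul_comm]
  obtain ⟨s, hs, hs0⟩ := ih W' hlt hst (fun χ' v' hv' => hno χ' v' (hle hv'))
  refine ⟨s * u, fun h => (hm.mem_or_mem h).elim hs hum, fun w hw => ?_⟩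
  rw [map_mul, Module.End.mul_apply]
  exact hs0 _ ⟨w, hw, rfl⟩

/-- A prime containing the kernel of the action contains the kernel of some eigencharacter. -/
theorem exists_eigenvector_ker_le (m : Ideal T) (hm : m.IsPrime)
    (hfaith : RingHom.ker ρ ≤ m) :
    ∃ (χ : T →+* ℂ) (v : V), v ≠ 0 ∧ (∀ t, ρ t v = χ t • v) ∧ RingHom.ker χ ≤ m := by
  by_contra hno
  push Not at hno
  obtain ⟨s, hs, hs0⟩ := exists_killing_or_eigen ρ m hm ⊤ (fun _ _ _ => trivial)
    (fun χ v _ hv0 hv => hno χ v hv0 hv)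
  exact hs (hfaith (RingHom.mem_ker.mpr (LinearMap.ext fun w => hs0 w trivial)))

end Fermat.Agent.Eis
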