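import Mathlib.Analysis.Analytic.Constructions
import Mathlib.NumberTheory.ModularForms.QExpansion
import Mathlib.RingTheory.PowerSeries.Expand

/-!
Periodic bounded holomorphic functions on the upper half plane and their expansions: the facts
used for the two-cusp bookkeeping at prime level. They let forms be manipulated as formal power
series.
-/

noncomputable section

open UpperHalfPlane hiding I
open Complex Function Function.Periodic
open scoped Real Manifold

local notation "𝕢" => Function.Periodic.qParam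

namespace Fermat.Agent.Eis

/-- The `p`-th coefficient-extraction operator on power series. -/
def uOp {R : Type*} [Semiring R] (p : ℕ) (A : PowerSeries R) : PowerSeries R :=
  PowerSeries.mk fun n => PowerSeries.coeff (p * n) A

@[simp] theorem coeff_uOp {R : Type*} [Semiring R] (p : ℕ) (A : PowerSeries R) (n : ℕ) :
    PowerSeries.coeff n (uOp p A) = PowerSeries.coeff (p * n) A := by
  simp [uOp]

theorem map_uOp {R S : Type*} [CommRing R] [CommRing S] (φ : R →+* S) (p : ℕ) (A : PowerSeries R) :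
    PowerSeries.map φ (uOp p A) = uOp p (PowerSeries.map φ A) := by
  ext n
  simp

/-- The substitution `q ↦ q ^ p`. -/
abbrev vOp {R : Type*} [CommRing R] (p : ℕ) [NeZero p] : PowerSeries R →ₐ[R] PowerSeries R :=
  PowerSeries.expand p (NeZero.ne p)

theorem map_vOp {R S : Type*} [CommRing R] [CommRing S] (φ : R →+* S) (p : ℕ) [NeZero p]
    (A : PowerSeries R) : PowerSeries.map φ (vOp p A) = vOp p (PowerSeries.map φ A) :=
  PowerSeries.map_expand p _ φ A

theorem vOp_injective {R : Type*} [CommRing R] (p : ℕ) [NeZero p] :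
    Function.Injective (vOp (R := R) p) := by
  intro A B h
  ext n
  have := congrArg (PowerSeries.coeff (p * n)) h
  simpa using this

/-- Periodic with period `h`, holomorphic and bounded at infinity. -/
structure GoodFn (h : ℝ) (f : ℍ → ℂ) : Prop where
  periodic : Periodic (f ∘ ofComplex) h
  holo : MDiff f
  bdd : IsBoundedAtImInfty f

theorem qParam_add_period {h : ℝ} (hh : h ≠ 0) (z : ℂ) : 𝕢 h (z + h) = 𝕢 h z := by
  have hh' : (h : ℂ) ≠ 0 := ofReal_ne_zero.mpr hh
  unfold Periodic.qParam
  rw [show 2 * π * I * (z + h) / h = 2 * π * I * z / h + 2 * π * I by field_simp,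
    Complex.exp_periodic]

/-- A function given by a series in `exp (2 π i τ / h)` has period `h`. -/
theorem periodic_of_hasSum {h : ℝ} (hh : h ≠ 0) {f : ℍ → ℂ} {c : ℕ → ℂ}
    (hf : ∀ τ : ℍ, HasSum (fun m ↦ c m * 𝕢 h τ ^ m) (f τ)) : Periodic (f ∘ ofComplex) h := by
  intro w
  rcases lt_or_ge 0 (Complex.im w) with hw | hw
  · have hw' : 0 < Complex.im (w + h) := by simpa using hw
    simp only [comp_apply, ofComplex_apply_of_im_pos hw', ofComplex_apply_of_im_pos hw]
    have h1 := hf ⟨w + h, hw'⟩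
    simp only [qParam_add_period hh] at h1
    exact h1.unique (hf ⟨w, hw⟩)
  · have hw' : Complex.im (w + h) ≤ 0 := by simpa using hw
    simp [ofComplex_apply_of_im_nonpos hw', ofComplex_apply_of_im_nonpos hw]

/-- A function given by a convergent `q`-series on the upper half plane is holomorphic. -/
theorem mdifferentiable_of_hasSum {h : ℝ} (hh : 0 < h) {f : ℍ → ℂ} {c : ℕ → ℂ}
    (hf : ∀ τ : ℍ, HasSum (fun m ↦ c m * 𝕢 h τ ^ m) (f τ)) : MDiff f := by
  let P : FormalMultilinearSeries ℂ ℂ ℂ := .ofScalars ℂ c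
  have hrad : 1 ≤ P.radius := by
    refine le_of_forall_lt_imp_le_of_dense fun r hr ↦ ?_
    rcases eq_or_ne r 0 with rfl | hr'
    · simp
    · lift r to NNReal using hr.ne_top
      have hr1 : (r : ℝ) < 1 := by exact_mod_cast hr
      have hr0 : (0 : ℝ) < r := by
        rcases eq_or_ne r 0 with h' | h'
        · exact absurd (by simp [h']) hr'
        · exact_mod_cast pos_iff_ne_zero.mpr h'
      obtain ⟨τ, hτ⟩ : ∃ τ : ℍ, ‖𝕢 h τ‖ = r := by
        refine ⟨⟨(-(h * Real.log r) / (2 * π) : ℝ) * I, ?_⟩, ?_⟩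
        · simp only [mul_im, ofReal_re, Complex.I_im, mul_one, ofReal_im, Complex.I_re, mul_zero,
              add_zero]
          have := Real.log_neg hr0 hr1
          have h2 : (0 : ℝ) < 2 * π := Real.two_pi_pos
          have h3 : 0 < -(h * Real.log r) := by nlinarith
          exact div_pos h3 h2
        · rw [Periodic.norm_qParam]
          simp only [mul_im, ofReal_re, Complex.I_im, mul_one, ofReal_im, Complex.I_re, mul_zero,
              add_zero]
          rw [show -2 * π * (-(h * Real.log r) / (2 * π)) / h = Real.log r by field_simp,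
            Real.exp_log hr0]
      apply FormalMultilinearSeries.le_radius_of_summable
      have hs := (hf τ).summable.norm
      simp only [norm_mul, norm_pow, hτ] at hs
      simpa [P] using hs
  have hsum : ∀ z : ℂ, 0 < z.im → (f ∘ ofComplex) z = P.sum (𝕢 h z) := by
    intro z hz
    rw [comp_apply, ofComplex_apply_of_im_pos hz, ← (hf ⟨z, hz⟩).tsum_eq]
    simp [P, FormalMultilinearSeries.sum, mul_comm]
  rw [UpperHalfPlane.mdifferentiable_iff]
  refine DifferentiableOn.congr ?_ hsum
  intro z hz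
  have hball : 𝕢 h z ∈ Metric.eball (0 : ℂ) P.radius := by
    refine Metric.eball_subset_eball hrad ?_
    simp only [Metric.mem_eball, edist_zero_right]
    rw [← ofReal_norm]
    exact ENNReal.ofReal_lt_one.mpr (Periodic.norm_qParam_lt_one hh hz)
  have h1 : DifferentiableAt ℂ P.sum (𝕢 h z) :=
    ((P.hasFPowerSeriesOnBall (zero_lt_one.trans_le hrad)).analyticAt_of_mem hball).differentiableAt
  have h2 : DifferentiableAt ℂ (fun w : ℂ => 𝕢 h w) z := by
    unfold Periodic.qParam
    fun_prop
  exact (h1.comp z h2).differentiableWithinAt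

/-- A function given by a convergent expansion on the upper half plane is a `GoodFn`. -/
theorem goodFn_of_hasSum {h : ℝ} (hh : 0 < h) {f : ℍ → ℂ} {c : ℕ → ℂ}
    (hf : ∀ τ : ℍ, HasSum (fun m ↦ c m * 𝕢 h τ ^ m) (f τ)) : GoodFn h f where
  periodic := periodic_of_hasSum hh.ne' hf
  holo := mdifferentiable_of_hasSum hh hf
  bdd := isBoundedAtImInfty_of_hasSum_qExpansion hh fun τ => by simpa [smul_eq_mul] using hf τ

theorem GoodFn.analyticAt {h : ℝ} {f : ℍ → ℂ} (hf : GoodFn h f) (hh : 0 < h) :
    AnalyticAt ℂ (cuspFunction h f) 0 :=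
  analyticAt_cuspFunction_zero hh hf.periodic hf.holo hf.bdd

/-- A `GoodFn` is the sum of its expansion. -/
theorem GoodFn.hasSum {h : ℝ} {f : ℍ → ℂ} (hf : GoodFn h f) (hh : 0 < h) (τ : ℍ) :
    HasSum (fun m ↦ (qExpansion h f).coeff m * 𝕢 h τ ^ m) (f τ) := by
  simpa [smul_eq_mul] using UpperHalfPlane.hasSum_qExpansion hh hf.periodic hf.holo hf.bdd τ

theorem GoodFn.mul {h : ℝ} {f g : ℍ → ℂ} (hf : GoodFn h f) (hg : GoodFn h g) :
    GoodFn h (f * g) :=
  ⟨hf.periodic.mul hg.periodic, hf.holo.mul hg.holo, hf.bdd.mul hg.bdd⟩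

theorem GoodFn.add {h : ℝ} {f g : ℍ → ℂ} (hf : GoodFn h f) (hg : GoodFn h g) :
    GoodFn h (f + g) :=
  ⟨hf.periodic.add hg.periodic, hf.holo.add hg.holo, hf.bdd.add hg.bdd⟩

/-- A function given by a `q`-series has that series as its expansion. -/
theorem qExpansion_eq_of_hasSum {h : ℝ} (hh : 0 < h) {f : ℍ → ℂ} (A : PowerSeries ℂ)
    (hf : ∀ τ : ℍ, HasSum (fun m ↦ A.coeff m * 𝕢 h τ ^ m) (f τ)) : qExpansion h f = A := by
  ext m
  have han : AnalyticAt ℂ (cuspFunction h f) 0 := (goodFn_of_hasSum hh hf).analyticAt hh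
  have h1 := (hasFPowerSeriesOnBall_cuspFunction (f := f) (c := fun n => A.coeff n) hh han
    (fun τ => by simpa only [smul_eq_mul] using hf τ)).hasFPowerSeriesAt
  have h3 := congr_arg (FormalMultilinearSeries.coeff · m)
    (h1.eq_formalMultilinearSeries han.hasFPowerSeriesAt)
  simpa [qExpansion_coeff, FormalMultilinearSeries.coeff_ofScalars, div_eq_mul_inv, mul_comm]
    using h3.symm

theorem goodFn_one (h : ℝ) : GoodFn h (1 : ℍ → ℂ) :=
  ⟨fun _ => rfl, mdifferentiable_const,
    Filter.const_boundedAtFilter UpperHalfPlane.atImInfty (1 : ℂ)⟩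

theorem goodFn_prod {h : ℝ} {ι : Type*} (s : Finset ι) {F : ι → ℍ → ℂ}
    (hF : ∀ i ∈ s, GoodFn h (F i)) : GoodFn h (∏ i ∈ s, F i) := by
  classical
  induction s using Finset.induction_on with
  | empty => simpa using goodFn_one h
  | insert a s ha ih =>
    rw [Finset.prod_insert ha]
    exact (hF a (Finset.mem_insert_self a s)).mul
      (ih fun i hi => hF i (Finset.mem_insert_of_mem hi))

theorem qExpansion_goodFn_prod {h : ℝ} (hh : 0 < h) {ι : Type*} (s : Finset ι) {F : ι → ℍ → ℂ}
    (hF : ∀ i ∈ s, GoodFn h (F i)) :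
    qExpansion h (∏ i ∈ s, F i) = ∏ i ∈ s, qExpansion h (F i) := by
  classical
  induction s using Finset.induction_on with
  | empty => simpa using UpperHalfPlane.qExpansion_one h
  | insert a s ha ih =>
    have hs : ∀ i ∈ s, GoodFn h (F i) := fun i hi => hF i (Finset.mem_insert_of_mem hi)
    rw [Finset.prod_insert ha, Finset.prod_insert ha,
      qExpansion_mul ((hF a (Finset.mem_insert_self a s)).analyticAt hh)
        ((goodFn_prod s hs).analyticAt hh), ih hs]

theorem goodFn_zero (h : ℝ) : GoodFn h (0 : ℍ → ℂ) :=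
  ⟨fun _ => rfl, mdifferentiable_const,
    Filter.const_boundedAtFilter UpperHalfPlane.atImInfty (0 : ℂ)⟩

theorem goodFn_sum {h : ℝ} {ι : Type*} (s : Finset ι) {F : ι → ℍ → ℂ}
    (hF : ∀ i ∈ s, GoodFn h (F i)) : GoodFn h (∑ i ∈ s, F i) := by
  classical
  induction s using Finset.induction_on with
  | empty => simpa using goodFn_zero h
  | insert a s ha ih =>
    rw [Finset.sum_insert ha]
    exact (hF a (Finset.mem_insert_self a s)).add
      (ih fun i hi => hF i (Finset.mem_insert_of_mem hi))

theorem qExpansion_goodFn_sum {h : ℝ} (hh : 0 < h) {ι : Type*} (s : Finset ι) {F : ι → ℍ → ℂ}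
    (hF : ∀ i ∈ s, GoodFn h (F i)) :
    qExpansion h (∑ i ∈ s, F i) = ∑ i ∈ s, qExpansion h (F i) := by
  classical
  induction s using Finset.induction_on with
  | empty => simpa using qExpansion_zero h
  | insert a s ha ih =>
    have hs : ∀ i ∈ s, GoodFn h (F i) := fun i hi => hF i (Finset.mem_insert_of_mem hi)
    rw [Finset.sum_insert ha, Finset.sum_insert ha,
      qExpansion_add ((hF a (Finset.mem_insert_self a s)).analyticAt hh)
        ((goodFn_sum s hs).analyticAt hh), ih hs]

/-- A translate rescales the expansion. -/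
theorem qExpansion_shift {h : ℝ} (hh : 0 < h) {f g : ℍ → ℂ} (hf : GoodFn h f) (a : ℝ)
    (hg : ∀ τ : ℍ, g τ = f (a +ᵥ τ)) :
    qExpansion h g = PowerSeries.rescale (𝕢 h a) (qExpansion h f) := by
  refine qExpansion_eq_of_hasSum hh _ fun τ => ?_
  rw [hg]
  convert! hf.hasSum hh (a +ᵥ τ) using 1
  funext m
  have : 𝕢 h ((a +ᵥ τ : ℍ) : ℂ) = 𝕢 h a * 𝕢 h τ := by
    rw [UpperHalfPlane.coe_vadd]
    unfold Periodic.qParam
    rw [← Complex.exp_add]
    ring_nf
  rw [PowerSeries.coeff_rescale, this, mul_pow]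
  ring

/-- Expansion of a `1`-periodic function in the parameter of period `p`. -/
theorem qExpansion_of_one_periodic (p : ℕ) [NeZero p] {f : ℍ → ℂ} (hf : GoodFn 1 f) :
    qExpansion (p : ℝ) f = vOp p (qExpansion 1 f) := by
  have hp : (0 : ℝ) < p := by exact_mod_cast Nat.pos_of_ne_zero (NeZero.ne p)
  refine qExpansion_eq_of_hasSum hp _ fun τ => ?_
  have hinj : Function.Injective fun n : ℕ => p * n := mul_right_injective₀ (NeZero.ne p)
  rw [← hinj.hasSum_iff]
  · refine (hf.hasSum one_pos τ).congr_fun fun n => ?_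
    simp only [comp_apply, vOp, PowerSeries.coeff_expand_mul, pow_mul]
    congr 2
    unfold Periodic.qParam
    have hpC : (p : ℂ) ≠ 0 := Nat.cast_ne_zero.mpr (NeZero.ne p)
    rw [← Complex.exp_nat_mul]
    congr 1
    simp only [ofReal_natCast, ofReal_one, div_one]
    field_simp
  · intro x hx
    rw [vOp, PowerSeries.coeff_expand_of_not_dvd _ _ _ (fun ⟨c, hc⟩ => hx ⟨c, hc.symm⟩), zero_mul]

theorem goodFn_of_one_periodic (p : ℕ) {f : ℍ → ℂ} (hf : GoodFn 1 f) :
    GoodFn (p : ℝ) f := by
  refine ⟨?_, hf.holo, hf.bdd⟩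
  have := hf.periodic.nat_mul p
  simpa using this

end Fermat.Agent.Eis
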