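import Fermat.Prelude.Def_CuspForm_HeckeEvalForms
import Fermat.Prelude.Def_CuspForm_HeckeLocal
import Fermat.Agent.Eis.CuspCoeff

/-!
A form which is an eigenvector modulo `m` for every Hecke generator gives a maximal ideal of the
Hecke algebra. This turns congruences between forms into maximal ideals, for Deligne–Serre
lifting.
-/

noncomputable section

open CongruenceSubgroup ModularFormClass CuspForm

namespace Fermat.Agent.Eis

variable {N : ℕ} [NeZero N]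

/-- `f` and `g` are congruent modulo `m`, coefficient by coefficient, in the integers. -/
def CoeffModEq (m : ℤ) (f g : CuspForm (Gamma0 N) 2) : Prop :=
  ∀ n : ℕ, ∃ z : ℤ, qCoeff f n - qCoeff g n = ((m * z : ℤ) : ℂ)

/-- Congruence of coefficients modulo `m` is preserved by the Hecke algebra. -/
theorem CoeffModEq.map_hecke {m : ℤ} (hm : m ≠ 0) {f g : CuspForm (Gamma0 N) 2}
    {t : Module.End ℂ (CuspForm (Gamma0 N) 2)} (ht : t ∈ heckeAlgebra N 2 ∅)
    (h : CoeffModEq m f g) : CoeffModEq m (t f) (t g) := by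
  have hmem : (m : ℂ)⁻¹ • (f - g) ∈ intLattice N 2 := by
    rw [mem_intLattice_iff]
    intro n
    obtain ⟨z, hz⟩ := h n
    refine ⟨z, ?_⟩
    rw [qCoeff_smul, qCoeff_sub, hz]
    push_cast
    field_simp
  have h2 := (mem_intLattice_iff _).mp (mem_intLattice_of_mem_heckeAlgebra one_le_two ht hmem)
  intro n
  obtain ⟨z, hz⟩ := h2 n
  refine ⟨z, ?_⟩
  rw [map_smul, map_sub, qCoeff_smul, qCoeff_sub] at hz
  have hm' : (m : ℂ) ≠ 0 := Int.cast_ne_zero.mpr hm
  push_cast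
  rw [← hz]
  field_simp

omit [NeZero N] in
theorem CoeffModEq.trans {m : ℤ} {f g h : CuspForm (Gamma0 N) 2}
    (h1 : CoeffModEq m f g) (h2 : CoeffModEq m g h) : CoeffModEq m f h := fun n => by
  obtain ⟨a, ha⟩ := h1 n
  obtain ⟨b, hb⟩ := h2 n
  refine ⟨a + b, ?_⟩
  push_cast at ha hb ⊢
  linear_combination ha + hb

omit [NeZero N] in
theorem CoeffModEq.smul_int {m : ℤ} {f g : CuspForm (Gamma0 N) 2} (c : ℤ)
    (h : CoeffModEq m f g) : CoeffModEq m ((c : ℂ) • f) ((c : ℂ) • g) := fun n => by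
  obtain ⟨a, ha⟩ := h n
  refine ⟨c * a, ?_⟩
  rw [qCoeff_smul, qCoeff_smul]
  push_cast at ha ⊢
  linear_combination (c : ℂ) * ha

omit [NeZero N] in
/-- Eigenvalues modulo `m` add. -/
theorem CoeffModEq.eigen_add {m c d : ℤ} {f : CuspForm (Gamma0 N) 2}
    {x y : Module.End ℂ (CuspForm (Gamma0 N) 2)} (hc : CoeffModEq m (x f) ((c : ℂ) • f))
    (hd : CoeffModEq m (y f) ((d : ℂ) • f)) :
    CoeffModEq m ((x + y) f) (((c + d : ℤ) : ℂ) • f) := fun n => by
  obtain ⟨u, hu⟩ := hc n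
  obtain ⟨w, hw⟩ := hd n
  refine ⟨u + w, ?_⟩
  rw [qCoeff_smul] at hu hw ⊢
  rw [LinearMap.add_apply, qCoeff_add]
  push_cast at hu hw ⊢
  linear_combination hu + hw

/-- Eigenvalues modulo `m` multiply. -/
theorem CoeffModEq.eigen_mul {m c d : ℤ} (hm : m ≠ 0) {f : CuspForm (Gamma0 N) 2}
    {x y : Module.End ℂ (CuspForm (Gamma0 N) 2)} (hc : CoeffModEq m (x f) ((c : ℂ) • f))
    (hx : x ∈ heckeAlgebra N 2 ∅) (hd : CoeffModEq m (y f) ((d : ℂ) • f)) :
    CoeffModEq m ((x * y) f) (((d * c : ℤ) : ℂ) • f) := by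
  have h1 := hd.map_hecke hm hx
  rw [map_smul] at h1
  have h2 := h1.trans (hc.smul_int d)
  rw [smul_smul, ← Int.cast_mul] at h2
  exact h2

/-- If `f` is an eigenvector modulo `m` of all generators with eigenvalues `a`, it is one of the
whole algebra. -/
theorem exists_eigenvalue_mod {m : ℤ} (hm : m ≠ 0) {f : CuspForm (Gamma0 N) 2}
    (a : Nat.Primes → ℤ)
    (hgen : ∀ ℓ : Nat.Primes,
      CoeffModEq m ((heckeFormsGen N 2 ℓ : Module.End ℂ _) f) ((a ℓ : ℂ) • f))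
    (t : ↥(heckeAlgebra N 2 ∅)) :
    ∃ c : ℤ, CoeffModEq m ((t : Module.End ℂ _) f) ((c : ℂ) • f) := by
  obtain ⟨t, ht⟩ := t
  induction ht using Algebra.adjoin_induction with
  | mem x hx =>
    rcases hx with ⟨ℓ, hℓ, hℓN, -, rfl⟩ | ⟨q, hqN, hq, -, rfl⟩
    · refine ⟨a ⟨ℓ, hℓ⟩, ?_⟩
      have := hgen ⟨ℓ, hℓ⟩
      rwa [heckeFormsGen_of_not_dvd (ℓ := ⟨ℓ, hℓ⟩) hℓN] at this
    · refine ⟨a ⟨q, hq⟩, ?_⟩
      have := hgen ⟨q, hq⟩
      rwa [heckeFormsGen_of_dvd (q := ⟨q, hq⟩) hqN] at this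
  | algebraMap r =>
    refine ⟨r, fun n => ⟨0, ?_⟩⟩
    simp [← Int.cast_smul_eq_zsmul ℂ]
  | add x y _ _ hx hy =>
    obtain ⟨c, hc⟩ := hx
    obtain ⟨d, hd⟩ := hy
    exact ⟨c + d, hc.eigen_add hd⟩
  | mul x y hx' _ hx hy =>
    obtain ⟨c, hc⟩ := hx
    obtain ⟨d, hd⟩ := hy
    exact ⟨d * c, hc.eigen_mul hm hx' hd⟩

/-- A mod `p` eigenform gives a maximal ideal of residue field `ℤ/p`. -/
theorem exists_maximal_of_eigen_mod {p : ℕ} (hp : p.Prime) {f : CuspForm (Gamma0 N) 2}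
    (hf : f ∈ intLattice N 2) {f1 : ℤ} (hf1 : qCoeff f 1 = (f1 : ℂ))
    (hf1p : ¬ (p : ℤ) ∣ f1) (a : Nat.Primes → ℤ)
    (hgen : ∀ ℓ : Nat.Primes,
      CoeffModEq (p : ℤ) ((heckeFormsGen N 2 ℓ : Module.End ℂ _) f) ((a ℓ : ℂ) • f)) :
    ∃ m : Ideal ↥(heckeAlgebra N 2 ∅), m.IsMaximal ∧
      (p : ↥(heckeAlgebra N 2 ∅)) ∈ m ∧
      ∀ ℓ : Nat.Primes, heckeFormsGen N 2 ℓ - (a ℓ : ↥(heckeAlgebra N 2 ∅)) ∈ m := by
  have hp0 : (p : ℤ) ≠ 0 := Int.natCast_ne_zero.mpr hp.ne_zero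
  have hpZ : Prime (p : ℤ) := Nat.prime_iff_prime_int.mp hp
  choose c hc using exists_eigenvalue_mod hp0 a hgen
  choose fz hfz using (mem_intLattice_iff f).mp hf
  obtain rfl : f1 = fz 1 := Int.cast_injective (hf1.symm.trans (hfz 1))
  -- the residual eigenvalue is unique
  have uniq : ∀ (t : ↥(heckeAlgebra N 2 ∅)) (d : ℤ),
      CoeffModEq (p : ℤ) ((t : Module.End ℂ _) f) ((d : ℂ) • f) → (p : ℤ) ∣ c t - d := by
    intro t d hd
    obtain ⟨u, hu⟩ := hc t 1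
    obtain ⟨w, hw⟩ := hd 1
    rw [qCoeff_smul, hf1] at hu hw
    have key : (((c t - d) * fz 1 : ℤ) : ℂ) = (((p : ℤ) * (w - u) : ℤ) : ℂ) := by
      push_cast at hu hw ⊢
      linear_combination hw - hu
    exact (hpZ.dvd_or_dvd (Dvd.intro (w - u) (Int.cast_injective key).symm)).resolve_right hf1p
  have modEq : ∀ {t : ↥(heckeAlgebra N 2 ∅)} {d : ℤ}, (p : ℤ) ∣ c t - d →
      (c t : ZMod p) = (d : ZMod p) := fun h =>
    (ZMod.intCast_eq_intCast_iff_dvd_sub _ _ p).mpr (dvd_sub_comm.mp h)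
  let θ : ↥(heckeAlgebra N 2 ∅) →+* ZMod p :=
    { toFun := fun t => (c t : ZMod p)
      map_one' := by
        rw [modEq (uniq 1 1 fun n => ⟨0, by simp⟩), Int.cast_one]
      map_mul' := fun s t => by
        rw [← Int.cast_mul]
        refine modEq (uniq _ _ ?_)
        have h := (hc s).eigen_mul hp0 s.2 (hc t)
        rw [Module.End.mul_apply, mul_comm (c t)] at h
        exact h
      map_zero' := by
        rw [modEq (uniq 0 0 fun n => ⟨0, by simp⟩), Int.cast_zero]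
      map_add' := fun s t => by
        rw [← Int.cast_add]
        refine modEq (uniq _ _ ?_)
        have h := (hc s).eigen_add (hc t)
        rw [LinearMap.add_apply] at h
        exact h }
  have := Fact.mk hp
  refine ⟨RingHom.ker θ, RingHom.ker_isMaximal_of_surjective θ (ZMod.ringHom_surjective θ),
    RingHom.mem_ker.mpr (by rw [map_natCast, ZMod.natCast_self]), fun ℓ => RingHom.mem_ker.mpr ?_⟩
  rw [map_sub, map_intCast, sub_eq_zero]
  exact modEq (uniq _ _ (hgen ℓ))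

/-- With an integral structure the Hecke algebra is a finite `ℤ`-module. -/
theorem moduleFinite_heckeAlgebra (hint : HasIntegralStructure N 2) :
    Module.Finite ℤ ↥(heckeAlgebra N 2 ∅) :=
  Module.Finite.of_injective (latticeRestrictHom N ∅).toLinearMap
    (latticeRestrictHom_bijective N ∅ hint).1

end Fermat.Agent.Eis
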