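import Fermat.Prelude.Def_CuspForm_HeckeEvalForms
import Fermat.Prelude.Def_FormalHecke_Eigensystem
import Fermat.Agent.Eis.CuspCoeff
import Fermat.Agent.Eis.Eigen

/-!
A character of the full Hecke algebra with a nonzero eigenvector gives a normalised eigenform. It
is used to produce eigenforms from eigenvectors of the Hecke algebra.
-/

noncomputable section

open CongruenceSubgroup ModularFormClass CuspForm

namespace Fermat.Agent.Eis

theorem IsEigensystem.coprime_mul {R : Type*} [CommRing R] {e a : ℕ → R}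
    (h : FormalHecke.IsEigensystem e a) :
    ∀ m n : ℕ, m.Coprime n → a (m * n) = a m * a n := by
  obtain ⟨h1, h2⟩ := h
  intro m
  induction m using Nat.strong_induction_on with
  | _ m ih =>
  intro n hmn
  rcases eq_or_ne m 1 with rfl | hm1
  · rw [one_mul, h1, one_mul]
  rcases eq_or_ne m 0 with rfl | hm0
  · rw [Nat.coprime_zero_left] at hmn
    subst hmn
    rw [mul_one, h1, mul_one]
  obtain ⟨q, hq, m', rfl⟩ := Nat.exists_prime_and_dvd hm1
  have hm'0 : 0 < m' := Nat.pos_of_ne_zero fun h => hm0 (by simp [h])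
  have hlt : m' < q * m' := lt_mul_left hm'0 hq.one_lt
  have hco' : m'.Coprime n := Nat.Coprime.coprime_mul_left hmn
  have hqn : ¬ q ∣ n := hq.coprime_iff_not_dvd.mp (Nat.Coprime.coprime_mul_right hmn)
  have A := h2 q hq (m' * n)
  have B := h2 q hq m'
  rw [ih m' hlt n hco'] at A
  rw [mul_assoc q m' n]
  by_cases hqm : q ∣ m'
  · rw [if_pos hqm] at B
    rw [if_pos (dvd_mul_of_dvd_left hqm n)] at A
    have hdlt : m' / q < q * m' := lt_of_le_of_lt (Nat.div_le_self _ _) hlt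
    have hdco : (m' / q).Coprime n := hco'.coprime_dvd_left (Nat.div_dvd_of_dvd hqm)
    rw [Nat.mul_comm m' n, Nat.mul_div_assoc n hqm, Nat.mul_comm n (m' / q),
      ih _ hdlt n hdco, Nat.mul_comm n m'] at A
    linear_combination A - a n * B
  · rw [if_neg hqm] at B
    have hnd : ¬ q ∣ m' * n := fun hh => (hq.dvd_mul.mp hh).elim hqm hqn
    rw [if_neg hnd] at A
    linear_combination A - a n * B

theorem IsEigensystem.prime_pow {R : Type*} [CommRing R] {e a : ℕ → R}
    (h : FormalHecke.IsEigensystem e a) {p : ℕ} (hp : p.Prime) (r : ℕ) :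
    a (p ^ (r + 2)) = a p * a (p ^ (r + 1)) - e p * a (p ^ r) := by
  have A := h.2 p hp (p ^ (r + 1))
  rw [if_pos (dvd_pow_self p (Nat.succ_ne_zero r)), pow_succ p r,
    Nat.mul_div_cancel _ hp.pos, ← pow_succ p r, ← pow_succ' p (r + 1)] at A
  linear_combination A

variable {N : ℕ} [NeZero N]

/-- The parameter `e` of a weight two eigensystem: `ℓ` away from the level, `0` at the level. -/
def weightTwoE (N : ℕ) (R : Type*) [CommRing R] (ℓ : ℕ) : R := if ℓ ∣ N then 0 else (ℓ : R)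

omit [NeZero N] in
/-- A form whose coefficients satisfy the Hecke recursion is a normalised eigenform. -/
theorem isNormalizedEigenform_of_isEigensystem {g : CuspForm (Gamma0 N) 2}
    (h : FormalHecke.IsEigensystem (weightTwoE N ℂ) (fun n => qCoeff g n)) :
    g.IsNormalizedEigenform where
  qCoeff_one := h.1
  qCoeff_mul_of_coprime := IsEigensystem.coprime_mul h
  qCoeff_prime_pow_of_not_dvd p r hp hpN := by
    have := IsEigensystem.prime_pow h hp r
    rwa [weightTwoE, if_neg hpN] at this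
  qCoeff_prime_pow_of_dvd p r hp hpN := by
    have := IsEigensystem.prime_pow h hp r
    rwa [weightTwoE, if_pos hpN, zero_mul, sub_zero] at this

/-- The coefficient recursion obtained from an eigenvector of all Hecke generators. -/
theorem qCoeff_recursion_of_eigen {χ : ↥(heckeAlgebra N 2 ∅) →+* ℂ} {v : CuspForm (Gamma0 N) 2}
    (hv : ∀ t : ↥(heckeAlgebra N 2 ∅), (t : Module.End ℂ _) v = χ t • v)
    {ℓ : ℕ} (hℓ : ℓ.Prime) (n : ℕ) :
    qCoeff v (ℓ * n) + weightTwoE N ℂ ℓ * (if ℓ ∣ n then qCoeff v (n / ℓ) else 0) =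
      χ (heckeFormsGen N 2 ⟨ℓ, hℓ⟩) * qCoeff v n := by
  have key := congrArg (fun x : CuspForm (Gamma0 N) 2 => qCoeff x n)
    (hv (heckeFormsGen N 2 ⟨ℓ, hℓ⟩))
  simp only [qCoeff_smul] at key
  by_cases hN : ℓ ∣ N
  · rw [← key, weightTwoE, if_pos hN, zero_mul, add_zero,
      heckeFormsGen_of_dvd (q := ⟨ℓ, hℓ⟩) hN, heckeAlgebra.coe_U, qCoeff_heckeULin hℓ hN]
  · rw [← key, weightTwoE, if_neg hN,
      heckeFormsGen_of_not_dvd (ℓ := ⟨ℓ, hℓ⟩) hN, heckeAlgebra.coe_T, qCoeff_heckeTLin hℓ hN]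

/-- The first coefficient of an eigenvector is nonzero. -/
theorem qCoeff_one_ne_zero_of_eigen {χ : ↥(heckeAlgebra N 2 ∅) →+* ℂ}
    {v : CuspForm (Gamma0 N) 2} (hv0 : v ≠ 0)
    (hv : ∀ t : ↥(heckeAlgebra N 2 ∅), (t : Module.End ℂ _) v = χ t • v) :
    qCoeff v 1 ≠ 0 := by
  intro h1
  refine hv0 (eq_zero_of_qCoeff v fun n => ?_)
  induction n using Nat.strong_induction_on with
  | _ n ih =>
  rcases eq_or_ne n 0 with rfl | hn0
  · exact qCoeff_cusp_zero v
  rcases eq_or_ne n 1 with rfl | hn1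
  · exact h1
  obtain ⟨q, hq, m, rfl⟩ := Nat.exists_prime_and_dvd hn1
  have hm : 0 < m := Nat.pos_of_ne_zero fun h => hn0 (by simp [h])
  have hlt : m < q * m := lt_mul_left hm hq.one_lt
  have key := qCoeff_recursion_of_eigen hv hq m
  rw [ih m hlt, mul_zero] at key
  split_ifs at key
  · rw [ih _ (lt_of_le_of_lt (Nat.div_le_self _ _) hlt), mul_zero, add_zero] at key
    exact key
  · rwa [mul_zero, add_zero] at key

/-- An eigencharacter of the full Hecke algebra is realised by a normalised eigenform. -/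
theorem exists_normalizedEigenform_of_eigen {χ : ↥(heckeAlgebra N 2 ∅) →+* ℂ}
    {v : CuspForm (Gamma0 N) 2} (hv0 : v ≠ 0)
    (hv : ∀ t : ↥(heckeAlgebra N 2 ∅), (t : Module.End ℂ _) v = χ t • v) :
    ∃ g : CuspForm (Gamma0 N) 2, g.IsNormalizedEigenform ∧
      ∀ (ℓ : ℕ) (hℓ : ℓ.Prime), qCoeff g ℓ = χ (heckeFormsGen N 2 ⟨ℓ, hℓ⟩) := by
  set c := qCoeff v 1 with hc
  have hc0 : c ≠ 0 := qCoeff_one_ne_zero_of_eigen hv0 hv
  set g := c⁻¹ • v with hg
  have hgv : ∀ t : ↥(heckeAlgebra N 2 ∅), (t : Module.End ℂ _) g = χ t • g := fun t => by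
    rw [hg, map_smul, hv, smul_comm]
  have hg1 : qCoeff g 1 = 1 := by rw [hg, qCoeff_smul, ← hc, inv_mul_cancel₀ hc0]
  have hcoef : ∀ (ℓ : ℕ) (hℓ : ℓ.Prime), qCoeff g ℓ = χ (heckeFormsGen N 2 ⟨ℓ, hℓ⟩) := by
    intro ℓ hℓ
    have := qCoeff_recursion_of_eigen hgv hℓ 1
    rwa [if_neg hℓ.not_dvd_one, mul_zero, add_zero, mul_one, hg1, mul_one] at this
  refine ⟨g, isNormalizedEigenform_of_isEigensystem ⟨hg1, fun ℓ hℓ n => ?_⟩, hcoef⟩
  beta_reduce
  rw [hcoef ℓ hℓ]
  exact qCoeff_recursion_of_eigen hgv hℓ n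

end Fermat.Agent.Eis
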