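import Mathlib.Algebra.Field.ZMod
import Mathlib.FieldTheory.Finite.Basic
import Mathlib.LinearAlgebra.Matrix.FixedDetMatrices
import Mathlib.NumberTheory.ModularForms.ArithmeticSubgroups
import Mathlib.NumberTheory.ModularForms.Basic
import Mathlib.NumberTheory.ModularForms.CongruenceSubgroups
import Mathlib.NumberTheory.ModularForms.LevelOne.Basic
import Mathlib.RingTheory.Coprime.Lemmas
import Mathlib.RingTheory.Fintype

/-!
The group `Γ₀(p)` for a prime `p`: cosets, a generation lemma, and the coset functions of a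
`Γ₀(p)`-invariant function. The coset functions give the trace and the norm from level `p` to
level one.
-/

noncomputable section

open UpperHalfPlane Matrix Matrix.SpecialLinearGroup CongruenceSubgroup ModularGroup
open scoped MatrixGroups ModularForm Manifold

namespace Fermat.Agent.Eis

/-- `S T ^ n`. -/
def stMat (n : ℤ) : SL(2, ℤ) := S * T ^ n

theorem coe_stMat (n : ℤ) : (stMat n : Matrix (Fin 2) (Fin 2) ℤ) = !![0, -1; 1, n] := by
  rw [stMat, coe_mul, coe_S, coe_T_zpow]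
  simp

theorem stMat_zero : stMat 0 = S := by simp [stMat]

variable {p : ℕ}

theorem mem_Gamma0_iff_dvd {γ : SL(2, ℤ)} : γ ∈ Gamma0 p ↔ (p : ℤ) ∣ γ 1 0 := by
  rw [Gamma0_mem, ZMod.intCast_zmod_eq_zero_iff_dvd]

theorem neg_one_mem_Gamma0 : (-1 : SL(2, ℤ)) ∈ Gamma0 p := by
  rw [mem_Gamma0_iff_dvd]; simp

/-- Every element is in `Γ₀(p)` or in `Γ₀(p) S T ^ n`. -/
theorem mem_or_exists_coset [hp : Fact p.Prime] (γ : SL(2, ℤ)) :
    γ ∈ Gamma0 p ∨ ∃ n : ℤ, γ * (stMat n)⁻¹ ∈ Gamma0 p := by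
  by_cases hc : (p : ℤ) ∣ γ 1 0
  · exact Or.inl (mem_Gamma0_iff_dvd.mpr hc)
  refine Or.inr ?_
  have hcop : IsCoprime (γ 1 0) (p : ℤ) :=
    ((Nat.prime_iff_prime_int.mp hp.out).coprime_iff_not_dvd.mpr hc).symm
  obtain ⟨u, v, huv⟩ := hcop
  refine ⟨u * γ 1 1, ?_⟩
  rw [mem_Gamma0_iff_dvd]
  refine ⟨-(v * γ 1 1), ?_⟩
  rw [coe_mul, coe_inv, Matrix.adjugate_fin_two, coe_stMat]
  simp only [Matrix.mul_apply, Fin.sum_univ_two, Matrix.of_apply, Matrix.cons_val_zero,
    Matrix.cons_val_one]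
  linear_combination γ 1 1 * huv

theorem conj_S_T_mem (n m : ℤ) (h : (p : ℤ) ∣ n * m + 1) :
    stMat n * S * (stMat m)⁻¹ ∈ Gamma0 p := by
  rw [mem_Gamma0_iff_dvd]
  obtain ⟨c, hc⟩ := h
  refine ⟨c, ?_⟩
  rw [coe_mul, coe_mul, coe_inv, Matrix.adjugate_fin_two, coe_stMat, coe_stMat, coe_S]
  simp only [Matrix.mul_apply, Fin.sum_univ_two, Matrix.of_apply, Matrix.cons_val_zero,
    Matrix.cons_val_one]
  linear_combination hc

theorem stMat_mul_inv_mem (n m : ℤ) (h : (p : ℤ) ∣ n - m) :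
    stMat n * (stMat m)⁻¹ ∈ Gamma0 p := by
  rw [mem_Gamma0_iff_dvd]
  obtain ⟨c, hc⟩ := h
  refine ⟨-c, ?_⟩
  rw [coe_mul, coe_inv, Matrix.adjugate_fin_two, coe_stMat, coe_stMat]
  simp only [Matrix.mul_apply, Fin.sum_univ_two, Matrix.of_apply, Matrix.cons_val_zero,
    Matrix.cons_val_one]
  linear_combination -hc

/-- Rounding: if `t ∤ d` one of two consecutive residues avoiding `p` gives a remainder smaller
than `t`. -/
theorem exists_small_unit_combination [hp : Fact p.Prime] {t d : ℤ} (ht : 2 ≤ |t|)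
    (hco : IsCoprime t d) :
    ∃ a : ℤ, ¬ (p : ℤ) ∣ a ∧ |t * a + d| < |t| := by
  have ht0 : t ≠ 0 := fun h => by simp [h] at ht
  have hnd : ¬ t ∣ d := fun h => by
    have hu : IsUnit t := hco.isUnit_of_dvd' dvd_rfl h
    rcases Int.isUnit_iff.mp hu with rfl | rfl <;> simp at ht
  have hp2 : ∀ a : ℤ, (p : ℤ) ∣ a → ¬ (p : ℤ) ∣ a + 1 ∧ ¬ (p : ℤ) ∣ a - 1 := fun a ha =>
    ⟨fun h => (Nat.prime_iff_prime_int.mp hp.out).not_dvd_one ((dvd_add_right ha).mp h),
     fun h => (Nat.prime_iff_prime_int.mp hp.out).not_dvd_one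
      (by have := dvd_sub ha h; rwa [sub_sub_cancel] at this)⟩
  have hm := Int.emod_emod_of_dvd (-d) (dvd_refl t)
  set r := (-d) % t
  have hr0 : r ≠ 0 := fun h => hnd (dvd_neg.mp (Int.dvd_of_emod_eq_zero h))
  have hr1 : 0 ≤ r := Int.emod_nonneg _ ht0
  have hr2 : r < |t| := Int.emod_lt_abs _ ht0
  set a := (-d) / t
  have hdiv : t * a + r = -d := Int.mul_ediv_add_emod _ _
  by_cases hpa : (p : ℤ) ∣ a
  · rcases lt_or_gt_of_ne ht0 with htn | htp
    · refine ⟨a - 1, (hp2 a hpa).2, ?_⟩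
      rw [abs_lt]; rw [abs_of_neg htn] at hr2 ⊢
      constructor <;> nlinarith [hr1.lt_of_ne (Ne.symm hr0)]
    · refine ⟨a + 1, (hp2 a hpa).1, ?_⟩
      rw [abs_lt]; rw [abs_of_pos htp] at hr2 ⊢
      constructor <;> nlinarith [hr1.lt_of_ne (Ne.symm hr0)]
  · refine ⟨a, hpa, ?_⟩
    rw [abs_lt]
    constructor <;> linarith [hr1.lt_of_ne (Ne.symm hr0)]

/-- A subgroup containing `-1`, the translations and all elements with lower left entry `p`
contains `Γ₀(p)`. -/
theorem Gamma0_le_of_generators [hp : Fact p.Prime] (H : Subgroup SL(2, ℤ))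
    (hneg : (-1 : SL(2, ℤ)) ∈ H) (hT : T ∈ H)
    (hgen : ∀ γ : SL(2, ℤ), γ 1 0 = (p : ℤ) → γ ∈ H) : Gamma0 p ≤ H := by
  have hneg' : ∀ γ : SL(2, ℤ), -γ ∈ H → γ ∈ H := fun γ h => by
    have := H.mul_mem hneg h
    rwa [neg_mul, one_mul, neg_neg] at this
  suffices ∀ (m : ℕ) (γ : SL(2, ℤ)) (t : ℤ), γ 1 0 = p * t → t.natAbs ≤ m → γ ∈ H by
    intro γ hγ
    obtain ⟨t, ht⟩ := mem_Gamma0_iff_dvd.mp hγ
    exact this _ γ t ht le_rfl
  intro m
  induction m with
  | zero =>
    intro γ t hγ ht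
    have : γ 1 0 = 0 := by rw [hγ, Int.natAbs_eq_zero.mp (Nat.le_zero.mp ht), mul_zero]
    have hdet := γ.2
    rw [Matrix.det_fin_two, this, mul_zero, sub_zero] at hdet
    rcases Int.mul_eq_one_iff_eq_one_or_neg_one.mp hdet with ⟨ha, hd⟩ | ⟨ha, hd⟩
    · have : γ = T ^ (γ 0 1) := by
        ext i j; fin_cases i <;> fin_cases j <;> simp [coe_T_zpow, ha, hd, this]
      rw [this]; exact H.zpow_mem hT _
    · refine hneg' γ ?_
      have : -γ = T ^ (-γ 0 1) := by
        ext i j; fin_cases i <;> fin_cases j <;> simp [coe_T_zpow, ha, hd, this]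
      rw [this]; exact H.zpow_mem hT _
  | succ m ih =>
    intro γ t hγ ht
    rcases lt_or_eq_of_le ht with h | h
    · exact ih γ t hγ (Nat.lt_succ_iff.mp h)
    rcases eq_or_ne m 0 with rfl | hm
    · rcases Int.natAbs_eq_iff.mp h with rfl | rfl
      · exact hgen γ (by simpa using hγ)
      · exact hneg' γ (hgen _ (by simp [hγ]))
    have ht2 : 2 ≤ |t| := by rw [Int.abs_eq_natAbs, h]; omega
    have hdet := γ.2
    rw [Matrix.det_fin_two] at hdet
    have hco : IsCoprime t (γ 1 1) :=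
      ⟨-(γ 0 1) * p, γ 0 0, by linear_combination hdet + γ 0 1 * hγ⟩
    obtain ⟨a, ha, hlt⟩ := exists_small_unit_combination (p := p) ht2 hco
    obtain ⟨u, v, huv⟩ := (((Nat.prime_iff_prime_int.mp hp.out).coprime_iff_not_dvd.mpr ha)).symm
    let M : SL(2, ℤ) :=
        ⟨!![a, -v; (p : ℤ), u], by rw [Matrix.det_fin_two_of]; linear_combination huv⟩
    have hM : M ∈ H := hgen M rfl
    have hγM : γ * M ∈ H := by
      refine ih (γ * M) (t * a + γ 1 1) ?_ ?_
      · rw [coe_mul]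
        simp only [Matrix.mul_apply, Fin.sum_univ_two, M, Matrix.of_apply, Matrix.cons_val_zero,
          Matrix.cons_val_one]
        linear_combination a * hγ
      · rw [Int.abs_eq_natAbs, Int.abs_eq_natAbs] at hlt
        omega
    exact (H.mul_mem_cancel_right hM).mp hγM

/-- Invariance under `Γ₀(p)` in weight `k`. -/
def Inv0 (p : ℕ) (k : ℤ) (f : ℍ → ℂ) : Prop := ∀ γ ∈ Gamma0 p, f ∣[k] γ = f

/-- The translates of `f` indexed by the projective line over `ℤ/p`. -/
def cosetFn (k : ℤ) (f : ℍ → ℂ) : Option (ZMod p) → ℍ → ℂ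
  | none => f
  | some j => f ∣[k] stMat (j.val : ℤ)

variable [hp : Fact p.Prime] {k : ℤ} {f : ℍ → ℂ}

omit hp in
theorem Inv0.slash_eq_of_mul_inv_mem (hf : Inv0 p k f) {A B : SL(2, ℤ)}
    (h : A * B⁻¹ ∈ Gamma0 p) : f ∣[k] A = f ∣[k] B := by
  have : A = A * B⁻¹ * B := by group
  rw [this, SlashAction.slash_mul, hf _ h]

theorem Inv0.slash_stMat (hf : Inv0 p k f) (n : ℤ) :
    f ∣[k] stMat n = cosetFn k f (some (n : ZMod p)) := by
  refine hf.slash_eq_of_mul_inv_mem (stMat_mul_inv_mem _ _ ?_)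
  rw [← ZMod.intCast_eq_intCast_iff_dvd_sub]
  simp

/-- The action of `T` on the index set. -/
def permT : Equiv.Perm (Option (ZMod p)) := (Equiv.addRight (1 : ZMod p)).optionCongr

/-- The action of `S` on the index set. -/
def actS : Option (ZMod p) → Option (ZMod p)
  | none => some 0
  | some j => if j = 0 then none else some (-j⁻¹)

theorem actS_involutive : Function.Involutive (actS (p := p)) := by
  rintro (_ | j)
  · simp [actS]
  · by_cases hj : j = 0 <;> simp [actS, hj]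

/-- The action of `S` on the index set, as a permutation. -/
def permS : Equiv.Perm (Option (ZMod p)) := actS_involutive.toPerm

theorem permS_apply (x : Option (ZMod p)) : permS x = actS x := rfl

omit hp in
theorem cosetFn_some (k : ℤ) (f : ℍ → ℂ) (j : ZMod p) :
    cosetFn k f (some j) = f ∣[k] stMat (j.val : ℤ) := rfl

omit hp in
theorem cosetFn_none (k : ℤ) (f : ℍ → ℂ) :
    cosetFn k f (none : Option (ZMod p)) = f := rfl

/-- `T` permutes the coset functions by `permT`. -/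
theorem Inv0.cosetFn_slash_T (hf : Inv0 p k f) (x : Option (ZMod p)) :
    cosetFn k f x ∣[k] T = cosetFn k f (permT x) := by
  rcases x with _ | j
  · have hT : (T : SL(2, ℤ)) ∈ Gamma0 p := by simp
    rw [show permT (none : Option (ZMod p)) = none by simp [permT], cosetFn_none, hf _ hT]
  · rw [show permT (some j) = some (j + 1) by simp [permT], cosetFn_some, ← SlashAction.slash_mul,
      show stMat (j.val : ℤ) * T = stMat (j.val + 1 : ℤ) by
          rw [stMat, stMat, _root_.mul_assoc, zpow_add_one],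
      hf.slash_stMat]
    congr 2
    simp

/-- `S` permutes the coset functions by `permS`. -/
theorem Inv0.cosetFn_slash_S (hf : Inv0 p k f) (x : Option (ZMod p)) :
    cosetFn k f x ∣[k] S = cosetFn k f (permS x) := by
  rw [permS_apply]
  rcases x with _ | j
  · rw [cosetFn_none, actS, show (0 : ZMod p) = ((0 : ℤ) : ZMod p) by simp, ← hf.slash_stMat,
      stMat_zero]
  · rw [cosetFn_some, ← SlashAction.slash_mul]
    by_cases hj : j = 0
    · subst hj
      have hS : stMat (((0 : ZMod p).val : ℕ) : ℤ) * S = -1 := by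
        have h0 : (((0 : ZMod p).val : ℕ) : ℤ) = 0 := by rw [ZMod.val_zero]; rfl
        rw [h0, stMat_zero]
        apply Subtype.ext
        rw [Matrix.SpecialLinearGroup.coe_mul, coe_S, Matrix.SpecialLinearGroup.coe_neg]
        ext i l; fin_cases i <;> fin_cases l <;> simp [Matrix.mul_apply, Fin.sum_univ_two]
      simp only [actS, if_pos, hS]
      exact hf _ neg_one_mem_Gamma0
    · simp only [actS, if_neg hj]
      refine hf.slash_eq_of_mul_inv_mem (conj_S_T_mem _ _ ?_)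
      rw [← ZMod.intCast_zmod_eq_zero_iff_dvd]
      simp [hj]

theorem isBoundedAtImInfty_vadd {g : ℍ → ℂ} (hg : IsBoundedAtImInfty g) (a : ℝ) :
    IsBoundedAtImInfty fun τ => g (a +ᵥ τ) := by
  rw [isBoundedAtImInfty_iff] at hg ⊢
  obtain ⟨M, A, hA⟩ := hg
  exact ⟨M, A, fun z hz => hA _ (by simpa [UpperHalfPlane.vadd_im] using hz)⟩

theorem slash_T_zpow_apply (g : ℍ → ℂ) (n : ℤ) (τ : ℍ) :
    (g ∣[k] (T ^ n)) τ = g ((n : ℝ) +ᵥ τ) := by
  rw [ModularForm.SL_slash_apply, modular_T_zpow_smul]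
  have h1 : denom (T ^ n : SL(2, ℤ)) τ = 1 := by
    rw [ModularGroup.denom_apply, coe_T_zpow]; simp
  rw [h1, one_zpow, mul_one]

/-- An invariant function bounded at both cusps is bounded at every cusp. -/
theorem Inv0.bdd_slash (hf : Inv0 p k f) (h0 : IsBoundedAtImInfty f)
    (hS : IsBoundedAtImInfty (f ∣[k] S)) (γ : SL(2, ℤ)) : IsBoundedAtImInfty (f ∣[k] γ) := by
  rcases mem_or_exists_coset (p := p) γ with h | ⟨n, h⟩
  · rwa [hf γ h]
  · rw [hf.slash_eq_of_mul_inv_mem h, stMat, SlashAction.slash_mul]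
    convert! isBoundedAtImInfty_vadd hS (n : ℝ) using 1
    funext τ
    exact slash_T_zpow_apply _ n τ

/-- Constructor for modular forms of level `Γ₀(p)`. -/
def mkForm (f : ℍ → ℂ) (hf : Inv0 p k f) (hh : MDiff f) (h0 : IsBoundedAtImInfty f)
    (hS : IsBoundedAtImInfty (f ∣[k] S)) : ModularForm (Gamma0 p) k where
  toFun := f
  slash_action_eq' := by
    rintro _ ⟨γ, hγ, rfl⟩
    exact hf γ hγ
  holo' := hh
  bdd_at_cusps' := by
    intro c hc
    rw [Subgroup.IsArithmetic.isCusp_iff_isCusp_SL2Z, isCusp_SL2Z_iff'] at hc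
    obtain ⟨g, rfl⟩ := hc
    rw [OnePoint.IsBoundedAt.smul_iff, OnePoint.isBoundedAt_infty_iff]
    exact hf.bdd_slash h0 hS g

@[simp] theorem coe_mkForm (f : ℍ → ℂ) (hf : Inv0 p k f) (hh : MDiff f)
    (h0 : IsBoundedAtImInfty f) (hS : IsBoundedAtImInfty (f ∣[k] S)) :
    ⇑(mkForm f hf hh h0 hS) = f := rfl

/-- Constructor for modular forms of level one. -/
def mkFormOne {k : ℤ} (f : ℍ → ℂ) (hS : f ∣[k] S = f) (hT : f ∣[k] T = f) (hh : MDiff f)
    (hbd : IsBoundedAtImInfty f) : ModularForm 𝒮ℒ k where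
  toFun := f
  slash_action_eq' := by
    rintro _ ⟨γ, rfl⟩
    exact SlashInvariantForm.slash_action_generators_SL2Z (k := k) hS hT γ
  holo' := hh
  bdd_at_cusps' := by
    intro c hc
    rw [isCusp_SL2Z_iff'] at hc
    obtain ⟨g, rfl⟩ := hc
    rw [OnePoint.IsBoundedAt.smul_iff, OnePoint.isBoundedAt_infty_iff,
      show f ∣[k] (mapGL ℝ g : GL (Fin 2) ℝ) = f from
        SlashInvariantForm.slash_action_generators_SL2Z (k := k) hS hT g]
    exact hbd

omit hp in
theorem inv0_of_modularForm (f : ModularForm (Gamma0 p) k) : Inv0 p k ⇑f := fun γ hγ =>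
  f.slash_action_eq' _ ⟨γ, hγ, rfl⟩

end Fermat.Agent.Eis
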