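import Mathlib.RingTheory.RootsOfUnity.Complex
import Fermat.Prelude.Def_ModularForm_HeckeOperator
import Fermat.Prelude.Thm_CongruenceSubgroup_one_mem_strictPeriods_Gamma0
import Fermat.Agent.Eis.Expansion
import Fermat.Agent.Eis.Gamma0

/-!
Pairs of expansions (at `∞` and at `0`) of forms of prime level, with the operations on them:
product, the Fricke swap, trace and norm to level one. Integrality statements at both cusps are
phrased in terms of these pairs.
-/

noncomputable section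

open UpperHalfPlane hiding I
open Matrix Matrix.SpecialLinearGroup CongruenceSubgroup ModularGroup Complex
open scoped MatrixGroups ModularForm Manifold Real

local notation "𝕢" => Function.Periodic.qParam

namespace Fermat.Agent.Eis

/-- `C` is the expansion of a level one form of weight `k`. -/
def IsOne (k : ℤ) (C : PowerSeries ℂ) : Prop :=
  ∃ f : ModularForm 𝒮ℒ k, qExpansion 1 ⇑f = C

/-- `A`, `B` are the expansions at `∞` and `0` (in the parameter `q ^ (1/p)`) of a form of level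
`Γ₀(p)` and weight `k`. -/
def IsPair (p : ℕ) (k : ℤ) (A B : PowerSeries ℂ) : Prop :=
  ∃ f : ModularForm (Gamma0 p) k,
    qExpansion 1 ⇑f = A ∧ qExpansion (p : ℝ) (⇑f ∣[k] S) = B

variable {p : ℕ} [hp : Fact p.Prime] {k : ℤ}

omit hp in
theorem goodFn_form (f : ModularForm (Gamma0 p) k) : GoodFn 1 ⇑f := by
  have hΓ := one_mem_strictPeriods_Gamma0 p
  have : Fact (IsCusp OnePoint.infty ((Gamma0 p).map (mapGL ℝ))) :=
    ⟨Subgroup.isCusp_of_mem_strictPeriods one_pos hΓ⟩
  exact ⟨SlashInvariantFormClass.periodic_comp_ofComplex f hΓ, f.holo',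
    ModularFormClass.bdd_at_infty f⟩

theorem cast_p_pos : (0 : ℝ) < p := by exact_mod_cast hp.out.pos

theorem slash_S_vadd {f : ℍ → ℂ} (n : ℤ) (τ : ℍ) :
    (f ∣[k] stMat n) τ = (f ∣[k] S) ((n : ℝ) +ᵥ τ) := by
  rw [stMat, SlashAction.slash_mul, slash_T_zpow_apply]

theorem goodFn_slash_S (f : ModularForm (Gamma0 p) k) : GoodFn (p : ℝ) (⇑f ∣[k] S) := by
  have : NeZero p := ⟨hp.out.ne_zero⟩
  refine ⟨?_, f.holo'.slash k _, ModularFormClass.bdd_at_infty_slash f S⟩
  have key : ∀ τ : ℍ, (⇑f ∣[k] S) ((p : ℝ) +ᵥ τ) = (⇑f ∣[k] S) τ := fun τ => by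
    rw [show ((p : ℝ) +ᵥ τ) = (((p : ℤ) : ℝ) +ᵥ τ) by norm_num, ← slash_S_vadd,
      (inv0_of_modularForm f).slash_eq_of_mul_inv_mem (B := S)
        (by rw [← stMat_zero]; exact stMat_mul_inv_mem _ _ (by simp))]
  intro w
  rcases lt_or_ge 0 (Complex.im w) with hw | hw
  · have hw' : 0 < Complex.im (w + (p : ℝ)) := by simpa using hw
    simp only [Function.comp_apply, ofComplex_apply_of_im_pos hw',
      ofComplex_apply_of_im_pos hw]
    rw [← key ⟨w, hw⟩]
    exact congrArg (⇑f ∣[k] S) (UpperHalfPlane.ext (by simp [add_comm]))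
  · have hw' : Complex.im (w + (p : ℝ)) ≤ 0 := by simpa using hw
    simp only [Function.comp_apply, ofComplex_apply_of_im_nonpos hw',
      ofComplex_apply_of_im_nonpos hw]

theorem IsPair.add {A B A' B' : PowerSeries ℂ} (h : IsPair p k A B) (h' : IsPair p k A' B') :
    IsPair p k (A + A') (B + B') := by
  obtain ⟨f, rfl, rfl⟩ := h
  obtain ⟨g, rfl, rfl⟩ := h'
  refine ⟨f + g, ?_, ?_⟩
  · rw [FunLike.coe_add, qExpansion_add ((goodFn_form f).analyticAt one_pos)
      ((goodFn_form g).analyticAt one_pos)]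
  · rw [FunLike.coe_add, SlashAction.add_slash,
      qExpansion_add ((goodFn_slash_S f).analyticAt cast_p_pos)
        ((goodFn_slash_S g).analyticAt cast_p_pos)]

theorem IsPair.smul {A B : PowerSeries ℂ} (c : ℂ) (h : IsPair p k A B) :
    IsPair p k (c • A) (c • B) := by
  obtain ⟨f, rfl, rfl⟩ := h
  refine ⟨c • f, ?_, ?_⟩
  · rw [FunLike.coe_smul, qExpansion_smul ((goodFn_form f).analyticAt one_pos)]
  · rw [FunLike.coe_smul, ModularForm.SL_smul_slash,
      qExpansion_smul ((goodFn_slash_S f).analyticAt cast_p_pos)]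

theorem IsPair.sub {A B A' B' : PowerSeries ℂ} (h : IsPair p k A B) (h' : IsPair p k A' B') :
    IsPair p k (A - A') (B - B') := by
  simpa [sub_eq_add_neg] using h.add (h'.smul (-1))

/-- Pairs of expansions multiply, adding the weights. -/
theorem IsPair.mul {l : ℤ} {A B A' B' : PowerSeries ℂ} (h : IsPair p k A B)
    (h' : IsPair p l A' B') : IsPair p (k + l) (A * A') (B * B') := by
  obtain ⟨f, rfl, rfl⟩ := h
  obtain ⟨g, rfl, rfl⟩ := h'
  refine ⟨f.mul g, ?_, ?_⟩
  · rw [ModularForm.coe_mul, qExpansion_mul ((goodFn_form f).analyticAt one_pos)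
      ((goodFn_form g).analyticAt one_pos)]
  · rw [ModularForm.coe_mul, ModularForm.mul_slash_SL2,
      qExpansion_mul ((goodFn_slash_S f).analyticAt cast_p_pos)
        ((goodFn_slash_S g).analyticAt cast_p_pos)]

omit hp in
theorem IsOne.congr_weight {l : ℤ} {C : PowerSeries ℂ} (h : IsOne k C) (e : k = l) :
    IsOne l C := e ▸ h

theorem goodFn_levelOne (g : ModularForm 𝒮ℒ k) : GoodFn 1 ⇑g :=
  ⟨SlashInvariantFormClass.periodic_comp_ofComplex g one_mem_strictPeriods_SL, g.holo',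
    ModularFormClass.bdd_at_infty g⟩

/-- A level one expansion seen as a pair of level `p`. -/
theorem IsOne.toPair {C : PowerSeries ℂ} (h : IsOne k C) [NeZero p] : IsPair p k C (vOp p C) := by
  obtain ⟨g, rfl⟩ := h
  have hS : ⇑g ∣[k] S = ⇑g := g.slash_action_eq' _ ⟨S, rfl⟩
  refine ⟨mkForm ⇑g (fun γ _ => g.slash_action_eq' _ ⟨γ, rfl⟩) g.holo'
    (goodFn_levelOne g).bdd (by rw [hS]; exact (goodFn_levelOne g).bdd), rfl, ?_⟩
  rw [coe_mkForm, hS, qExpansion_of_one_periodic p (goodFn_levelOne g)]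

/-- The unnormalised Fricke transform `τ ↦ (f ∣ S) (p τ)`. -/
def frickeFn (p : ℕ) (k : ℤ) (f : ℍ → ℂ) : ℍ → ℂ :=
  ((p : ℂ) ^ (k - 1))⁻¹ • ((f ∣[k] S) ∣[k] ModularForm.heckeDiagMatrix p)

theorem frickeFn_apply (f : ℍ → ℂ) (τ : ℍ) :
    frickeFn p k f τ = (f ∣[k] S) (ModularForm.heckeDiagMatrix p • τ) := by
  have h : (p : ℂ) ^ (k - 1) ≠ 0 := zpow_ne_zero _ (Nat.cast_ne_zero.mpr hp.out.ne_zero)
  rw [frickeFn, Pi.smul_apply, ModularForm.slash_heckeDiagMatrix_apply k hp.out.ne_zero,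
    smul_eq_mul, ← mul_assoc, inv_mul_cancel₀ h, one_mul]

/-- The Fricke transform of an invariant function is invariant. -/
theorem inv0_frickeFn {f : ℍ → ℂ} (hf : Inv0 p k f) : Inv0 p k (frickeFn p k f) := by
  intro γ hγ
  obtain ⟨c, hc⟩ := mem_Gamma0_iff_dvd.mp hγ
  have hdet := γ.2
  rw [Matrix.det_fin_two, hc] at hdet
  let γ' : SL(2, ℤ) := ⟨!![γ 1 1, -c; -(p * γ 0 1), γ 0 0], by
    rw [Matrix.det_fin_two_of]; linear_combination hdet⟩
  have hγ' : γ' ∈ Gamma0 p := mem_Gamma0_iff_dvd.mpr ⟨-(γ 0 1), by simp [γ']⟩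
  have hmat : (mapGL ℝ S : GL (Fin 2) ℝ) * ModularForm.heckeDiagMatrix p * mapGL ℝ γ =
      mapGL ℝ γ' * mapGL ℝ S * ModularForm.heckeDiagMatrix p := by
    apply Units.ext
    simp only [Units.val_mul, ModularForm.val_heckeDiagMatrix hp.out.ne_zero]
    ext i j
    fin_cases i <;> fin_cases j <;>
      simp [γ', coe_S, Matrix.mul_apply, Fin.sum_univ_two, mapGL, hc] <;> ring
  have hdetpos : 0 < ((mapGL ℝ γ : GL (Fin 2) ℝ).det : ℝ) := by simp
  simp only [frickeFn, ModularForm.SL_smul_slash]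
  congr 1
  show ((f ∣[k] (mapGL ℝ S : GL (Fin 2) ℝ)) ∣[k] ModularForm.heckeDiagMatrix p) ∣[k]
      (mapGL ℝ γ : GL (Fin 2) ℝ) = (f ∣[k] (mapGL ℝ S : GL (Fin 2) ℝ)) ∣[k]
        ModularForm.heckeDiagMatrix p
  rw [← SlashAction.slash_mul, ← SlashAction.slash_mul, ← SlashAction.slash_mul, ← mul_assoc, hmat,
    mul_assoc, SlashAction.slash_mul]
  congr 1
  exact hf γ' hγ'

theorem coe_heckeDiag_smul (τ : ℍ) :
    ((ModularForm.heckeDiagMatrix p • τ : ℍ) : ℂ) = (p : ℂ) * τ :=
  ModularForm.coe_heckeDiagMatrix_smul hp.out.ne_zero τ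

theorem hasSum_frickeFn (f : ModularForm (Gamma0 p) k) (τ : ℍ) :
    HasSum (fun m => (qExpansion (p : ℝ) (⇑f ∣[k] S)).coeff m * 𝕢 1 τ ^ m)
      (frickeFn p k ⇑f τ) := by
  rw [frickeFn_apply]
  refine ((goodFn_slash_S f).hasSum cast_p_pos _).congr_fun fun m => ?_
  congr 2
  rw [coe_heckeDiag_smul]
  unfold Function.Periodic.qParam
  have hpC : (p : ℂ) ≠ 0 := Nat.cast_ne_zero.mpr hp.out.ne_zero
  congr 1
  simp only [ofReal_natCast, ofReal_one, div_one]
  field_simp

/-- The Fricke transform at the cusp `0` is `f(τ / p)` up to a constant. -/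
theorem frickeFn_slash_S_apply (f : ℍ → ℂ) (τ : ℍ) :
    (frickeFn p k f ∣[k] S) τ =
      (-(p : ℂ))⁻¹ ^ k * f ⟨(τ : ℂ) / (p : ℝ), by
        rw [Complex.div_ofReal_im]; exact div_pos τ.im_pos cast_p_pos⟩ := by
  have hpC : (p : ℂ) ≠ 0 := Nat.cast_ne_zero.mpr hp.out.ne_zero
  have hτ : (τ : ℂ) ≠ 0 := τ.ne_zero
  set σ : ℍ := ModularForm.heckeDiagMatrix p • (S • τ) with hσdef
  have hσ : (σ : ℂ) = -(p : ℂ) / τ := by
    rw [hσdef, coe_heckeDiag_smul, UpperHalfPlane.modular_S_smul]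
    simp only [inv_neg]
    field_simp
  have hσ' : S • σ = (⟨(τ : ℂ) / (p : ℝ), by
      rw [Complex.div_ofReal_im]; exact div_pos τ.im_pos cast_p_pos⟩ : ℍ) := by
    ext
    rw [UpperHalfPlane.modular_S_smul]
    simp only [hσ, ofReal_natCast]
    field_simp
  rw [ModularForm.SL_slash_apply, frickeFn_apply, ← hσdef, ModularForm.SL_slash_apply, hσ',
    ModularGroup.denom_S, ModularGroup.denom_S, hσ, mul_assoc, mul_comm]
  congr 1
  rw [← mul_zpow, _root_.inv_zpow']
  congr 1
  field_simp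

theorem hasSum_frickeFn_slash_S (f : ModularForm (Gamma0 p) k) (τ : ℍ) :
    HasSum (fun m => ((-(p : ℂ))⁻¹ ^ k • qExpansion 1 ⇑f).coeff m * 𝕢 (p : ℝ) τ ^ m)
      ((frickeFn p k ⇑f ∣[k] S) τ) := by
  rw [frickeFn_slash_S_apply]
  refine (((goodFn_form f).hasSum one_pos _).mul_left _).congr_fun fun m => ?_
  rw [PowerSeries.coeff_smul, smul_eq_mul, mul_assoc]
  congr 3
  unfold Function.Periodic.qParam
  congr 1
  simp only [ofReal_natCast, ofReal_one, div_one]
  ring

/-- The swap of the two expansions. -/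
theorem IsPair.swap {A B : PowerSeries ℂ} (h : IsPair p k A B) :
    IsPair p k B ((-(p : ℂ))⁻¹ ^ k • A) := by
  obtain ⟨f, rfl, rfl⟩ := h
  refine ⟨mkForm (frickeFn p k ⇑f) (inv0_frickeFn (inv0_of_modularForm f))
    (goodFn_of_hasSum one_pos (hasSum_frickeFn f)).holo
    (goodFn_of_hasSum one_pos (hasSum_frickeFn f)).bdd
    (goodFn_of_hasSum cast_p_pos (hasSum_frickeFn_slash_S f)).bdd,
    qExpansion_eq_of_hasSum one_pos _ (hasSum_frickeFn f),
    qExpansion_eq_of_hasSum cast_p_pos _ (hasSum_frickeFn_slash_S f)⟩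

/-- A primitive `p`-th root of unity. -/
def zetaP (p : ℕ) : ℂ := Complex.exp (2 * π * Complex.I / p)

theorem isPrimitiveRoot_zetaP : IsPrimitiveRoot (zetaP p) p :=
  Complex.isPrimitiveRoot_exp p hp.out.ne_zero

omit hp in
theorem qParam_natCast (j : ℕ) : 𝕢 (p : ℝ) ((j : ℝ) : ℂ) = zetaP p ^ j := by
  unfold Function.Periodic.qParam zetaP
  rw [← Complex.exp_nat_mul]
  congr 1
  push_cast
  ring

/-- The coset functions are periodic of period `p`, holomorphic and bounded at infinity. -/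
theorem goodFn_cosetFn (f : ModularForm (Gamma0 p) k) (x : Option (ZMod p)) :
    GoodFn (p : ℝ) (cosetFn k ⇑f x) := by
  have : NeZero p := ⟨hp.out.ne_zero⟩
  rcases x with _ | j
  · exact goodFn_of_one_periodic p (goodFn_form f)
  · have h := goodFn_slash_S f
    refine goodFn_of_hasSum cast_p_pos (c := fun m => (PowerSeries.rescale (zetaP p ^ j.val)
      (qExpansion (p : ℝ) (⇑f ∣[k] S))).coeff m) fun τ => ?_
    rw [cosetFn_some, slash_S_vadd]
    refine (h.hasSum cast_p_pos _).congr_fun fun m => ?_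
    rw [PowerSeries.coeff_rescale, UpperHalfPlane.coe_vadd, Int.cast_natCast]
    rw [show 𝕢 (p : ℝ) (((j.val : ℝ) : ℂ) + (τ : ℂ)) = zetaP p ^ j.val * 𝕢 (p : ℝ) τ by
      rw [← qParam_natCast]
      unfold Function.Periodic.qParam
      rw [← Complex.exp_add]; ring_nf, mul_pow]
    ring

/-- Expansions of the coset functions are twists of the expansion at `0`. -/
theorem qExpansion_cosetFn_some (f : ModularForm (Gamma0 p) k) (j : ZMod p) :
    qExpansion (p : ℝ) (cosetFn k ⇑f (some j)) =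
      PowerSeries.rescale (zetaP p ^ j.val) (qExpansion (p : ℝ) (⇑f ∣[k] S)) := by
  rw [← qParam_natCast]
  exact qExpansion_shift cast_p_pos (goodFn_slash_S f) _ fun τ => by
    rw [cosetFn_some, slash_S_vadd, Int.cast_natCast]

/-- The trace to level one, as a modular form. -/
def traceForm (f : ModularForm (Gamma0 p) k) : ModularForm 𝒮ℒ k :=
  mkFormOne (∑ x : Option (ZMod p), cosetFn k ⇑f x)
    (by rw [SlashAction.sum_slash]
        simp only [(inv0_of_modularForm f).cosetFn_slash_S]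
        exact Equiv.sum_comp (permS (p := p)) _)
    (by rw [SlashAction.sum_slash]
        simp only [(inv0_of_modularForm f).cosetFn_slash_T]
        exact Equiv.sum_comp (permT (p := p)) _)
    (goodFn_sum Finset.univ fun x _ => goodFn_cosetFn f x).holo
    (goodFn_sum Finset.univ fun x _ => goodFn_cosetFn f x).bdd

theorem sum_zetaP_pow (m : ℕ) :
    ∑ j : ZMod p, (zetaP p ^ j.val) ^ m = if p ∣ m then (p : ℂ) else 0 := by
  have hζ := isPrimitiveRoot_zetaP (p := p)
  have : NeZero p := ⟨hp.out.ne_zero⟩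
  rw [Finset.sum_bij' (fun (j : ZMod p) _ => j.val) (fun (i : ℕ) _ => (i : ZMod p))
    (fun j _ => Finset.mem_range.mpr (ZMod.val_lt j)) (fun _ _ => Finset.mem_univ _)
    (fun j _ => ZMod.natCast_zmod_val j)
    (fun i hi => ZMod.val_cast_of_lt (Finset.mem_range.mp hi))
    (g := fun i => (zetaP p ^ m) ^ i) (fun j _ => by rw [← pow_mul, ← pow_mul, mul_comm])]
  split_ifs with h
  · obtain ⟨c, rfl⟩ := h
    simp [pow_mul, hζ.pow_eq_one]
  · have h1 : zetaP p ^ m ≠ 1 := fun hh => h ((hζ.pow_eq_one_iff_dvd m).mp hh)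
    rw [geom_sum_eq h1, ← pow_mul, mul_comm, pow_mul, hζ.pow_eq_one]
    simp

/-- The trace of a pair. -/
theorem IsPair.trace {A B : PowerSeries ℂ} (h : IsPair p k A B) :
    IsOne k (A + (p : ℂ) • uOp p B) := by
  obtain ⟨f, rfl, rfl⟩ := h
  have : NeZero p := ⟨hp.out.ne_zero⟩
  refine ⟨traceForm f, vOp_injective p ?_⟩
  rw [← qExpansion_of_one_periodic p (goodFn_levelOne (traceForm f))]
  show qExpansion (p : ℝ) (∑ x : Option (ZMod p), cosetFn k ⇑f x) = _
  rw [qExpansion_goodFn_sum cast_p_pos _ fun x _ => goodFn_cosetFn f x, Fintype.sum_option]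
  simp only [qExpansion_cosetFn_some, cosetFn_none,
    qExpansion_of_one_periodic p (goodFn_form f), map_add]
  congr 1
  ext m
  simp only [map_sum, PowerSeries.coeff_rescale, ← Finset.sum_mul, sum_zetaP_pow,
    PowerSeries.coeff_expand, PowerSeries.coeff_smul, coeff_uOp, smul_eq_mul]
  split_ifs with h
  · rw [Nat.mul_div_cancel' h]
  · rw [zero_mul]

/-- The norm to level one, as a modular form. -/
def normForm (f : ModularForm (Gamma0 p) k) : ModularForm 𝒮ℒ (k * (p + 1)) :=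
  have hcard : k * ((Finset.univ : Finset (Option (ZMod p))).card : ℤ) = k * ((p : ℤ) + 1) := by
    simp [ZMod.card]
  mkFormOne (∏ x : Option (ZMod p), cosetFn k ⇑f x)
    (by rw [← hcard, ModularForm.SL_slash, ModularForm.prod_slash]
        simp only [← ModularForm.SL_slash, (inv0_of_modularForm f).cosetFn_slash_S]
        rw [Equiv.prod_comp (permS (p := p)) (cosetFn k ⇑f)]
        simp [-Fintype.prod_option, -Fintype.card_option])
    (by rw [← hcard, ModularForm.SL_slash, ModularForm.prod_slash]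
        simp only [← ModularForm.SL_slash, (inv0_of_modularForm f).cosetFn_slash_T]
        rw [Equiv.prod_comp (permT (p := p)) (cosetFn k ⇑f)]
        simp [-Fintype.prod_option, -Fintype.card_option])
    (goodFn_prod Finset.univ fun x _ => goodFn_cosetFn f x).holo
    (goodFn_prod Finset.univ fun x _ => goodFn_cosetFn f x).bdd

/-- The norm of a pair. -/
theorem IsPair.norm [NeZero p] {A B : PowerSeries ℂ} (h : IsPair p k A B) :
    ∃ C, IsOne (k * (p + 1)) C ∧
      vOp p C = vOp p A * ∏ j : ZMod p, PowerSeries.rescale (zetaP p ^ j.val) B := by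
  obtain ⟨f, rfl, rfl⟩ := h
  refine ⟨_, ⟨normForm f, rfl⟩, ?_⟩
  rw [← qExpansion_of_one_periodic p (goodFn_levelOne (normForm f))]
  show qExpansion (p : ℝ) (∏ x : Option (ZMod p), cosetFn k ⇑f x) = _
  rw [qExpansion_goodFn_prod cast_p_pos _ fun x _ => goodFn_cosetFn f x, Fintype.prod_option]
  simp only [qExpansion_cosetFn_some, cosetFn_none,
    qExpansion_of_one_periodic p (goodFn_form f)]

end Fermat.Agent.Eis
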