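import Mathlib.NumberTheory.ModularForms.EisensteinSeries.E2.MDifferentiable
import Mathlib.NumberTheory.ModularForms.EisensteinSeries.E2.Transform
import Fermat.Agent.Eis.Eigenform
import Fermat.Agent.Eis.Pair

/-!
The Eisenstein series `(p E₂(pτ) - E₂(τ)) / 24` of weight two and level `p`. Its coefficients are
the eigensystem defining the Eisenstein ideal.
-/

noncomputable section

open Complex ModularGroup CongruenceSubgroup EisensteinSeries
open UpperHalfPlane hiding I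
open scoped Real MatrixGroups ModularForm Manifold ArithmeticFunction.sigma

local notation "𝕢" => Function.Periodic.qParam

namespace Fermat.Agent.Eis

/-- The sum of the divisors of the part of `n` prime to `p`. -/
def eisA (p n : ℕ) : ℕ := if n = 0 then 0 else σ 1 (ordCompl[p] n)

/-- `σ₁(n)` split by the part of `n` prime to `p`. -/
theorem sigma_one_split {p : ℕ} (hp : p.Prime) {n : ℕ} (hn : n ≠ 0) (hd : p ∣ n) :
    σ 1 n = σ 1 (ordCompl[p] n) + p * σ 1 (n / p) := by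
  obtain ⟨k, m, hpm, rfl⟩ : ∃ k m, ¬ p ∣ m ∧ n = p ^ k * m :=
    ⟨n.factorization p, ordCompl[p] n, Nat.not_dvd_ordCompl hp hn,
      (Nat.ordProj_mul_ordCompl_eq_self n p).symm⟩
  obtain ⟨j, rfl⟩ : ∃ j, k = j + 1 := ⟨k - 1, by
    rcases Nat.eq_zero_or_pos k with rfl | hk
    · simp only [pow_zero, one_mul] at hd
      exact absurd hd hpm
    · omega⟩
  have hco : ∀ i : ℕ, Nat.Coprime (p ^ i) m := fun i =>
    ((hp.coprime_iff_not_dvd.mpr hpm).pow_left i)
  rw [Nat.ordCompl_pow_mul_of_not_dvd _ hp hpm, show p ^ (j + 1) * m / p = p ^ j * m by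
      rw [pow_succ', mul_assoc, Nat.mul_div_cancel_left _ hp.pos],
    ArithmeticFunction.isMultiplicative_sigma.map_mul_of_coprime (hco _),
    ArithmeticFunction.isMultiplicative_sigma.map_mul_of_coprime (hco _),
    ArithmeticFunction.sigma_one_apply_prime_pow hp,
    ArithmeticFunction.sigma_one_apply_prime_pow hp, Finset.sum_range_succ' _ (j + 1)]
  simp only [pow_zero, pow_succ']
  rw [add_mul, one_mul, Finset.sum_mul, Finset.sum_mul, Finset.mul_sum, add_comm]
  congr 1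
  exact Finset.sum_congr rfl fun i _ => by ring

theorem eisA_one {p : ℕ} : eisA p 1 = 1 := by
  simp [eisA]

theorem eisA_of_ne_zero {p n : ℕ} (hn : n ≠ 0) : eisA p n = σ 1 (ordCompl[p] n) := if_neg hn

/-- The coefficients of the Eisenstein series form a formal eigensystem of level `p`. -/
theorem isEigensystem_eisA {p : ℕ} (hp : p.Prime) (R : Type*) [CommRing R] :
    FormalHecke.IsEigensystem (weightTwoE p R) (fun n => (eisA p n : R)) := by
  refine ⟨by simp [eisA_one], fun ℓ hℓ n => ?_⟩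
  beta_reduce
  rcases eq_or_ne n 0 with rfl | hn
  · simp [eisA]
  have hℓn : ℓ * n ≠ 0 := mul_ne_zero hℓ.ne_zero hn
  rw [eisA_of_ne_zero hℓn, eisA_of_ne_zero hℓ.ne_zero, eisA_of_ne_zero hn, Nat.ordCompl_mul]
  by_cases hℓp : ℓ ∣ p
  · obtain rfl := (Nat.prime_dvd_prime_iff_eq hℓ hp).mp hℓp
    rw [weightTwoE, if_pos hℓp, zero_mul, add_zero,
      show ordCompl[ℓ] ℓ = 1 by simpa using Nat.ordCompl_self_pow (k := 1) hℓ]
    simp
  · have hpℓ : ¬ p ∣ ℓ := fun h => hℓp ((Nat.prime_dvd_prime_iff_eq hp hℓ).mp h ▸ dvd_rfl)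
    rw [(Nat.ordCompl_eq_self_iff_zero_or_not_dvd ℓ hp).mpr (Or.inr hpℓ), weightTwoE, if_neg hℓp]
    set m := ordCompl[p] n with hm
    have hm0 : m ≠ 0 := (Nat.ordCompl_pos p hn).ne'
    have hdvd : ℓ ∣ n ↔ ℓ ∣ m := by
      refine ⟨fun h => ?_, fun h => h.trans (Nat.ordCompl_dvd n p)⟩
      have := Nat.ordCompl_dvd_ordCompl_of_dvd h p
      rwa [(Nat.ordCompl_eq_self_iff_zero_or_not_dvd ℓ hp).mpr (Or.inr hpℓ)] at this
    by_cases hd : ℓ ∣ n
    · obtain ⟨k, hk⟩ := hd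
      have hk0 : k ≠ 0 := fun h => hn (by simp [hk, h])
      have hmk : m = ℓ * ordCompl[p] k := by
        rw [hm, hk, Nat.ordCompl_mul,
          (Nat.ordCompl_eq_self_iff_zero_or_not_dvd ℓ hp).mpr (Or.inr hpℓ)]
      rw [if_pos ⟨k, hk⟩, show n / ℓ = k by rw [hk, Nat.mul_div_cancel_left _ hℓ.pos],
        eisA_of_ne_zero hk0, hmk]
      set t := ordCompl[p] k
      have ht : t ≠ 0 := (Nat.ordCompl_pos p hk0).ne'
      have h1 := sigma_one_split hℓ (mul_ne_zero hℓ.ne_zero (mul_ne_zero hℓ.ne_zero ht))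
        (dvd_mul_right ℓ (ℓ * t))
      have h2 := sigma_one_split hℓ (mul_ne_zero hℓ.ne_zero ht) (dvd_mul_right ℓ t)
      have e : ordCompl[ℓ] (ℓ * (ℓ * t)) = ordCompl[ℓ] t ∧ ordCompl[ℓ] (ℓ * t) = ordCompl[ℓ] t := by
        have e1 : ordCompl[ℓ] ℓ = 1 := by simpa using Nat.ordCompl_self_pow (k := 1) hℓ
        simp only [Nat.ordCompl_mul, e1, one_mul, and_self]
      rw [e.1, Nat.mul_div_cancel_left _ hℓ.pos] at h1
      rw [e.2, Nat.mul_div_cancel_left _ hℓ.pos] at h2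
      have hσℓ : σ 1 ℓ = 1 + ℓ := by
        have := ArithmeticFunction.sigma_one_apply_prime_pow (i := 1) hℓ
        simpa [Finset.sum_range_succ] using this
      have key : σ 1 (ℓ * (ℓ * t)) + ℓ * σ 1 t = σ 1 ℓ * σ 1 (ℓ * t) := by
        rw [hσℓ]; nlinarith [h1, h2]
      have key' := congrArg (Nat.cast (R := R)) key
      push_cast at key' ⊢
      exact key'
    · rw [if_neg hd, mul_zero, add_zero,
        ArithmeticFunction.isMultiplicative_sigma.map_mul_of_coprime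
          (hℓ.coprime_iff_not_dvd.mpr (hdvd.not.mp hd))]
      push_cast
      ring

variable {p : ℕ} [hp : Fact p.Prime]

/-- The point `p τ`. -/
def pMul (p : ℕ) [hp : Fact p.Prime] (τ : ℍ) : ℍ :=
  ⟨(p : ℂ) * τ, by have := hp.out.pos; simpa using mul_pos (by exact_mod_cast this) τ.im_pos⟩

/-- The point `τ / p`. -/
def pDiv (p : ℕ) [hp : Fact p.Prime] (τ : ℍ) : ℍ :=
  ⟨(τ : ℂ) / p, by
    have := hp.out.pos
    rw [div_eq_mul_inv, mul_comm, ← ofReal_natCast, ← ofReal_inv, im_ofReal_mul]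
    exact mul_pos (by positivity) τ.im_pos⟩

/-- The weight two Eisenstein function `(p E₂(p τ) - E₂(τ)) / 24` of level `p`. -/
def eisFn (p : ℕ) [Fact p.Prime] (τ : ℍ) : ℂ := ((p : ℂ) * E2 (pMul p τ) - E2 τ) / 24

/-- The constant of the transformation law of `E₂`. -/
def e2Const : ℂ := 1 / (2 * riemannZeta 2) * (2 * π * I)

omit hp in
/-- The transformation law of `E₂`. -/
theorem E2_smul (γ : SL(2, ℤ)) (z : ℍ) :
    E2 (γ • z) = denom γ z ^ 2 * (E2 z - e2Const * (γ 1 0 : ℤ) / denom γ z) := by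
  have h := congrFun (E2_slash_action γ) z
  rw [ModularForm.SL_slash_apply, Pi.sub_apply, Pi.smul_apply, smul_eq_mul, D2] at h
  have hd : denom γ z ≠ 0 := denom_ne_zero γ z
  rw [zpow_neg, ← div_eq_mul_inv, div_eq_iff (zpow_ne_zero _ hd)] at h
  rw [h, e2Const, zpow_ofNat]
  ring

/-- `eisFn p` is invariant under `Γ₀(p)`. -/
theorem eisFn_slash (γ : SL(2, ℤ)) (hγ : γ ∈ Gamma0 p) : eisFn p ∣[(2 : ℤ)] γ = eisFn p := by
  funext τ
  have hpC : (p : ℂ) ≠ 0 := Nat.cast_ne_zero.mpr hp.out.ne_zero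
  obtain ⟨c, hc⟩ := mem_Gamma0_iff_dvd.mp hγ
  have hdet : γ 0 0 * γ 1 1 - γ 0 1 * γ 1 0 = 1 := by
    have := γ.det_coe
    rwa [Matrix.det_fin_two] at this
  let γ' : SL(2, ℤ) := ⟨!![γ 0 0, (p : ℤ) * γ 0 1; c, γ 1 1], by
    rw [Matrix.det_fin_two_of]; linear_combination hdet + γ 0 1 * hc⟩
  have hcC : ((γ 1 0 : ℤ) : ℂ) = (p : ℂ) * c := by rw [hc]; push_cast; ring
  have hd' : denom γ' (pMul p τ) = denom γ τ := by
    rw [ModularGroup.denom_apply, ModularGroup.denom_apply, hcC]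
    simp [γ', pMul]
    ring
  have hd : denom γ τ ≠ 0 := denom_ne_zero γ τ
  have hpt : pMul p (γ • τ) = γ' • pMul p τ := by
    apply UpperHalfPlane.ext
    rw [UpperHalfPlane.coe_specialLinearGroup_apply]
    simp only [pMul, UpperHalfPlane.coe_mk]
    rw [UpperHalfPlane.coe_specialLinearGroup_apply]
    simp [γ']
    field_simp
    rw [show ((γ 1 0 : ℤ) : ℂ) = (p : ℂ) * c from hcC]
    ring
  rw [ModularForm.SL_slash_apply, eisFn, eisFn, hpt, E2_smul, E2_smul, hd', hcC,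
    show ((γ' 1 0 : ℤ) : ℂ) = (c : ℂ) from rfl, zpow_neg, zpow_ofNat]
  field_simp
  ring

theorem eisFn_slash_S_apply (τ : ℍ) :
    (eisFn p ∣[(2 : ℤ)] S) τ = (E2 (pDiv p τ) / p - E2 τ) / 24 := by
  have hpC : (p : ℂ) ≠ 0 := Nat.cast_ne_zero.mpr hp.out.ne_zero
  have hτ : (τ : ℂ) ≠ 0 := τ.ne_zero
  have hd : ∀ z : ℍ, denom (S : SL(2, ℤ)) z = z := fun z => by
    rw [ModularGroup.denom_apply]; simp [ModularGroup.coe_S]
  have hpt : pMul p (S • τ) = S • pDiv p τ := by
    apply UpperHalfPlane.ext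
    rw [UpperHalfPlane.modular_S_smul, UpperHalfPlane.modular_S_smul]
    simp only [pMul, pDiv, UpperHalfPlane.coe_mk]
    field_simp
  rw [ModularForm.SL_slash_apply, hd, eisFn, hpt, E2_smul, E2_smul, hd, hd,
    show ((S 1 0 : ℤ) : ℂ) = 1 by simp [ModularGroup.coe_S], zpow_neg, zpow_ofNat]
  simp only [pDiv, UpperHalfPlane.coe_mk]
  field_simp
  ring

omit hp in
theorem hasSum_E2 (τ : ℍ) :
    HasSum (fun m : ℕ => (if m = 0 then 1 else -24 * σ 1 m : ℂ) * 𝕢 (1 : ℝ) τ ^ m) (E2 τ) := by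
  simpa [Function.Periodic.qParam, smul_eq_mul] using hasSum_qExpansion_E2 (z := τ)

/-- The `q`-series of the Eisenstein function. -/
def eisSeries (p : ℕ) : PowerSeries ℂ :=
  PowerSeries.mk fun n => if n = 0 then ((p : ℂ) - 1) / 24 else (eisA p n : ℂ)

/-- The expansion of `eisFn p` at `∞`. -/
theorem hasSum_eisFn (τ : ℍ) :
    HasSum (fun n => (eisSeries p).coeff n * 𝕢 (1 : ℝ) τ ^ n) (eisFn p τ) := by
  set c : ℕ → ℂ := fun m => if m = 0 then 1 else -24 * σ 1 m with hc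
  have h1 : HasSum (fun n => (if p ∣ n then c (n / p) else 0) * 𝕢 (1 : ℝ) τ ^ n)
      (E2 (pMul p τ)) := by
    have hinj : Function.Injective fun m : ℕ => p * m := mul_right_injective₀ hp.out.ne_zero
    refine (hinj.hasSum_iff ?_).mp ?_
    · intro n hn
      rw [if_neg, zero_mul]
      rintro ⟨k, rfl⟩
      exact hn ⟨k, rfl⟩
    · refine (hasSum_E2 (pMul p τ)).congr_fun fun m => ?_
      simp only [Function.comp_apply, dvd_mul_right, if_true,
        Nat.mul_div_cancel_left _ hp.out.pos, hc, pow_mul]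
      congr 2
      rw [Function.Periodic.qParam, Function.Periodic.qParam, ← Complex.exp_nat_mul]
      congr 1
      simp only [pMul, UpperHalfPlane.coe_mk]
      ring
  refine (((h1.mul_left (p : ℂ)).sub (hasSum_E2 τ)).div_const 24).congr_fun fun n => ?_
  simp only [eisSeries, PowerSeries.coeff_mk, hc]
  rcases eq_or_ne n 0 with rfl | hn
  · simp
  rw [if_neg hn, eisA_of_ne_zero hn]
  by_cases hd : p ∣ n
  · have hn' : n / p ≠ 0 := (Nat.div_pos (Nat.le_of_dvd (by omega) hd) hp.out.pos).ne'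
    rw [if_pos hd, if_neg hn', sigma_one_split hp.out hn hd, if_neg hn]
    push_cast
    ring
  · rw [if_neg hd, if_neg hn, (Nat.ordCompl_eq_self_iff_zero_or_not_dvd n hp.out).mpr (Or.inr hd)]
    ring

theorem bdd_eisFn_slash_S : IsBoundedAtImInfty (eisFn p ∣[(2 : ℤ)] S) := by
  obtain ⟨M, A, h⟩ := isBoundedAtImInfty_iff.mp isBoundedAtImInfty_E2
  refine isBoundedAtImInfty_iff.mpr ⟨(M / p + M) / 24, max A ((p : ℝ) * A), fun z hz => ?_⟩
  have hpR : (0 : ℝ) < p := cast_p_pos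
  have h1 := h z (le_trans (le_max_left _ _) hz)
  have him : (pDiv p z).im = z.im / p := by
    simp only [pDiv, UpperHalfPlane.im, UpperHalfPlane.coe_mk]
    rw [← ofReal_natCast, Complex.div_ofReal_im]
  have h2 := h (pDiv p z) (by
    rw [him, le_div_iff₀ hpR, mul_comm]; exact le_trans (le_max_right _ _) hz)
  rw [eisFn_slash_S_apply, norm_div, Complex.norm_ofNat]
  refine div_le_div_of_nonneg_right ((norm_sub_le _ _).trans (add_le_add ?_ h1)) (by norm_num)
  rw [norm_div, Complex.norm_natCast]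
  exact div_le_div_of_nonneg_right h2 hpR.le

/-- The Eisenstein series as a modular form. -/
def eisForm (p : ℕ) [Fact p.Prime] : ModularForm (Gamma0 p) 2 :=
  mkForm (eisFn p) eisFn_slash (goodFn_of_hasSum one_pos hasSum_eisFn).holo
    (goodFn_of_hasSum one_pos hasSum_eisFn).bdd bdd_eisFn_slash_S

/-- The Eisenstein series gives a pair of expansions of weight two and level `p`. -/
theorem exists_eis_pair : ∃ B : PowerSeries ℂ, IsPair p 2 (eisSeries p) B :=
  ⟨_, eisForm p, qExpansion_eq_of_hasSum one_pos _ fun τ => by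
    simpa [eisForm] using hasSum_eisFn τ, rfl⟩

end Fermat.Agent.Eis
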