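import Mathlib.Algebra.Module.Projective
import Fermat.Prelude.Def_CuspForm_HeckeEvalForms
import Fermat.Prelude.Def_CuspForm_HeckeLocal
import Fermat.Prelude.Def_ModularCurve_ModularUnit
import Fermat.Agent.Eis.CuspCoeff
import Fermat.Agent.Eis.EisP

/-!
The Eisenstein quotient of the integral Hecke algebra of prime level is cyclic, of order the
largest modulus of a congruence between an integral cusp form and the Eisenstein series. It
reduces the index of the Eisenstein ideal to bounds on Eisenstein congruences.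
-/

noncomputable section

open CongruenceSubgroup ModularFormClass CuspForm ModularCurve

namespace Fermat.Agent.Eis

variable (p : ℕ) [hp : Fact p.Prime]

/-- An integral cusp form of level `p` congruent to the Eisenstein series modulo `m`. -/
def EisCong (m : ℕ) : Prop :=
  ∃ F : CuspForm (Gamma0 p) 2, F ∈ intLattice p 2 ∧
    ∀ j : ℕ, j ≠ 0 → ∃ z : ℤ, qCoeff F j = (eisA p j : ℂ) + (m : ℂ) * (z : ℂ)

/-- The Hecke polynomials acting on the integral lattice. -/
def heckePhi : HeckeAlg →+* ↥(heckeLatticeAlgebra p ∅) :=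
  (latticeRestrictHom p ∅).toRingHom.comp (heckeEvalForms p 2)

/-- The Eisenstein evaluation of Hecke polynomials. -/
def eisEval : HeckeAlg →ₐ[ℤ] ℤ := MvPolynomial.aeval (eisensteinSystem p)

theorem eisensteinSystem_eq (ℓ : Nat.Primes) : eisensteinSystem p ℓ = (eisA p (ℓ : ℕ) : ℤ) := by
  have hℓ : (ℓ : ℕ).Prime := ℓ.2
  rw [eisA_of_ne_zero hℓ.ne_zero]
  by_cases h : (ℓ : ℕ) ∣ p
  · rw [eisensteinSystem_of_dvd h]
    rw [(Nat.prime_dvd_prime_iff_eq hℓ hp.out).mp h,
      show ordCompl[p] p = 1 by simpa using Nat.ordCompl_self_pow (k := 1) hp.out]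
    simp
  · rw [eisensteinSystem_of_not_dvd h,
      (Nat.ordCompl_eq_self_iff_zero_or_not_dvd _ hp.out).mpr
        (Or.inr fun h' => h ((Nat.prime_dvd_prime_iff_eq hp.out hℓ).mp h' ▸ dvd_rfl))]
    have := ArithmeticFunction.sigma_one_apply_prime_pow (i := 1) hℓ
    simp [Finset.sum_range_succ] at this
    rw [this]
    push_cast
    ring

theorem qCoeff_heckeGen (f : CuspForm (Gamma0 p) 2) (ℓ : Nat.Primes) (n : ℕ) :
    qCoeff ((heckeFormsGen p 2 ℓ).1 f) n =
      qCoeff f ((ℓ : ℕ) * n) +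
        weightTwoE p ℂ ℓ * (if (ℓ : ℕ) ∣ n then qCoeff f (n / (ℓ : ℕ)) else 0) := by
  by_cases h : (ℓ : ℕ) ∣ p
  · rw [heckeFormsGen_of_dvd h, heckeAlgebra.coe_U, qCoeff_heckeULin ℓ.2 h, weightTwoE,
      if_pos h, zero_mul, add_zero]
  · rw [heckeFormsGen_of_not_dvd h, heckeAlgebra.coe_T, qCoeff_heckeTLin ℓ.2 h, weightTwoE,
      if_neg h]

/-- The cusp form obtained by applying a Hecke polynomial. -/
def act (P : HeckeAlg) (f : CuspForm (Gamma0 p) 2) : CuspForm (Gamma0 p) 2 :=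
  (heckeEvalForms p 2 P).1 f

theorem act_mul (P Q : HeckeAlg) (f : CuspForm (Gamma0 p) 2) :
    act p (P * Q) f = act p P (act p Q f) := by
  rw [act, map_mul]; rfl

theorem act_gen (ℓ : Nat.Primes) (f : CuspForm (Gamma0 p) 2) :
    act p (heckeGen ℓ) f = (heckeFormsGen p 2 ℓ).1 f := by
  rw [act, heckeEvalForms_heckeGen]

theorem qCoeff_act_sub (P Q : HeckeAlg) (f : CuspForm (Gamma0 p) 2) (n : ℕ) :
    qCoeff (act p (P - Q) f) n = qCoeff (act p P f) n - qCoeff (act p Q f) n := by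
  rw [← qCoeff_sub, act, map_sub]; rfl

theorem qCoeff_act_C (c : ℤ) (f : CuspForm (Gamma0 p) 2) (n : ℕ) :
    qCoeff (act p (MvPolynomial.C c) f) n = (c : ℂ) * qCoeff f n := by
  rw [act, heckeEvalForms_C]
  rw [show ((algebraMap ℤ ↥(heckeAlgebra p 2 ∅) c).1 f) = (c : ℂ) • f by
    rw [Int.cast_smul_eq_zsmul]; rfl, qCoeff_smul]

/-- For each `n ≥ 1` a Hecke polynomial reading off the `n`-th coefficient. -/
theorem exists_coeffPoly {n : ℕ} (hn : n ≠ 0) :
    ∃ P : HeckeAlg, (∀ f : CuspForm (Gamma0 p) 2, qCoeff (act p P f) 1 = qCoeff f n) ∧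
      eisEval p P = (eisA p n : ℤ) := by
  induction n using Nat.strong_induction_on with
  | _ n ih =>
  rcases eq_or_ne n 1 with rfl | hn1
  · exact ⟨1, fun f => by rw [act, map_one]; rfl, by simp [eisA_one]⟩
  obtain ⟨q, hq, m, rfl⟩ := Nat.exists_prime_and_dvd hn1
  have hm : m ≠ 0 := fun h => hn (by simp [h])
  have hlt : m < q * m := lt_mul_left (Nat.pos_of_ne_zero hm) hq.one_lt
  obtain ⟨P, hP, hPe⟩ := ih m hlt hm
  have key := (isEigensystem_eisA hp.out ℤ).2 q hq m
  have hX : ∀ f : CuspForm (Gamma0 p) 2,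
      qCoeff (act p (P * heckeGen ⟨q, hq⟩) f) 1 =
        qCoeff f (q * m) + weightTwoE p ℂ q * (if q ∣ m then qCoeff f (m / q) else 0) := fun f => by
    rw [act_mul, hP, act_gen, qCoeff_heckeGen]
  have hXe : eisEval p (P * heckeGen ⟨q, hq⟩) =
      (eisA p m : ℤ) * (eisA p q : ℤ) := by
    rw [map_mul, hPe, eisEval, aeval_heckeGen, eisensteinSystem_eq]
  by_cases hqm : q ∣ m
  · have hd : m / q ≠ 0 := (Nat.div_pos (Nat.le_of_dvd (Nat.pos_of_ne_zero hm) hqm) hq.pos).ne'
    obtain ⟨Q, hQ, hQe⟩ := ih (m / q) ((Nat.div_le_self _ _).trans_lt hlt) hd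
    refine ⟨P * heckeGen ⟨q, hq⟩ -
      MvPolynomial.C (weightTwoE p ℤ q) * Q, fun f => ?_, ?_⟩
    · rw [qCoeff_act_sub, hX, act_mul, qCoeff_act_C, hQ, if_pos hqm]
      simp only [weightTwoE]
      split_ifs <;> simp
    · rw [if_pos hqm] at key
      rw [map_sub, hXe, map_mul, hQe, eisEval, MvPolynomial.aeval_C, eq_intCast, Int.cast_id]
      linear_combination -key
  · refine ⟨P * heckeGen ⟨q, hq⟩, fun f => ?_, ?_⟩
    · rw [hX, if_neg hqm, mul_zero, add_zero]
    · rw [if_neg hqm] at key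
      rw [hXe]
      linear_combination -key

theorem heckeEvalForms_surjective : Function.Surjective (heckeEvalForms p 2) := by
  intro t
  have h : heckeAlgebra p 2 ∅ ≤
      ((heckeAlgebra p 2 ∅).val.comp (MvPolynomial.aeval (heckeFormsGen p 2))).range := by
    refine Algebra.adjoin_le ?_
    rintro T (⟨ℓ, hℓ, hℓN, -, rfl⟩ | ⟨q, hqN, hq, -, rfl⟩)
    · refine ⟨MvPolynomial.X (⟨ℓ, hℓ⟩ : Nat.Primes), ?_⟩
      simp [heckeFormsGen_of_not_dvd (ℓ := (⟨ℓ, hℓ⟩ : Nat.Primes)) hℓN]
    · refine ⟨heckeGen ⟨q, hq⟩, ?_⟩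
      simp [heckeFormsGen_of_dvd (q := (⟨q, hq⟩ : Nat.Primes)) hqN]
  obtain ⟨P, hP⟩ := h t.2
  exact ⟨P, Subtype.ext hP⟩

/-- The polynomial algebra maps onto the integral Hecke algebra. -/
theorem heckePhi_surjective : Function.Surjective (heckePhi p) :=
  (latticeRestrictHom_surjective p ∅).comp (heckeEvalForms_surjective p)

theorem coe_heckePhi_apply (P : HeckeAlg) (f : ↥(intLattice p 2)) :
    (((heckePhi p P).1 f : ↥(intLattice p 2)) : CuspForm (Gamma0 p) 2) = act p P f := rfl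

/-- The `n`-th coefficient of an integral form, as an integer. -/
def coeffZ (n : ℕ) : ↥(intLattice p 2) →ₗ[ℤ] ℤ where
  toFun f := ((mem_intLattice_iff f.1).mp f.2 n).choose
  map_add' f g := by
    have h1 := ((mem_intLattice_iff (f + g).1).mp (f + g).2 n).choose_spec
    have h2 := ((mem_intLattice_iff f.1).mp f.2 n).choose_spec
    have h3 := ((mem_intLattice_iff g.1).mp g.2 n).choose_spec
    have h4 := (qCoeff_add f.1 g.1 n).symm.trans h1
    rw [h2, h3] at h4
    exact_mod_cast h4.symm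
  map_smul' c f := by
    have h1 := ((mem_intLattice_iff (c • f).1).mp (c • f).2 n).choose_spec
    have h2 := ((mem_intLattice_iff f.1).mp f.2 n).choose_spec
    have h4 : qCoeff ⇑((c : ℂ) • (f : CuspForm (Gamma0 p) 2)) n = _ :=
      (congrArg (fun x : CuspForm (Gamma0 p) 2 => qCoeff x n)
        (Int.cast_smul_eq_zsmul ℂ c f.1)).trans h1
    rw [qCoeff_smul, h2] at h4
    simp only [eq_intCast, Int.cast_id, smul_eq_mul]
    exact_mod_cast h4.symm

omit hp in
theorem coeffZ_spec (n : ℕ) (f : ↥(intLattice p 2)) :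
    qCoeff (f : CuspForm (Gamma0 p) 2) n = (coeffZ p n f : ℂ) :=
  ((mem_intLattice_iff f.1).mp f.2 n).choose_spec

/-- An integral form with vanishing coefficients is zero. -/
theorem eq_zero_of_coeffZ_eq_zero {f : ↥(intLattice p 2)} (h : ∀ n, n ≠ 0 → coeffZ p n f = 0) :
    f = 0 := by
  apply Subtype.ext
  refine eq_zero_of_qCoeff _ fun n => ?_
  rcases eq_or_ne n 0 with rfl | hn
  · exact qCoeff_cusp_zero _
  · rw [coeffZ_spec, h n hn, Int.cast_zero]

/-- The first coefficient after applying a coefficient polynomial is the `n`-th coefficient. -/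
theorem coeffZ_one_heckePhi {n : ℕ} {P : HeckeAlg}
    (hP : ∀ f : CuspForm (Gamma0 p) 2, qCoeff (act p P f) 1 = qCoeff f n)
    (f : ↥(intLattice p 2)) : coeffZ p 1 ((heckePhi p P).1 f) = coeffZ p n f := by
  have h := hP f.1
  rw [← coe_heckePhi_apply, coeffZ_spec, coeffZ_spec] at h
  exact_mod_cast h

/-- The pairing, as a map into the dual of the lattice. -/
def toDualLattice : ↥(heckeLatticeAlgebra p ∅) →ₗ[ℤ] (↥(intLattice p 2) →ₗ[ℤ] ℤ) where
  toFun t := (coeffZ p 1).comp t.1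
  map_add' s t := LinearMap.ext fun f => by simp
  map_smul' c t := LinearMap.ext fun f => by simp

/-- The pairing, as a map into the dual of the algebra. -/
def toDualAlgebra : ↥(intLattice p 2) →ₗ[ℤ] (↥(heckeLatticeAlgebra p ∅) →ₗ[ℤ] ℤ) :=
  (toDualLattice p).flip

theorem toDualAlgebra_apply (f : ↥(intLattice p 2)) (t : ↥(heckeLatticeAlgebra p ∅)) :
    toDualAlgebra p f t = coeffZ p 1 (t.1 f) := rfl

theorem toDualLattice_injective : Function.Injective (toDualLattice p) := by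
  refine (injective_iff_map_eq_zero _).mpr fun t ht => Subtype.ext (LinearMap.ext fun f => ?_)
  refine eq_zero_of_coeffZ_eq_zero p fun n hn => ?_
  obtain ⟨P, hP, -⟩ := exists_coeffPoly p hn
  rw [← coeffZ_one_heckePhi p hP]
  have h := congrArg (fun x : ↥(heckeLatticeAlgebra p ∅) => x.1 f) (mul_comm (heckePhi p P) t)
  simp only [Subalgebra.coe_mul, Module.End.mul_apply] at h
  rw [h]
  exact LinearMap.congr_fun ht _

theorem toDualAlgebra_injective : Function.Injective (toDualAlgebra p) := by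
  refine (injective_iff_map_eq_zero _).mpr fun f hf => eq_zero_of_coeffZ_eq_zero p fun n hn => ?_
  obtain ⟨P, hP, -⟩ := exists_coeffPoly p hn
  rw [← coeffZ_one_heckePhi p hP]
  exact LinearMap.congr_fun hf _

/-- The lattice of cusp forms is the full dual of the integral Hecke algebra. -/
theorem toDualAlgebra_surjective : Function.Surjective (toDualAlgebra p) := by
  have := intLattice.moduleFinite p
  have := intLattice.moduleFree p
  intro g
  have h1 := (toDualLattice p).finrank_le_finrank_of_injective (toDualLattice_injective p)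
  have h2 := (toDualAlgebra p).finrank_le_finrank_of_injective (toDualAlgebra_injective p)
  rw [Module.finrank_linearMap_self] at h1 h2
  have hr : Module.finrank ℤ (LinearMap.range (toDualAlgebra p)) =
      Module.finrank ℤ (↥(heckeLatticeAlgebra p ∅) →ₗ[ℤ] ℤ) := by
    rw [LinearMap.finrank_range_of_inj (toDualAlgebra_injective p), Module.finrank_linearMap_self]
    omega
  have hq : Module.finrank ℤ ((↥(heckeLatticeAlgebra p ∅) →ₗ[ℤ] ℤ) ⧸
      LinearMap.range (toDualAlgebra p)) = 0 := by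
    have := Submodule.finrank_quotient_add_finrank (LinearMap.range (toDualAlgebra p))
    omega
  obtain ⟨a, ha, hag⟩ := Module.finrank_eq_zero_iff.mp hq (Submodule.Quotient.mk g)
  obtain ⟨f, hf⟩ := (Submodule.Quotient.mk_eq_zero _).mp
    ((Submodule.Quotient.mk_smul _ a g).trans hag)
  have haC : (a : ℂ) ≠ 0 := Int.cast_ne_zero.mpr ha
  have hmem : ((a : ℂ)⁻¹ • (f : CuspForm (Gamma0 p) 2)) ∈ intLattice p 2 := by
    refine (mem_intLattice_iff _).mpr fun n => ?_
    rcases eq_or_ne n 0 with rfl | hn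
    · exact ⟨0, by rw [qCoeff_cusp_zero, Int.cast_zero]⟩
    obtain ⟨P, hP, -⟩ := exists_coeffPoly p hn
    refine ⟨g (heckePhi p P), ?_⟩
    rw [qCoeff_smul, coeffZ_spec, ← coeffZ_one_heckePhi p hP, ← toDualAlgebra_apply, hf,
      LinearMap.smul_apply, smul_eq_mul, Int.cast_mul, inv_mul_cancel_left₀ haC]
  refine ⟨⟨_, hmem⟩, smul_right_injective _ ha ?_⟩
  show a • toDualAlgebra p ⟨_, hmem⟩ = a • g
  rw [← map_smul, ← hf]
  congr 1
  apply Subtype.ext
  rw [Submodule.coe_smul, ← Int.cast_smul_eq_zsmul ℂ, smul_smul, mul_inv_cancel₀ haC, one_smul]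

/-- Congruences with the Eisenstein series propagate along the Hecke action. -/
theorem act_congr {m : ℕ} {F : CuspForm (Gamma0 p) 2}
    (hF : ∀ j : ℕ, j ≠ 0 → ∃ z : ℤ, qCoeff F j = (eisA p j : ℂ) + (m : ℂ) * (z : ℂ))
    (P : HeckeAlg) : ∀ j : ℕ, ∃ z : ℤ,
      qCoeff (act p P F) j = (eisEval p P : ℂ) * (eisA p j : ℂ) + (m : ℂ) * (z : ℂ) := by
  induction P using MvPolynomial.induction_on with
  | C c =>
    intro j
    rcases eq_or_ne j 0 with rfl | hj
    · exact ⟨0, by rw [qCoeff_cusp_zero]; simp [eisA]⟩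
    obtain ⟨z, hz⟩ := hF j hj
    refine ⟨c * z, ?_⟩
    rw [qCoeff_act_C, hz, eisEval, MvPolynomial.aeval_C, eq_intCast, Int.cast_id]
    push_cast
    ring
  | add P Q hP hQ =>
    intro j
    obtain ⟨z, hz⟩ := hP j
    obtain ⟨w, hw⟩ := hQ j
    refine ⟨z + w, ?_⟩
    rw [act, map_add, show (↑(heckeEvalForms p 2 P + heckeEvalForms p 2 Q) :
      Module.End ℂ _) F = act p P F + act p Q F from rfl, qCoeff_add, hz, hw, map_add]
    push_cast
    ring
  | mul_X P ℓ hP =>
    intro j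
    obtain ⟨z, hz⟩ := hP ((ℓ : ℕ) * j)
    obtain ⟨w, hw⟩ := hP (j / (ℓ : ℕ))
    have key := (isEigensystem_eisA hp.out ℂ).2 ℓ ℓ.2 j
    beta_reduce at key
    rw [mul_comm P, ← heckeGen, act_mul, act_gen, qCoeff_heckeGen, hz, map_mul,
      show eisEval p (heckeGen ℓ) = (eisA p (ℓ : ℕ) : ℤ) by
        rw [eisEval, aeval_heckeGen, eisensteinSystem_eq]]
    refine ⟨z + (if (ℓ : ℕ) ∣ j then weightTwoE p ℤ (ℓ : ℕ) * w else 0), ?_⟩
    have he : ((weightTwoE p ℤ (ℓ : ℕ) : ℤ) : ℂ) = weightTwoE p ℂ (ℓ : ℕ) := by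
      simp only [weightTwoE]; split_ifs <;> simp
    by_cases hd : (ℓ : ℕ) ∣ j
    · rw [if_pos hd] at key
      rw [if_pos hd, if_pos hd, hw]
      simp only [← he] at key ⊢
      push_cast
      linear_combination (eisEval p P : ℂ) * key
    · rw [if_neg hd] at key
      rw [if_neg hd, if_neg hd]
      push_cast
      linear_combination (eisEval p P : ℂ) * key

omit hp in
theorem sub_C_eisEval_mem (P : HeckeAlg) :
    P - MvPolynomial.C (eisEval p P) ∈ eisensteinIdeal p := by
  rw [eisensteinIdeal, mem_eigenIdeal_iff, map_sub, MvPolynomial.aeval_C]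
  exact sub_self _

/-- The Eisenstein quotient of the Hecke algebra has as order the largest modulus of a congruence
with the Eisenstein series. -/
theorem card_quotient_eq {n : ℕ} (hn : EisCong p n) (hmax : ∀ m : ℕ, EisCong p m → m ∣ n) :
    Nat.card (↥(heckeLatticeAlgebra p ∅) ⧸ Ideal.map (heckePhi p) (eisensteinIdeal p)) = n := by
  set J := Ideal.map (heckePhi p) (eisensteinIdeal p)
  set ψ : ℤ →+* ↥(heckeLatticeAlgebra p ∅) ⧸ J := Int.castRingHom _
  have hC : ∀ P : HeckeAlg, Ideal.Quotient.mk J (heckePhi p P) = ψ (eisEval p P) := fun P => by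
    have h := Ideal.mem_map_of_mem (heckePhi p) (sub_C_eisEval_mem p P)
    rw [map_sub] at h
    exact (Ideal.Quotient.eq.mpr h).trans (RingHom.congr_fun (RingHom.ext_int
      ((Ideal.Quotient.mk J).comp ((heckePhi p).comp MvPolynomial.C)) ψ) _)
  have hψ : Function.Surjective ψ := fun x => by
    obtain ⟨t, rfl⟩ := Ideal.Quotient.mk_surjective x
    obtain ⟨P, rfl⟩ := heckePhi_surjective p t
    exact ⟨_, (hC P).symm⟩
  obtain ⟨N, hN⟩ : ∃ N : ℕ, RingHom.ker ψ = Ideal.span {(N : ℤ)} := by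
    obtain ⟨g, hg⟩ := (IsPrincipalIdealRing.principal (RingHom.ker ψ)).principal
    exact ⟨g.natAbs, by rw [hg, Int.span_natAbs]⟩
  have hdvd : ∀ m : ℕ, EisCong p m → m ∣ N := by
    rintro m ⟨F, hFL, hF⟩
    have hk : (N : ℤ) ∈ RingHom.ker ψ := hN ▸ Ideal.mem_span_singleton_self _
    have hk' : heckePhi p (MvPolynomial.C (N : ℤ)) ∈ J :=
      Ideal.Quotient.eq_zero_iff_mem.mp
        ((hC _).trans (by rw [eisEval, MvPolynomial.aeval_C]; exact hk))
    obtain ⟨Q, hQ, hQe⟩ := (Ideal.mem_map_iff_of_surjective _ (heckePhi_surjective p)).mp hk'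
    obtain ⟨z, hz⟩ := act_congr p hF (MvPolynomial.C (N : ℤ)) 1
    obtain ⟨w, hw⟩ := act_congr p hF Q 1
    have he : act p Q F = act p (MvPolynomial.C (N : ℤ)) F :=
      congrArg Subtype.val (congrArg (fun t : ↥(heckeLatticeAlgebra p ∅) => t.1 ⟨F, hFL⟩) hQe)
    rw [eisensteinIdeal, mem_eigenIdeal_iff] at hQ
    rw [eisEval, MvPolynomial.aeval_C, Algebra.algebraMap_self, RingHom.id_apply, eisA_one] at hz
    rw [he, hz, eisEval, hQ, eisA_one] at hw
    have : (N : ℤ) = (m : ℤ) * (w - z) := by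
      push_cast at hw
      simp only [mul_one, zero_add] at hw
      have h' : ((N : ℤ) : ℂ) = (((m : ℤ) * (w - z) : ℤ) : ℂ) := by
        push_cast; linear_combination hw
      exact_mod_cast h'
    exact Int.natCast_dvd_natCast.mp ⟨_, this⟩
  have hex : EisCong p N := by
    let e : ↥(heckeLatticeAlgebra p ∅) ⧸ J ≃+* ℤ ⧸ Ideal.span {(N : ℤ)} :=
      (RingHom.quotientKerEquivOfSurjective hψ).symm.trans (Ideal.quotEquivOfEq hN)
    let χ : ↥(heckeLatticeAlgebra p ∅) →ₗ[ℤ] ℤ ⧸ Ideal.span {(N : ℤ)} :=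
      ((e.toRingHom).comp (Ideal.Quotient.mk J)).toAddMonoidHom.toIntLinearMap
    obtain ⟨G, hG⟩ := Module.projective_lifting_property
      (Ideal.span {(N : ℤ)}).mkQ χ (Submodule.mkQ_surjective _)
    obtain ⟨F, hF⟩ := toDualAlgebra_surjective p G
    refine ⟨F.1, F.2, fun j hj => ?_⟩
    obtain ⟨P, hP, hPe⟩ := exists_coeffPoly p hj
    have h1 : χ (heckePhi p P) = Ideal.Quotient.mk _ (eisA p j : ℤ) := by
      show e (Ideal.Quotient.mk J (heckePhi p P)) = _
      rw [hC, hPe]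
      exact RingHom.congr_fun (RingHom.ext_int (e.toRingHom.comp ψ) (Ideal.Quotient.mk _)) _
    rw [← hG, ← hF, LinearMap.comp_apply, Submodule.mkQ_apply, ← Ideal.Quotient.mk_eq_mk,
      Submodule.Quotient.eq, Ideal.mem_span_singleton, toDualAlgebra_apply,
      coeffZ_one_heckePhi p hP] at h1
    obtain ⟨z, hz⟩ := h1
    refine ⟨z, ?_⟩
    rw [coeffZ_spec, show coeffZ p j F = (eisA p j : ℤ) + (N : ℤ) * z by linarith]
    push_cast
    ring
  rw [show n = N from Nat.dvd_antisymm (hdvd n hn) (hmax N hex)]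
  rw [Nat.card_congr (((RingHom.quotientKerEquivOfSurjective hψ).symm.trans
      (Ideal.quotEquivOfEq hN)).trans (Int.quotientSpanNatEquivZMod N)).toEquiv,
    Nat.card_zmod]

end Fermat.Agent.Eis
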