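import Mathlib.RingTheory.Ideal.GoingUp
import Mathlib.RingTheory.IntegralClosure.IsIntegralClosure.Basic
import Fermat.Agent.Eis.Eigenform

/-!
Deligne–Serre lifting at weight two: a maximal ideal of the full Hecke algebra is realised as the
congruence class of a normalised eigenform. It converts congruences between eigensystems into
genuine eigenforms.
-/

noncomputable section

open CongruenceSubgroup ModularFormClass CuspForm

namespace Fermat.Agent.Eis

variable {N : ℕ} [NeZero N]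

/-- The values of a character of the Hecke algebra are algebraic integers when the algebra is
finite over `ℤ`. -/
theorem isIntegral_heckeChar [Module.Finite ℤ ↥(heckeAlgebra N 2 ∅)]
    (χ : ↥(heckeAlgebra N 2 ∅) →+* ℂ) (t : ↥(heckeAlgebra N 2 ∅)) : IsIntegral ℤ (χ t) :=
  (Algebra.IsIntegral.isIntegral (R := ℤ) t).map χ.toIntAlgHom

/-- A maximal ideal of the Hecke algebra lifts to a normalised eigenform and a maximal ideal of
the algebraic integers. -/
theorem exists_eigenform_of_maximalIdeal [Module.Finite ℤ ↥(heckeAlgebra N 2 ∅)]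
    (m : Ideal ↥(heckeAlgebra N 2 ∅)) [hm : m.IsMaximal] :
    ∃ (g : CuspForm (Gamma0 N) 2) (_ : g.IsNormalizedEigenform)
      (χ : ↥(heckeAlgebra N 2 ∅) →+* integralClosure ℤ ℂ) (M : Ideal (integralClosure ℤ ℂ)),
      M.IsMaximal ∧ M.comap χ = m ∧
      ∀ (ℓ : ℕ) (hℓ : ℓ.Prime),
        (χ (heckeFormsGen N 2 ⟨ℓ, hℓ⟩) : ℂ) = qCoeff g ℓ := by
  have := finiteDimensional_cuspForm N 2
  let ρ : ↥(heckeAlgebra N 2 ∅) →+* Module.End ℂ (CuspForm (Gamma0 N) 2) :=
    (heckeAlgebra N 2 ∅).val.toRingHom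
  have hfaith : RingHom.ker ρ ≤ m := fun t ht => by
    rw [show t = 0 from Subtype.ext (RingHom.mem_ker.mp ht)]
    exact m.zero_mem
  obtain ⟨χ, v, hv0, hv, hker⟩ := exists_eigenvector_ker_le ρ m hm.isPrime hfaith
  obtain ⟨g, hg, hgc⟩ := exists_normalizedEigenform_of_eigen hv0 hv
  let χ' : ↥(heckeAlgebra N 2 ∅) →+* integralClosure ℤ ℂ :=
    χ.codRestrict (integralClosure ℤ ℂ) (isIntegral_heckeChar χ)
  let : Algebra ↥(heckeAlgebra N 2 ∅) (integralClosure ℤ ℂ) := χ'.toAlgebra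
  have : IsScalarTower ℤ ↥(heckeAlgebra N 2 ∅) (integralClosure ℤ ℂ) :=
    IsScalarTower.of_algebraMap_eq' (RingHom.ext_int _ _)
  have : Algebra.IsIntegral ↥(heckeAlgebra N 2 ∅) (integralClosure ℤ ℂ) :=
    ⟨fun x => (Algebra.IsIntegral.isIntegral (R := ℤ) x).tower_top⟩
  obtain ⟨M, hM, hMc⟩ := Ideal.exists_ideal_over_maximal_of_isIntegral (S := integralClosure ℤ ℂ) m
    (fun t ht => hker (RingHom.mem_ker.mpr (congrArg Subtype.val (RingHom.mem_ker.mp ht))))
  exact ⟨g, hg, χ', M, hM, hMc, fun ℓ hℓ => (hgc ℓ hℓ).symm⟩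

end Fermat.Agent.Eis
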