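import Mathlib.NumberTheory.Bernoulli
import Mathlib.NumberTheory.ModularForms.LevelOne.GradedRing
import Mathlib.RingTheory.IntegralClosure.IsIntegralClosure.Basic
import Mathlib.RingTheory.PowerSeries.Inverse
import Mathlib.RingTheory.PowerSeries.Order
import Mathlib.Tactic.NormNum.NatFactorial
import Fermat.Agent.Eis.Pair

/-!
Integral level one forms and the mod `ℓ` Sturm bound. It is the base case of the Sturm bound at
prime level.
-/

noncomputable section

open UpperHalfPlane hiding I
open Matrix Matrix.SpecialLinearGroup CongruenceSubgroup ModularGroup Complex PowerSeries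
open scoped MatrixGroups ModularForm ArithmeticFunction.sigma

namespace Fermat.Agent.Eis

/-- Cast of an integral series to complex coefficients. -/
abbrev toC : PowerSeries ℤ →+* PowerSeries ℂ := PowerSeries.map (Int.castRingHom ℂ)

theorem toC_injective : Function.Injective toC :=
  PowerSeries.map_injective _ Int.cast_injective

theorem IsOne.mul {k l : ℤ} {A B : PowerSeries ℂ} (h : IsOne k A) (h' : IsOne l B) :
    IsOne (k + l) (A * B) := by
  obtain ⟨f, rfl⟩ := h
  obtain ⟨g, rfl⟩ := h'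
  exact ⟨f.mul g, ModularForm.qExpansion_mul one_pos one_mem_strictPeriods_SL f g⟩

theorem IsOne.smul {k : ℤ} {A : PowerSeries ℂ} (c : ℂ) (h : IsOne k A) : IsOne k (c • A) := by
  obtain ⟨f, rfl⟩ := h
  exact ⟨c • f, ModularForm.qExpansion_smul one_pos one_mem_strictPeriods_SL c f⟩

theorem IsOne.sub {k : ℤ} {A B : PowerSeries ℂ} (h : IsOne k A) (h' : IsOne k B) :
    IsOne k (A - B) := by
  obtain ⟨f, rfl⟩ := h
  obtain ⟨g, rfl⟩ := h'
  exact ⟨f - g, ModularForm.qExpansion_sub one_pos one_mem_strictPeriods_SL f g⟩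

theorem isOne_one : IsOne 0 1 := ⟨1, ModularForm.qExpansion_one⟩

theorem IsOne.pow {k : ℤ} {A : PowerSeries ℂ} (h : IsOne k A) (n : ℕ) :
    IsOne ((n : ℤ) * k) (A ^ n) := by
  induction n with
  | zero => simpa using isOne_one
  | succ n ih =>
    rw [pow_succ]
    exact (ih.mul h).congr_weight (by push_cast; ring)

/-- Vanishing of the first coefficients forces vanishing. -/
theorem IsOne.eq_zero {k : ℕ} {C : PowerSeries ℂ} (h : IsOne (k : ℤ) C)
    (h0 : ∀ i ≤ k / 12, coeff i C = 0) : C = 0 := by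
  obtain ⟨f, rfl⟩ := h
  have : f = 0 := by
    refine ModularForm.sturm_bound_levelOne_nat (lt_of_lt_of_le ?_
      (PowerSeries.nat_le_order _ (k / 12 + 1) fun i hi => h0 i (Nat.lt_succ_iff.mp hi)))
    exact_mod_cast Nat.lt_succ_self _
  rw [this, FunLike.coe_zero, qExpansion_zero]

/-- There is no nonzero level one form of weight two. -/
theorem IsOne.eq_zero_weight_two {C : PowerSeries ℂ} (h : IsOne 2 C) : C = 0 := by
  obtain ⟨f, rfl⟩ := h
  rw [rank_zero_iff_forall_zero.mp ModularForm.levelOne_weight_two_rank_zero f, FunLike.coe_zero,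
    qExpansion_zero]

/-- A level one form of weight fourteen without constant term is zero. -/
theorem IsOne.eq_zero_weight_fourteen {C : PowerSeries ℂ} (h : IsOne 14 C)
    (h0 : coeff 0 C = 0) : C = 0 := by
  obtain ⟨f, rfl⟩ := h
  rw [ModularForm.qExpansion_eq_qExpansion_discriminant_mul f h0]
  rw [IsOne.eq_zero_weight_two ⟨_, rfl⟩, mul_zero]

/-- `∑_{d ∣ n} d ^ 3`, as a series with no constant term. -/
def sig3 : PowerSeries ℤ := PowerSeries.mk fun n => (σ 3 n : ℤ)

/-- `∑_{d ∣ n} d ^ 5`, as a series with no constant term. -/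
def sig5 : PowerSeries ℤ := PowerSeries.mk fun n => (σ 5 n : ℤ)

/-- The expansion of `E₄`. -/
def e4 : PowerSeries ℤ := 1 + 240 * sig3

/-- The expansion of `E₆`. -/
def e6 : PowerSeries ℤ := 1 - 504 * sig5

theorem coeff_natCast_mul {R : Type*} [CommRing R] (n : ℕ) (A : PowerSeries R) (i : ℕ) :
    coeff i ((n : PowerSeries R) * A) = n * coeff i A := by
  rw [← map_natCast (PowerSeries.C (R := R)), coeff_C_mul]

theorem coeff_e4 (n : ℕ) : coeff n e4 = if n = 0 then 1 else 240 * (σ 3 n : ℤ) := by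
  rw [e4, map_add, show (240 : PowerSeries ℤ) = ((240 : ℕ) : PowerSeries ℤ) by norm_num,
    coeff_natCast_mul, sig3, coeff_mk, coeff_one]
  split_ifs with h
  · subst h; simp
  · simp

theorem coeff_e6 (n : ℕ) : coeff n e6 = if n = 0 then 1 else -504 * (σ 5 n : ℤ) := by
  rw [e6, map_sub, show (504 : PowerSeries ℤ) = ((504 : ℕ) : PowerSeries ℤ) by norm_num,
    coeff_natCast_mul, sig5, coeff_mk, coeff_one]
  split_ifs with h
  · subst h; simp
  · simp

theorem bernoulli_four : bernoulli 4 = -1 / 30 := by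
  rw [bernoulli_eq_bernoulli'_of_ne_one (by norm_num), bernoulli'_four]

theorem bernoulli'_six : bernoulli' 6 = 1 / 42 := by
  have h5 : bernoulli' 5 = 0 := bernoulli'_eq_zero_of_odd (by decide) (by norm_num)
  rw [bernoulli'_def]
  simp [Finset.sum_range_succ, h5, bernoulli'_four, bernoulli'_three, bernoulli'_two,
    bernoulli'_one, Nat.choose]
  norm_num

theorem bernoulli_six : bernoulli 6 = 1 / 42 := by
  rw [bernoulli_eq_bernoulli'_of_ne_one (by norm_num), bernoulli'_six]

theorem isOne_e4 : IsOne 4 (toC e4) := by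
  refine ⟨ModularForm.E₄, ?_⟩
  ext n
  rw [EisensteinSeries.E_qExpansion_coeff _ ⟨2, rfl⟩, coeff_map, coeff_e4, bernoulli_four]
  split_ifs <;> norm_num

theorem isOne_e6 : IsOne 6 (toC e6) := by
  refine ⟨ModularForm.E₆, ?_⟩
  ext n
  rw [EisensteinSeries.E_qExpansion_coeff _ ⟨3, rfl⟩, coeff_map, coeff_e6, bernoulli_six]
  split_ifs <;> norm_num

/-- The quotient `(5 σ₃ + 7 σ₅) / 12`. -/
def sigMix : PowerSeries ℤ :=
  PowerSeries.mk fun n => (5 * (σ 3 n : ℤ) + 7 * (σ 5 n : ℤ)) / 12

theorem twelve_mul_sigMix : 12 * sigMix = 5 * sig3 + 7 * sig5 := by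
  ext n
  have hdvd : (12 : ℤ) ∣ 5 * (σ 3 n : ℤ) + 7 * (σ 5 n : ℤ) := by
    rw [ArithmeticFunction.sigma_apply, ArithmeticFunction.sigma_apply]
    push_cast
    rw [Finset.mul_sum, Finset.mul_sum, ← Finset.sum_add_distrib]
    refine Finset.dvd_sum fun d _ => ?_
    refine (ZMod.intCast_zmod_eq_zero_iff_dvd _ 12).mp ?_
    push_cast
    generalize ((d : ℕ) : ZMod 12) = x
    revert x
    decide
  rw [map_add, show (12 : PowerSeries ℤ) = ((12 : ℕ) : PowerSeries ℤ) by norm_num,
    show (5 : PowerSeries ℤ) = ((5 : ℕ) : PowerSeries ℤ) by norm_num,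
    show (7 : PowerSeries ℤ) = ((7 : ℕ) : PowerSeries ℤ) by norm_num,
    coeff_natCast_mul, coeff_natCast_mul, coeff_natCast_mul, sigMix, sig3, sig5, coeff_mk,
    coeff_mk, coeff_mk]
  push_cast
  exact Int.mul_ediv_cancel' hdvd

/-- The expansion of the discriminant, from `(E₄³ - E₆²) / 1728`. -/
def deltaZ : PowerSeries ℤ := sigMix + 100 * sig3 ^ 2 + 8000 * sig3 ^ 3 - 147 * sig5 ^ 2

/-- `1728 Δ = E₄³ - E₆²` with integral coefficients. -/
theorem delta_eq : 1728 * deltaZ = e4 ^ 3 - e6 ^ 2 := by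
  rw [deltaZ, e4, e6]
  linear_combination 144 * twelve_mul_sigMix

theorem coeff_zero_deltaZ : coeff 0 deltaZ = 0 := by
  rw [deltaZ, sigMix, sig3, sig5, coeff_zero_eq_constantCoeff_apply]
  simp

theorem coeff_one_deltaZ : coeff 1 deltaZ = 1 := by
  have h : ∀ (n : ℕ) (A : PowerSeries ℤ), coeff 0 A = 0 → coeff 1 (A ^ (n + 2)) = 0 := by
    intro n A hA
    refine coeff_of_lt_order _ (lt_of_lt_of_le ?_ (le_order_pow_of_constantCoeff_eq_zero _
      (by rwa [← coeff_zero_eq_constantCoeff_apply])))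
    exact_mod_cast Nat.one_lt_succ_succ n
  rw [deltaZ, map_sub, map_add, map_add,
    show (100 : PowerSeries ℤ) = ((100 : ℕ) : PowerSeries ℤ) by norm_num,
    show (8000 : PowerSeries ℤ) = ((8000 : ℕ) : PowerSeries ℤ) by norm_num,
    show (147 : PowerSeries ℤ) = ((147 : ℕ) : PowerSeries ℤ) by norm_num,
    coeff_natCast_mul, coeff_natCast_mul, coeff_natCast_mul,
    h 0 sig3 (by simp [sig3]), h 1 sig3 (by simp [sig3]), h 0 sig5 (by simp [sig5]),
    sigMix, coeff_mk]
  simp

/-- `Δ` is a level one form of weight twelve. -/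
theorem isOne_deltaZ : IsOne 12 (toC deltaZ) := by
  have h := ((isOne_e4.pow 3).congr_weight (show ((3 : ℕ) : ℤ) * 4 = 12 by norm_num)).sub
    ((isOne_e6.pow 2).congr_weight (show ((2 : ℕ) : ℤ) * 6 = 12 by norm_num))
  rw [← map_pow, ← map_pow, ← map_sub, ← delta_eq, map_mul, map_ofNat] at h
  have h2 := h.smul (1728 : ℂ)⁻¹
  rwa [smul_eq_C_mul, ← mul_assoc, ← map_ofNat (PowerSeries.C (R := ℂ)) 1728, ← map_mul,
    inv_mul_cancel₀ (by norm_num), map_one, one_mul] at h2

@[simp] theorem constantCoeff_e4 : constantCoeff e4 = 1 := by simp [e4, sig3]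

@[simp] theorem constantCoeff_e6 : constantCoeff e6 = 1 := by simp [e6, sig5]

@[simp] theorem constantCoeff_deltaZ : constantCoeff deltaZ = 0 := by
  rw [← coeff_zero_eq_constantCoeff_apply, coeff_zero_deltaZ]

/-- Basis element of weight `12 K` with leading term `q ^ i`. -/
def basisZ (K i : ℕ) : PowerSeries ℤ := deltaZ ^ i * e4 ^ (3 * (K - i))

/-- `E₄^(3(K-i)) Δ^i` is a level one form of weight `12 K`. -/
theorem isOne_basisZ {K i : ℕ} (hi : i ≤ K) : IsOne (12 * K) (toC (basisZ K i)) := by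
  rw [basisZ, map_mul, map_pow, map_pow]
  refine ((isOne_deltaZ.pow i).mul (isOne_e4.pow (3 * (K - i)))).congr_weight ?_
  push_cast [hi]
  ring

theorem coeff_basisZ_of_lt {K i j : ℕ} (hj : j < i) : coeff j (basisZ K i) = 0 := by
  refine coeff_of_lt_order _ (lt_of_lt_of_le ?_ (le_trans le_self_add (le_order_mul _ _)))
  refine lt_of_lt_of_le ?_ (le_order_pow_of_constantCoeff_eq_zero i
    (by rw [← coeff_zero_eq_constantCoeff_apply, coeff_zero_deltaZ]))
  exact_mod_cast hj

/-- The basis element starts with `q ^ i`. -/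
theorem coeff_basisZ_self (K i : ℕ) : coeff i (basisZ K i) = 1 := by
  obtain ⟨D, hD⟩ := X_dvd_iff.mpr (show constantCoeff deltaZ = 0 by
    rw [← coeff_zero_eq_constantCoeff_apply, coeff_zero_deltaZ])
  have hD0 : constantCoeff D = 1 := by
    have := coeff_one_deltaZ
    rw [hD, coeff_succ_X_mul, coeff_zero_eq_constantCoeff_apply] at this
    exact this
  have h4 : constantCoeff e4 = 1 := by rw [← coeff_zero_eq_constantCoeff_apply, coeff_e4]; simp
  have h5 := coeff_X_pow_mul (D ^ i * e4 ^ (3 * (K - i))) i 0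
  rw [zero_add, ← mul_assoc, ← mul_pow, ← hD, coeff_zero_eq_constantCoeff_apply] at h5
  rw [basisZ, h5, map_mul, map_pow, map_pow, hD0, h4, one_pow, one_pow, one_mul]

/-- The ring of algebraic integers in `ℂ`. -/
abbrev AlgInt : Subalgebra ℤ ℂ := integralClosure ℤ ℂ

/-- Cast of a series over the algebraic integers. -/
abbrev algToC : PowerSeries AlgInt →+* PowerSeries ℂ :=
  PowerSeries.map AlgInt.val.toRingHom

/-- The complex image of an integral series factors through the algebraic integers. -/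
theorem toC_eq_algToC (A : PowerSeries ℤ) :
    toC A = algToC (PowerSeries.map (Int.castRingHom AlgInt) A) := by
  ext n
  simp

/-- Sturm's bound modulo a prime of the algebraic integers, for weight `12 K`. -/
theorem sturm_mod_twelve {F : Type*} [Field F] (φ : AlgInt →+* F) {K : ℕ}
    {D : PowerSeries AlgInt} (hD : IsOne (12 * K) (algToC D))
    (h0 : ∀ i ≤ K, φ (coeff i D) = 0) : PowerSeries.map φ D = 0 := by
  have key : ∀ i ≤ K + 1, ∃ D' : PowerSeries AlgInt, IsOne (12 * K) (algToC D') ∧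
      PowerSeries.map φ D' = PowerSeries.map φ D ∧ ∀ j < i, coeff j D' = 0 := by
    intro i hi
    induction i with
    | zero => exact ⟨D, hD, rfl, fun j hj => absurd hj (Nat.not_lt_zero j)⟩
    | succ i ih =>
      obtain ⟨D', hD', hmap, hz⟩ := ih (Nat.le_of_succ_le hi)
      set d := coeff i D' with hd
      set b := PowerSeries.map (Int.castRingHom AlgInt) (basisZ K i) with hb
      have hφd : φ d = 0 := by
        rw [hd, ← coeff_map, hmap, coeff_map, h0 i (Nat.lt_succ_iff.mp hi)]
      refine ⟨D' - C d * b, ?_, ?_, ?_⟩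
      · rw [map_sub, map_mul, map_C, ← smul_eq_C_mul]
        refine hD'.sub (IsOne.smul _ ?_)
        rw [hb, ← toC_eq_algToC]
        exact isOne_basisZ (Nat.lt_succ_iff.mp hi)
      · rw [map_sub, map_mul, map_C, hφd, map_zero, zero_mul, sub_zero, hmap]
      · intro j hj
        rw [map_sub, coeff_C_mul, hb, coeff_map]
        rcases lt_or_eq_of_le (Nat.lt_succ_iff.mp hj) with hj' | rfl
        · rw [hz j hj', coeff_basisZ_of_lt hj', map_zero, mul_zero, sub_zero]
        · rw [coeff_basisZ_self, map_one, mul_one, ← hd, sub_self]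
  obtain ⟨D', hD', hmap, hz⟩ := key (K + 1) le_rfl
  have hz' : algToC D' = 0 := by
    refine (hD'.congr_weight (show (12 * (K : ℤ)) = ((12 * K : ℕ) : ℤ) by push_cast; ring)).eq_zero
      fun i hi => ?_
    rw [coeff_map, hz i (by omega), map_zero]
  have : D' = 0 := PowerSeries.map_injective AlgInt.val.toRingHom Subtype.val_injective
    (hz'.trans (map_zero algToC).symm)
  rw [← hmap, this, map_zero]

/-- Sturm's bound modulo a prime of the algebraic integers. -/
theorem sturm_mod {F : Type*} [Field F] (φ : AlgInt →+* F) {K r : ℕ}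
    {C : PowerSeries AlgInt} (hC : IsOne (K : ℤ) (algToC C)) (hr : K < 12 * r)
    (h0 : ∀ i < r, φ (coeff i C) = 0) : PowerSeries.map φ C = 0 := by
  have h12 : PowerSeries.map φ (C ^ 12) = 0 := by
    refine sturm_mod_twelve φ (K := K) ?_ fun i hi => ?_
    · rw [map_pow]
      exact (hC.pow 12).congr_weight (by norm_num)
    · rw [← coeff_map, map_pow]
      have hord : (r : ℕ∞) ≤ (PowerSeries.map φ C).order :=
        nat_le_order _ _ fun j hj => by rw [coeff_map, h0 j hj]
      refine coeff_of_lt_order _ (lt_of_lt_of_le ?_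
        (le_trans (nsmul_le_nsmul_right hord 12) (le_order_pow _ 12)))
      rw [nsmul_eq_mul]
      exact_mod_cast (lt_of_le_of_lt hi hr)
  rw [map_pow] at h12
  exact pow_eq_zero_iff (n := 12) (by norm_num) |>.mp h12

end Fermat.Agent.Eis
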