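import Fermat.Agent.Eis.NormSturm

/-!
No weight two form of level `p` is close to the constant `1`, beyond the range allowed by the
numerator of `(p - 1) / 12`. It gives the upper bound for the index of the Eisenstein ideal.
-/

noncomputable section

open PowerSeries
open scoped ArithmeticFunction.sigma

namespace Fermat.Agent.Eis

variable {p : ℕ} [hp : Fact p.Prime]

theorem toC_intCast_mul (n : ℤ) (A : PowerSeries ℤ) :
    toC ((n : PowerSeries ℤ) * A) = (n : ℂ) • toC A := by
  rw [map_mul, map_intCast, smul_eq_C_mul, map_intCast]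

theorem uOp_smul {R : Type*} [CommRing R] (m : ℕ) (c : R) (A : PowerSeries R) :
    uOp m (c • A) = c • uOp m A := by
  ext n; simp

theorem uOp_one {R : Type*} [CommRing R] : uOp p (1 : PowerSeries R) = 1 := by
  ext n
  simp [coeff_one, hp.out.ne_zero]

theorem coeff_vOp_one [NeZero p] {R : Type*} [CommRing R] (A : PowerSeries R) :
    coeff 1 (vOp p A) = 0 :=
  coeff_expand_of_not_dvd _ _ _ hp.out.not_dvd_one

omit hp in
theorem coeff_vOp_self [NeZero p] {R : Type*} [CommRing R] (A : PowerSeries R) :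
    coeff p (vOp p A) = coeff 1 A := by
  have := coeff_expand_mul p (NeZero.ne p) A 1
  rwa [mul_one] at this

omit hp in
theorem coeff_vOp_zero [NeZero p] {R : Type*} [CommRing R] (A : PowerSeries R) :
    coeff 0 (vOp p A) = coeff 0 A := by
  simp [coeff_expand]

theorem coeff_intCast_mul {R : Type*} [CommRing R] (n : ℤ) (A : PowerSeries R) (i : ℕ) :
    coeff i ((n : PowerSeries R) * A) = (n : R) * coeff i A := by
  rw [← map_intCast (PowerSeries.C (R := R)), coeff_C_mul]

/-- In weight two the expansion at `0` is determined by the one at `∞`. -/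
theorem IsPair.weight_two_uOp {A B : PowerSeries ℂ} (h : IsPair p 2 A B) :
    (p : ℂ) • B = -uOp p A := by
  have h0 := h.swap.trace.eq_zero_weight_two
  have hpC : (p : ℂ) ≠ 0 := Nat.cast_ne_zero.mpr hp.out.ne_zero
  rw [uOp_smul, smul_smul] at h0
  have : B = -(((p : ℂ) * (-(p : ℂ))⁻¹ ^ (2 : ℤ)) • uOp p A) := eq_neg_of_add_eq_zero_left h0
  rw [this, smul_neg, smul_smul]
  congr 1
  rw [zpow_ofNat]
  field_simp
  simp

/-- An integral level one form as an integral pair of level `p`. -/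
theorem zPair_of_isOne [NeZero p] {k : ℤ} {A : PowerSeries ℤ} (h : IsOne k (toC A)) :
    ZPair p k A (vOp p A) := by
  rw [ZPair, map_vOp]
  exact h.toPair

/-- The Fricke image of an integral level one form, scaled to be integral. -/
theorem zPair_swap_of_isOne [NeZero p] {k : ℕ} {A : PowerSeries ℤ} (hk : Even k)
    (h : IsOne (k : ℤ) (toC A)) : ZPair p k (((p : ℤ) ^ k : ℤ) * vOp p A) A := by
  have h' := (h.toPair (p := p)).swap.smul ((p : ℂ) ^ k)
  have hpC : (p : ℂ) ≠ 0 := Nat.cast_ne_zero.mpr hp.out.ne_zero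
  rw [smul_smul, zpow_natCast, inv_pow, hk.neg_pow, mul_inv_cancel₀ (pow_ne_zero _ hpC),
    one_smul] at h'
  rw [ZPair, toC_intCast_mul, map_vOp]
  push_cast
  exact h'

theorem ZPair.add {k : ℤ} {A B A' B' : PowerSeries ℤ} (h : ZPair p k A B) (h' : ZPair p k A' B') :
    ZPair p k (A + A') (B + B') := by
  rw [ZPair, map_add, map_add]; exact IsPair.add h h'

theorem ZPair.sub {k : ℤ} {A B A' B' : PowerSeries ℤ} (h : ZPair p k A B) (h' : ZPair p k A' B') :
    ZPair p k (A - A') (B - B') := by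
  rw [ZPair, map_sub, map_sub]; exact IsPair.sub h h'

theorem ZPair.mul {k l : ℤ} {A B A' B' : PowerSeries ℤ} (h : ZPair p k A B)
    (h' : ZPair p l A' B') : ZPair p (k + l) (A * A') (B * B') := by
  rw [ZPair, map_mul, map_mul]; exact IsPair.mul h h'

theorem ZPair.intMul {k : ℤ} {A B : PowerSeries ℤ} (n : ℤ) (h : ZPair p k A B) :
    ZPair p k ((n : PowerSeries ℤ) * A) ((n : PowerSeries ℤ) * B) := by
  rw [ZPair, toC_intCast_mul, toC_intCast_mul]; exact IsPair.smul _ h

omit hp in
theorem ZPair.congr_weight {k l : ℤ} {A B : PowerSeries ℤ} (h : ZPair p k A B) (e : k = l) :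
    ZPair p l A B := e ▸ h

/-- Divide a pair by a nonzero integer. -/
theorem ZPair.of_intMul {k : ℤ} {A B : PowerSeries ℤ} {n : ℤ} (hn : n ≠ 0)
    (h : ZPair p k ((n : PowerSeries ℤ) * A) ((n : PowerSeries ℤ) * B)) : ZPair p k A B := by
  rw [ZPair, toC_intCast_mul, toC_intCast_mul] at h
  have h' := IsPair.smul (n : ℂ)⁻¹ h
  rwa [smul_smul, smul_smul, inv_mul_cancel₀ (Int.cast_ne_zero.mpr hn), one_smul, one_smul] at h'

/-- The trace of an integral pair to level one. -/
theorem ZPair.trace {k : ℤ} {A B : PowerSeries ℤ} (h : ZPair p k A B) :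
    IsOne k (toC (A + ((p : ℤ) : PowerSeries ℤ) * uOp p B)) := by
  rw [map_add, toC_intCast_mul, map_uOp, Int.cast_natCast]
  exact IsPair.trace h

/-- Coefficientwise congruence to `1` modulo `M`. -/
def ModOne (M : ℕ) (A : PowerSeries ℤ) : Prop :=
  PowerSeries.map (Int.castRingHom (ZMod M)) A = 1

theorem ModOne.uOp {M : ℕ} {A : PowerSeries ℤ} (h : ModOne M A) : ModOne M (uOp p A) := by
  have h' : ∀ n, coeff n (PowerSeries.map (Int.castRingHom (ZMod M)) A) = coeff n 1 := fun n => by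
    rw [show PowerSeries.map (Int.castRingHom (ZMod M)) A = 1 from h]
  ext n
  rw [coeff_map, coeff_uOp, ← coeff_map, h', coeff_one, coeff_one]
  simp [hp.out.ne_zero]

/-- A weight two form of level `p` congruent to the constant `1` modulo `M`, normalised to be
integral at both cusps. -/
def NearOne (p M : ℕ) : Prop :=
  ∃ A : PowerSeries ℤ, ZPair p 2 ((-(p : ℤ) : ℤ) * A) (Eis.uOp p A) ∧ ModOne M A

/-- A form with expansion `1` modulo `M` at `∞` shows `NearOne p M`. -/
theorem nearOne_of_isPair {M : ℕ} {A : PowerSeries ℤ} {B : PowerSeries ℂ}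
    (h : IsPair p 2 (toC A) B) (hA : ModOne M A) : NearOne p M := by
  refine ⟨A, ?_, hA⟩
  have h' := h.smul (-(p : ℂ))
  rw [ZPair, toC_intCast_mul, map_uOp]
  have hB := h.weight_two_uOp
  rw [neg_smul, neg_smul, hB, neg_neg, ← neg_smul] at h'
  push_cast
  exact h'

/-- The Hecke relation `p¹² + p τ(p²) = p τ(p)²` for the coefficients of `Δ`. -/
theorem delta_coeff_identity [NeZero p] :
    (p : ℤ) ^ 12 + p * coeff (p * p) deltaZ = p * coeff p deltaZ * coeff p deltaZ := by
  have h := (zPair_swap_of_isOne (p := p) (k := 12) ⟨6, rfl⟩ isOne_deltaZ).trace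
  set C := (((p : ℤ) ^ 12 : ℤ) : PowerSeries ℤ) * vOp p deltaZ +
    ((p : ℤ) : PowerSeries ℤ) * Eis.uOp p deltaZ
  have hc0 : coeff 0 C = 0 := by
    rw [map_add, coeff_intCast_mul, coeff_intCast_mul, coeff_vOp_zero, coeff_uOp, mul_zero p,
      coeff_zero_deltaZ, mul_zero, mul_zero, add_zero]
  have hz := ((h.congr_weight (show ((12 : ℕ) : ℤ) = 12 by norm_num)).sub
    (isOne_deltaZ.smul ((coeff 1 C : ℤ) : ℂ))).congr_weight
      (show (12 : ℤ) = ((12 : ℕ) : ℤ) by norm_num)
  rw [← toC_intCast_mul, ← map_sub] at hz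
  have heq : C = ((coeff 1 C : ℤ) : PowerSeries ℤ) * deltaZ := by
    refine sub_eq_zero.mp (toC_injective ((hz.eq_zero fun i hi => ?_).trans (map_zero toC).symm))
    rw [coeff_map]
    interval_cases i
    · rw [map_sub, coeff_intCast_mul, hc0, coeff_zero_deltaZ]; simp
    · simp [coeff_intCast_mul, coeff_one_deltaZ]
  have hp' := congrArg (coeff p) heq
  rw [coeff_intCast_mul, map_add, coeff_intCast_mul, coeff_intCast_mul, coeff_vOp_self,
    coeff_uOp, coeff_one_deltaZ, mul_one, map_add, coeff_intCast_mul, coeff_intCast_mul,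
    coeff_vOp_one, coeff_uOp, mul_zero, zero_add, mul_one p] at hp'
  exact_mod_cast hp'

/-- For `M` prime to `p`, `NearOne p M` forces `M ∣ p + 1`: multiply by `Δ` and take the trace. -/
theorem NearOne.dvd_succ [NeZero p] {M : ℕ} (hM : p.Coprime M) (h : NearOne p M) : M ∣ p + 1 := by
  obtain ⟨A, hA, hmod⟩ := h
  have ht := (hA.mul (zPair_swap_of_isOne (p := p) (k := 12) ⟨6, rfl⟩ isOne_deltaZ)).trace
  replace ht := ht.congr_weight (show (2 : ℤ) + ((12 : ℕ) : ℤ) = 14 by norm_num)
  have hz := ht.eq_zero_weight_fourteen (by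
    rw [coeff_map, map_add, coeff_intCast_mul]
    simp [coeff_uOp])
  have hz' := congrArg (PowerSeries.map (Int.castRingHom (ZMod M)))
    (toC_injective (hz.trans (map_zero toC).symm))
  have hA1 : PowerSeries.map (Int.castRingHom (ZMod M)) A = 1 := hmod
  simp only [map_add, map_mul, map_intCast, hA1, mul_one, map_vOp, map_uOp] at hz'
  rw [uOp_one, one_mul, map_zero] at hz'
  have e1 := congrArg (coeff 1) hz'
  have e2 := congrArg (coeff p) hz'
  rw [map_zero, map_add, coeff_intCast_mul, coeff_intCast_mul, coeff_intCast_mul,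
    coeff_vOp_one, coeff_uOp, coeff_map, mul_zero, mul_zero, zero_add, mul_one p] at e1
  rw [map_zero, map_add, coeff_intCast_mul, coeff_intCast_mul, coeff_intCast_mul,
    coeff_vOp_self, coeff_uOp, coeff_map, coeff_map, coeff_one_deltaZ] at e2
  have hu : IsUnit (p : ZMod M) := (ZMod.isUnit_iff_coprime p M).mpr hM
  have hid := congrArg (Int.cast (R := ZMod M)) (delta_coeff_identity (p := p))
  simp only [Int.coe_castRingHom] at e1 e2
  push_cast at e1 e2 hid
  rw [hu.mul_right_eq_zero] at e1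
  rw [e1, mul_zero] at hid
  have : (p : ZMod M) ^ 12 * ((p : ZMod M) + 1) = 0 := by linear_combination hid - e2
  rw [(hu.pow 12).mul_right_eq_zero] at this
  exact (ZMod.natCast_eq_zero_iff (p + 1) M).mp (by push_cast; exact this)

/-- If an integral pair `(-p A, U A)` of weight two has `A ≡ 1` modulo `p`, then the expansions `e`,
`g` of level one forms of weights `k` and `k + 2` with constant term `1` satisfy `e_p ≡ g_1`. -/
theorem cast_coeff_eq_of_modOne [NeZero p] {A : PowerSeries ℤ}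
    (hA : ZPair p 2 ((-(p : ℤ) : ℤ) * A) (Eis.uOp p A)) (hmod : ModOne p A) {k : ℕ}
    {e g : PowerSeries ℤ} (hk : Even k) (hk0 : 0 < k) (hk12 : k + 2 < 12)
    (he : IsOne (k : ℤ) (toC e)) (hg : IsOne ((k + 2 : ℕ) : ℤ) (toC g)) (he0 : coeff 0 e = 1)
    (hg0 : coeff 0 g = 1) :
    ((coeff p e : ℤ) : ZMod p) = ((coeff 1 g : ℤ) : ZMod p) := by
  have ht := ((hA.mul (zPair_swap_of_isOne (p := p) hk he)).trace).congr_weight
    (show (2 : ℤ) + (k : ℤ) = ((k + 2 : ℕ) : ℤ) by push_cast; ring)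
  set D : PowerSeries ℤ := (((-((p : ℤ) ^ k)) : ℤ) : PowerSeries ℤ) * (A * vOp p e) +
    Eis.uOp p (Eis.uOp p A * e) with hD
  have hD' : ((-(p : ℤ) : ℤ) : PowerSeries ℤ) * A *
      ((((p : ℤ) ^ k : ℤ) : PowerSeries ℤ) * vOp p e)
      + ((p : ℤ) : PowerSeries ℤ) * Eis.uOp p (Eis.uOp p A * e) =
      ((p : ℤ) : PowerSeries ℤ) * D := by
    rw [hD]; push_cast; ring
  rw [hD', toC_intCast_mul] at ht
  have ht' := ht.smul ((p : ℤ) : ℂ)⁻¹
  rw [smul_smul, inv_mul_cancel₀ (Int.cast_ne_zero.mpr (Int.natCast_ne_zero.mpr hp.out.ne_zero)),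
    one_smul] at ht'
  have hzero := ht'.sub (hg.smul ((coeff 0 D : ℤ) : ℂ))
  rw [← toC_intCast_mul, ← map_sub] at hzero
  have heq : D = ((coeff 0 D : ℤ) : PowerSeries ℤ) * g := by
    refine sub_eq_zero.mp (toC_injective ((hzero.eq_zero fun i hi => ?_).trans
      (map_zero toC).symm))
    obtain rfl : i = 0 := Nat.le_zero.mp (le_trans hi (by rw [Nat.div_eq_of_lt hk12]))
    rw [coeff_map, map_sub, coeff_intCast_mul, hg0, Int.cast_id, mul_one, sub_self, map_zero]
  have hA1 : PowerSeries.map (Int.castRingHom (ZMod p)) A = 1 := hmod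
  have hU1 : PowerSeries.map (Int.castRingHom (ZMod p)) (Eis.uOp p A) = 1 := hmod.uOp
  have hp0 : ((((-((p : ℤ) ^ k)) : ℤ)) : PowerSeries (ZMod p)) = 0 := by
    have h0 : ((p : ℕ) : PowerSeries (ZMod p)) = 0 := by
      rw [← map_natCast (PowerSeries.C (R := ZMod p)), ZMod.natCast_self, map_zero]
    push_cast
    rw [h0, zero_pow hk0.ne', neg_zero]
  have hDm : PowerSeries.map (Int.castRingHom (ZMod p)) D =
      Eis.uOp p (PowerSeries.map (Int.castRingHom (ZMod p)) e) := by
    rw [hD, map_add, map_mul, map_intCast, hp0, zero_mul, zero_add, map_uOp, map_mul, hU1,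
      one_mul]
  have e0 := congrArg (coeff 0) hDm
  have e1 := congrArg (coeff 1) hDm
  rw [coeff_map, coeff_uOp, coeff_map, mul_zero, he0] at e0
  rw [coeff_map, coeff_uOp, coeff_map, mul_one, congrArg (coeff 1) heq, coeff_intCast_mul,
    Int.cast_id, map_mul, e0, map_one, one_mul] at e1
  simpa using e1.symm

/-- `NearOne p p` fails for `p ≥ 5`. -/
theorem not_nearOne_self [NeZero p] (h5 : 5 ≤ p) : ¬ NearOne p p := by
  rintro ⟨A, hA, hmod⟩
  have hp1 : ∀ k : ℕ, 0 < k → ((σ k p : ℕ) : ZMod p) = 1 := fun k hk => by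
    rw [ArithmeticFunction.sigma_apply, hp.out.divisors]
    rw [Finset.sum_pair hp.out.one_lt.ne]
    simp [hk.ne']
  have c46 := cast_coeff_eq_of_modOne (k := 4) (e := e4) (g := e6) hA hmod ⟨2, rfl⟩
    (by norm_num) (by norm_num) isOne_e4 isOne_e6
    (by simp [coeff_e4]) (by simp [coeff_e6])
  have c68 := cast_coeff_eq_of_modOne (k := 6) (e := e6) (g := e4 * e4) hA hmod ⟨3, rfl⟩
    (by norm_num) (by norm_num) isOne_e6
    (by rw [map_mul]; exact (isOne_e4.mul isOne_e4).congr_weight (by norm_num))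
    (by simp [coeff_e6]) (by simp [coeff_mul, coeff_e4])
  rw [coeff_e4, coeff_e6, if_neg hp.out.ne_zero, if_neg one_ne_zero] at c46
  rw [coeff_e6, if_neg hp.out.ne_zero] at c68
  simp [coeff_mul, Finset.Nat.antidiagonal_succ, coeff_e4, hp1] at c46 c68
  have h1 : ((744 : ℕ) : ZMod p) = 0 := by push_cast; linear_combination c46
  have h2 : ((984 : ℕ) : ZMod p) = 0 := by push_cast; linear_combination -c68
  rw [ZMod.natCast_eq_zero_iff] at h1 h2
  have h24 : p ∣ 24 := by
    have := Nat.dvd_gcd h1 h2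
    simpa using this
  have := Nat.le_of_dvd (by norm_num) h24
  interval_cases p <;> first | omega | exact absurd hp.out (by decide)

/-- Reduction modulo `M` commutes with multiplication by an integer. -/
theorem map_intCast_mul {M : ℕ} (n : ℤ) (X : PowerSeries ℤ) :
    PowerSeries.map (Int.castRingHom (ZMod M)) ((n : PowerSeries ℤ) * X) =
      (n : PowerSeries (ZMod M)) * PowerSeries.map (Int.castRingHom (ZMod M)) X := by
  rw [map_mul, map_intCast]

/-- When `M ∣ p + 1`, `NearOne p M` gives an integral pair congruent to `1` modulo `M` at both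
cusps. -/
theorem NearOne.exists_modOne_pair {M : ℕ} (h : NearOne p M) (hM : M ∣ p + 1) :
    ∃ A B : PowerSeries ℤ, ZPair p 2 A B ∧ ModOne M A ∧ ModOne M B := by
  obtain ⟨A, hA, hmod⟩ := h
  refine ⟨_, _, hA, ?_, hmod.uOp⟩
  have h1 : ((-(p : ℤ) : ℤ) : ZMod M) = 1 := by
    have : ((p + 1 : ℕ) : ZMod M) = 0 := (ZMod.natCast_eq_zero_iff _ _).mpr hM
    push_cast at this ⊢
    linear_combination -this
  rw [ModOne, map_intCast_mul, show PowerSeries.map (Int.castRingHom (ZMod M)) A = 1 from hmod,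
    mul_one, ← map_intCast (PowerSeries.C (R := ZMod M)), h1, map_one]

/-- A series congruent to `1` modulo `M` is `1 + M I`. -/
theorem exists_eq_one_add_mul {M : ℕ} {A : PowerSeries ℤ} (h : ModOne M A) :
    ∃ I : PowerSeries ℤ, A = 1 + ((M : ℤ) : PowerSeries ℤ) * I := by
  have hd : ∀ n, (M : ℤ) ∣ coeff n A - coeff n (1 : PowerSeries ℤ) := fun n => by
    rw [← ZMod.intCast_zmod_eq_zero_iff_dvd, Int.cast_sub, sub_eq_zero]
    have := congrArg (coeff n) (show PowerSeries.map (Int.castRingHom (ZMod M)) A = 1 from h)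
    rw [coeff_map] at this
    rw [← eq_intCast (Int.castRingHom (ZMod M)), this, coeff_one, coeff_one]
    split_ifs <;> simp
  choose c hc using hd
  refine ⟨PowerSeries.mk c, ?_⟩
  ext n
  rw [map_add, coeff_intCast_mul, coeff_mk, Int.cast_id, ← hc n]
  ring

theorem not_dvd_of_natAbs {ℓ : ℕ} {n : ℤ} (h : ¬ ℓ ∣ n.natAbs) : ¬ (ℓ : ℤ) ∣ n := fun h' =>
  h (Int.natCast_dvd.mp h')

/-- `NearOne p ℓ` fails for a prime `ℓ ≥ 7` dividing `p + 1`. -/
theorem not_nearOne_large [NeZero p] {ℓ : ℕ} (hℓ : ℓ.Prime) (h7 : 7 ≤ ℓ)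
    (hM : ℓ ∣ p + 1) : ¬ NearOne p ℓ := by
  intro h
  obtain ⟨A, B, hpair, hA, hB⟩ := h.exists_modOne_pair hM
  refine not_zPair_order_one hℓ (k := 4) (by norm_num)
    (((hpair.mul hpair).sub ((zPair_of_isOne (p := p) isOne_e4).congr_weight
      (by norm_num))).congr_weight (by norm_num))
    (X := 1 - e4) ?_ ?_ (by simp) ?_
  · rw [map_sub, map_mul, show PowerSeries.map (Int.castRingHom (ZMod ℓ)) A = 1 from hA, one_mul,
      map_sub, map_one]
  · rw [map_sub, map_mul, show PowerSeries.map (Int.castRingHom (ZMod ℓ)) B = 1 from hB, one_mul,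
      map_sub (vOp p), map_one (vOp p), map_sub, map_one]
  · rw [map_sub, coeff_one, if_neg one_ne_zero, coeff_e4, if_neg one_ne_zero]
    simp only [ArithmeticFunction.sigma_one, Nat.cast_one, mul_one, zero_sub, dvd_neg]
    refine not_dvd_of_natAbs ?_
    intro h'
    have h'' : ℓ ∣ 2 ^ 4 * (3 * 5) := h'
    rcases hℓ.dvd_mul.mp h'' with h2 | h2
    · have := (Nat.prime_dvd_prime_iff_eq hℓ Nat.prime_two).mp (hℓ.dvd_of_dvd_pow h2); omega
    · rcases hℓ.dvd_mul.mp h2 with h3 | h3
      · have := Nat.le_of_dvd (by norm_num) h3; omega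
      · have := Nat.le_of_dvd (by norm_num) h3; omega

/-- `NearOne p 5` fails when `5 ∣ p + 1`. -/
theorem not_nearOne_five [NeZero p] (hM : 5 ∣ p + 1) : ¬ NearOne p 5 := by
  intro h
  obtain ⟨A, B, hpair, hA, hB⟩ := h.exists_modOne_pair hM
  refine not_zPair_order_one Nat.prime_five (k := 6) (by norm_num)
    ((((hpair.mul (zPair_of_isOne (p := p) isOne_e4)).congr_weight
      (show (2 : ℤ) + 4 = 6 by norm_num)).sub (zPair_of_isOne (p := p) isOne_e6)).congr_weight
        (by norm_num))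
    (X := e4 - e6) ?_ ?_ (by simp) ?_
  · rw [map_sub, map_mul, show PowerSeries.map (Int.castRingHom (ZMod 5)) A = 1 from hA, one_mul,
      map_sub]
  · rw [map_sub, map_mul, show PowerSeries.map (Int.castRingHom (ZMod 5)) B = 1 from hB, one_mul,
      map_sub (vOp p), map_sub]
  · rw [map_sub, coeff_e4, if_neg one_ne_zero, coeff_e6, if_neg one_ne_zero]
    simp only [ArithmeticFunction.sigma_one, Nat.cast_one, mul_one]
    norm_num

/-- `NearOne p 9` fails when `9 ∣ p + 1`. -/
theorem not_nearOne_nine [NeZero p] (hM : 9 ∣ p + 1) : ¬ NearOne p 9 := by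
  intro h
  obtain ⟨A, B, hpair, hA, hB⟩ := h.exists_modOne_pair hM
  obtain ⟨I, rfl⟩ := exists_eq_one_add_mul hA
  obtain ⟨J, rfl⟩ := exists_eq_one_add_mul hB
  have hv : ZPair p ((4 : ℕ) : ℤ) (6 * I + 27 * I ^ 2 - 80 * sig3)
      (6 * J + 27 * J ^ 2 - 80 * vOp p sig3) := by
    refine ZPair.of_intMul (n := 3) (by norm_num) ?_
    have := ((hpair.mul hpair).sub ((zPair_of_isOne (p := p) isOne_e4).congr_weight
      (show (4 : ℤ) = 2 + 2 by norm_num))).congr_weight
        (show (2 : ℤ) + 2 = ((4 : ℕ) : ℤ) by norm_num)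
    simp only [e4, map_add, map_one, map_mul, map_ofNat] at this
    convert! this using 1 <;> (push_cast; ring)
  have h3 : (3 : PowerSeries (ZMod 3)) = 0 := by
    rw [← map_ofNat (PowerSeries.C (R := ZMod 3)) 3, show (3 : ZMod 3) = 0 from rfl, map_zero]
  refine not_zPair_order_one Nat.prime_three (k := 4) (by norm_num) hv (X := -80 * sig3) ?_ ?_
    (by simp [sig3, coeff_zero_eq_constantCoeff_apply]) ?_
  · simp only [map_sub, map_add, map_mul, map_pow, map_ofNat, map_neg]
    linear_combination (2 * PowerSeries.map (Int.castRingHom (ZMod 3)) I +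
      9 * PowerSeries.map (Int.castRingHom (ZMod 3)) I ^ 2) * h3
  · simp only [map_sub, map_add, map_mul, map_pow, map_ofNat, map_neg]
    linear_combination (2 * PowerSeries.map (Int.castRingHom (ZMod 3)) J +
      9 * PowerSeries.map (Int.castRingHom (ZMod 3)) J ^ 2) * h3
  · rw [show (-80 : PowerSeries ℤ) = ((-80 : ℤ) : PowerSeries ℤ) by norm_num, coeff_intCast_mul,
      sig3, coeff_mk]
    simp only [ArithmeticFunction.sigma_one, Nat.cast_one, mul_one]
    norm_num

/-- `NearOne p 8` fails when `8 ∣ p + 1`. -/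
theorem not_nearOne_eight [NeZero p] (hM : 8 ∣ p + 1) : ¬ NearOne p 8 := by
  intro h
  obtain ⟨A, B, hpair, hA, hB⟩ := h.exists_modOne_pair hM
  obtain ⟨I, rfl⟩ := exists_eq_one_add_mul hA
  obtain ⟨J, rfl⟩ := exists_eq_one_add_mul hB
  have h4 := zPair_of_isOne (p := p) isOne_e4
  have h6 := zPair_of_isOne (p := p) isOne_e6
  set a := sig3
  set b := sig5
  set c := sigMix
  set N : PowerSeries ℤ → PowerSeries ℤ → PowerSeries ℤ → PowerSeries ℤ → PowerSeries ℤ :=
    fun I a b c => 27 * c + 2 * I ^ 2 + 8 * I ^ 3 + 16 * I ^ 4 + 30 * (a * I) + 120 * (a * I ^ 2) +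
      126 * (b * I) + 1125 * a ^ 2 with hN
  have hv : ZPair p ((8 : ℕ) : ℤ) (N I a b c) (N J (vOp p a) (vOp p b) (vOp p c)) := by
    refine ZPair.of_intMul (n := 256) (by norm_num) ?_
    have h2 := hpair.mul hpair
    have H := ((((h2.mul h2).congr_weight (show (2 : ℤ) + 2 + (2 + 2) = 8 by norm_num)).add
      ((((h4.mul h2).intMul 2)).congr_weight (show (4 : ℤ) + (2 + 2) = 8 by norm_num))).sub
      (((h6.mul hpair).intMul 8).congr_weight (show (6 : ℤ) + 2 = 8 by norm_num))).add
      (((h4.mul h4).intMul 5).congr_weight (show (4 : ℤ) + 4 = 8 by norm_num))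
    simp only [e4, e6, map_add, map_sub, map_one, map_mul, map_ofNat] at H
    have htw := congrArg (vOp p) twelve_mul_sigMix
    simp only [map_add, map_mul, map_ofNat] at htw
    convert! H using 1
    · simp only [hN, Nat.cast_ofNat]; push_cast; linear_combination 576 * twelve_mul_sigMix
    · simp only [hN, Nat.cast_ofNat]; push_cast; linear_combination 576 * htw
  have h2 : (2 : PowerSeries (ZMod 2)) = 0 := by
    rw [← map_ofNat (PowerSeries.C (R := ZMod 2)) 2, show (2 : ZMod 2) = 0 from rfl, map_zero]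
  refine not_zPair_order_one Nat.prime_two (k := 8) (by norm_num) hv (X := c + a ^ 2) ?_ ?_ ?_ ?_
  · simp only [hN, map_add, map_mul, map_pow, map_ofNat]
    linear_combination (13 * PowerSeries.map (Int.castRingHom (ZMod 2)) c +
      PowerSeries.map (Int.castRingHom (ZMod 2)) I ^ 2 +
      4 * PowerSeries.map (Int.castRingHom (ZMod 2)) I ^ 3 +
      8 * PowerSeries.map (Int.castRingHom (ZMod 2)) I ^ 4 +
      15 * (PowerSeries.map (Int.castRingHom (ZMod 2)) a *
        PowerSeries.map (Int.castRingHom (ZMod 2)) I) +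
      60 * (PowerSeries.map (Int.castRingHom (ZMod 2)) a *
        PowerSeries.map (Int.castRingHom (ZMod 2)) I ^ 2) +
      63 * (PowerSeries.map (Int.castRingHom (ZMod 2)) b *
        PowerSeries.map (Int.castRingHom (ZMod 2)) I) +
      562 * PowerSeries.map (Int.castRingHom (ZMod 2)) a ^ 2) * h2
  · simp only [hN, map_add, map_mul, map_pow, map_ofNat]
    linear_combination (13 * PowerSeries.map (Int.castRingHom (ZMod 2)) (vOp p c) +
      PowerSeries.map (Int.castRingHom (ZMod 2)) J ^ 2 +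
      4 * PowerSeries.map (Int.castRingHom (ZMod 2)) J ^ 3 +
      8 * PowerSeries.map (Int.castRingHom (ZMod 2)) J ^ 4 +
      15 * (PowerSeries.map (Int.castRingHom (ZMod 2)) (vOp p a) *
        PowerSeries.map (Int.castRingHom (ZMod 2)) J) +
      60 * (PowerSeries.map (Int.castRingHom (ZMod 2)) (vOp p a) *
        PowerSeries.map (Int.castRingHom (ZMod 2)) J ^ 2) +
      63 * (PowerSeries.map (Int.castRingHom (ZMod 2)) (vOp p b) *
        PowerSeries.map (Int.castRingHom (ZMod 2)) J) +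
      562 * PowerSeries.map (Int.castRingHom (ZMod 2)) (vOp p a) ^ 2) * h2
  · simp [c, a, sigMix, sig3, coeff_zero_eq_constantCoeff_apply]
  · simp [c, a, sigMix, sig3, pow_two, coeff_mul, Finset.Nat.antidiagonal_succ]

end Fermat.Agent.Eis
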