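import Mathlib.Analysis.Normed.Ring.InfiniteSum
import Mathlib.Analysis.SpecialFunctions.Pow.Complex
import Mathlib.NumberTheory.ModularForms.JacobiTheta.TwoVariable

/-!
Poisson summation for a Gaussian, one variable at a time, with a family of further variables. It
is the analytic input for the transformation law of theta series.
-/

noncomputable section

open Complex
open scoped Real

namespace Fermat.Agent.Eis

/-- The Gaussian `exp (π i τ c x²)`. -/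
def gau (τ : ℂ) (c x : ℝ) : ℂ := cexp (π * I * τ * c * (x : ℂ) ^ 2)

/-- The character `exp (2 π i x)`. -/
def eChar (x : ℝ) : ℂ := cexp (2 * π * I * x)

theorem eChar_add (x y : ℝ) : eChar (x + y) = eChar x * eChar y := by
  rw [eChar, eChar, eChar, ← Complex.exp_add]
  push_cast
  ring_nf

theorem eChar_zero : eChar 0 = 1 := by simp [eChar]

theorem norm_eChar (x : ℝ) : ‖eChar x‖ = 1 := by
  rw [eChar, Complex.norm_exp]
  simp

theorem norm_gau (τ : ℂ) (c x : ℝ) : ‖gau τ c x‖ = Real.exp (-π * τ.im * c * x ^ 2) := by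
  rw [gau, Complex.norm_exp]
  congr 1
  simp [pow_two]

theorem im_neg_inv_pos {τ : ℂ} (hτ : 0 < τ.im) : 0 < (-1 / τ).im := by
  have : 0 < Complex.normSq τ := Complex.normSq_pos.mpr fun h => by simp [h] at hτ
  rw [neg_div, one_div, Complex.neg_im, Complex.inv_im, neg_div, neg_neg]
  exact div_pos hτ this

/-- The constant of the functional equation. -/
def rootFactor (τ : ℂ) (c : ℝ) : ℂ := 1 / (-I * (τ * c)) ^ (1 / 2 : ℂ)

theorem summable_gau {τ : ℂ} (hτ : 0 < τ.im) {c : ℝ} (hc : 0 < c) (β : ℝ) :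
    Summable fun n : ℤ => ‖gau τ c (n + β)‖ := by
  have him : 0 < (τ * (c : ℂ)).im := by simp; positivity
  have h := ((summable_jacobiTheta₂_term_iff ((τ * c) * β) (τ * c)).mpr him).mul_left
    (cexp (π * I * τ * c * (β : ℂ) ^ 2))
  refine (h.norm).congr fun n => ?_
  rw [gau, jacobiTheta₂_term, ← Complex.exp_add]
  congr 2
  push_cast
  ring

/-- Poisson summation for a shifted and twisted Gaussian. -/
theorem tsum_gau {τ : ℂ} (hτ : 0 < τ.im) {c : ℝ} (hc : 0 < c) (β b : ℝ) :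
    ∑' n : ℤ, gau τ c (n + β) * eChar (n * b) =
      rootFactor τ c * ∑' m : ℤ, gau (-1 / τ) c⁻¹ (m - b) * eChar (β * (m - b)) := by
  have hτ0 : τ ≠ 0 := fun h => by simp [h] at hτ
  have hc0 : (c : ℂ) ≠ 0 := ofReal_ne_zero.mpr hc.ne'
  set z : ℂ := τ * c * β + b
  have h1 : ∀ n : ℤ, gau τ c (n + β) * eChar (n * b) =
      cexp (π * I * τ * c * (β : ℂ) ^ 2) * jacobiTheta₂_term n z (τ * c) := fun n => by
    rw [gau, eChar, jacobiTheta₂_term, ← Complex.exp_add, ← Complex.exp_add]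
    congr 1
    simp only [z]
    push_cast
    ring
  simp_rw [h1]
  rw [tsum_mul_left]
  show _ * jacobiTheta₂ z (τ * c) = _
  rw [jacobiTheta₂_functional_equation, jacobiTheta₂]
  rw [← tsum_mul_left, ← tsum_mul_left, ← tsum_mul_left]
  refine tsum_congr fun m => ?_
  rw [gau, eChar, jacobiTheta₂_term, rootFactor]
  rw [mul_left_comm, mul_assoc (1 / _), ← Complex.exp_add, ← Complex.exp_add, ← Complex.exp_add]
  congr 2
  simp only [z]
  push_cast
  field_simp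
  ring

/-- A uniform bound in the shift. -/
theorem exists_bound_gau {τ : ℂ} (hτ : 0 < τ.im) {c : ℝ} (hc : 0 < c) :
    ∃ M : ℝ, ∀ β : ℝ, ∑' n : ℤ, ‖gau τ c (n + β)‖ ≤ M := by
  set t : ℂ := (τ.im : ℂ) * I with ht
  have him : 0 < t.im := by simpa [ht] using hτ
  refine ⟨‖rootFactor t c‖ * ∑' m : ℤ, ‖gau (-1 / t) c⁻¹ (m + 0)‖, fun β => ?_⟩
  have hreal : ∀ n : ℤ, gau t c (n + β) * eChar (n * 0) = ((‖gau τ c (n + β)‖ : ℝ) : ℂ) := by
    intro n
    rw [norm_gau, mul_zero, eChar_zero, mul_one, gau, ofReal_exp, ht]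
    congr 1
    push_cast
    linear_combination (π * (τ.im : ℂ) * c * ((n : ℂ) + β) ^ 2) * I_sq
  have key := tsum_gau him hc β 0
  simp_rw [hreal] at key
  rw [← ofReal_tsum] at key
  calc ∑' n : ℤ, ‖gau τ c (n + β)‖
      ≤ ‖((∑' n : ℤ, ‖gau τ c (n + β)‖ : ℝ) : ℂ)‖ := by
        rw [Complex.norm_real, Real.norm_eq_abs]; exact le_abs_self _
    _ ≤ _ := by
      rw [key, norm_mul]
      refine mul_le_mul_of_nonneg_left ?_ (norm_nonneg _)
      have hsum := summable_gau (im_neg_inv_pos him) (inv_pos.mpr hc) 0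
      have heq : ∀ m : ℤ, ‖gau (-1 / t) c⁻¹ ((m : ℝ) - 0) * eChar (β * ((m : ℝ) - 0))‖ =
          ‖gau (-1 / t) c⁻¹ ((m : ℝ) + 0)‖ := fun m => by
        rw [norm_mul, norm_eChar, mul_one, sub_zero, add_zero]
      refine (norm_tsum_le_tsum_norm (hsum.congr fun m => (heq m).symm)).trans ?_
      rw [tsum_congr heq]

theorem summable_step {ι : Type*} {τ : ℂ} (hτ : 0 < τ.im) {c : ℝ} (hc : 0 < c)
    (β b : ι → ℝ) {F : ι → ℂ} (hF : Summable fun i => ‖F i‖) :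
    Summable fun x : ℤ × ι => ‖gau τ c (x.1 + β x.2) * eChar (x.1 * b x.2) * F x.2‖ := by
  obtain ⟨M, hM⟩ := exists_bound_gau hτ hc
  rw [← (Equiv.prodComm ι ℤ).summable_iff]
  refine (summable_prod_of_nonneg fun _ => norm_nonneg _).mpr ⟨fun i => ?_, ?_⟩
  · simpa [norm_eChar] using (summable_gau hτ hc (β i)).mul_right ‖F i‖
  · refine Summable.of_nonneg_of_le (fun i => tsum_nonneg fun _ => norm_nonneg _) (fun i => ?_)
      (hF.mul_left M)
    simp only [Equiv.prodComm_apply, Prod.swap_prod_mk, norm_mul, norm_eChar,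
      mul_one]
    rw [tsum_mul_right]
    exact mul_le_mul_of_nonneg_right (hM _) (norm_nonneg _)

/-- Poisson summation in one variable, with a family of further variables. -/
theorem tsum_step {ι : Type*} {τ : ℂ} (hτ : 0 < τ.im) {c : ℝ} (hc : 0 < c)
    (β : ι → ℝ) (b : ℝ) {F : ι → ℂ} (hF : Summable fun i => ‖F i‖) :
    ∑' x : ℤ × ι, gau τ c (x.1 + β x.2) * eChar (x.1 * b) * F x.2 =
      rootFactor τ c *
        ∑' m : ℤ, gau (-1 / τ) c⁻¹ (m - b) * ∑' i, eChar (β i * (m - b)) * F i := by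
  have hs := (summable_step hτ hc β (fun _ => b) hF).of_norm
  have hsw : Summable fun x : ι × ℤ => gau τ c (x.2 + β x.1) * eChar (x.2 * b) * F x.1 :=
    ((Equiv.prodComm ι ℤ).summable_iff.mpr hs :)
  rw [← (Equiv.prodComm ι ℤ).tsum_eq]
  simp only [Equiv.prodComm_apply]
  rw [show (∑' (c_1 : ι × ℤ), gau τ c (c_1.swap.1 + β c_1.swap.2) * eChar (c_1.swap.1 * b) *
      F c_1.swap.2) = ∑' x : ι × ℤ, gau τ c (x.2 + β x.1) * eChar (x.2 * b) * F x.1 from rfl,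
    hsw.tsum_prod]
  have h2 : ∀ i, ∑' n : ℤ, gau τ c (n + β i) * eChar (n * b) * F i =
      rootFactor τ c * ∑' m : ℤ, gau (-1 / τ) c⁻¹ (m - b) * (eChar (β i * (m - b)) * F i) := by
    intro i
    rw [tsum_mul_right, tsum_gau hτ hc, mul_assoc, ← tsum_mul_right]
    congr 1
    exact tsum_congr fun m => by ring
  simp_rw [h2, tsum_mul_left]
  congr 1
  have hd : Summable fun x : ι × ℤ =>
      gau (-1 / τ) c⁻¹ (x.2 - b) * (eChar (β x.1 * (x.2 - b)) * F x.1) := by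
    refine Summable.of_norm ?_
    have := Summable.mul_norm (f := fun i => F i) (g := fun m : ℤ => gau (-1 / τ) c⁻¹ (m + -b))
      hF (summable_gau (im_neg_inv_pos hτ) (inv_pos.mpr hc) (-b))
    refine this.congr fun x => ?_
    simp [norm_eChar, sub_eq_add_neg, mul_comm]
  have hd' := hd.tsum_comm (f := fun i (m : ℤ) =>
    gau (-1 / τ) c⁻¹ (m - b) * (eChar (β i * (m - b)) * F i))
  simp only [← tsum_mul_left] at hd' ⊢
  exact hd'.symm

theorem rootFactor_eq {τ : ℂ} (hτ : τ ≠ 0) {c : ℝ} (hc : 0 < c) :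
    rootFactor τ c = ((Real.sqrt c : ℝ) : ℂ)⁻¹ * (1 / (-I * τ) ^ (1 / 2 : ℂ)) := by
  have hne : -I * τ ≠ 0 := mul_ne_zero (neg_ne_zero.mpr I_ne_zero) hτ
  have hc0 : (c : ℂ) ≠ 0 := ofReal_ne_zero.mpr hc.ne'
  have h : (-I * (τ * c)) ^ (1 / 2 : ℂ) =
      ((Real.sqrt c : ℝ) : ℂ) * (-I * τ) ^ (1 / 2 : ℂ) := by
    rw [show -I * (τ * c) = (c : ℂ) * (-I * τ) by ring, cpow_def_of_ne_zero (mul_ne_zero hc0 hne),
      cpow_def_of_ne_zero hne, Complex.log_ofReal_mul hc hne, add_mul, Complex.exp_add,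
      Real.sqrt_eq_rpow, Complex.ofReal_cpow hc.le, cpow_def_of_ne_zero hc0,
      ← Complex.ofReal_log hc.le]
    push_cast
    rfl
  rw [rootFactor, h]
  field_simp

theorem rootFactor_prod {τ : ℂ} (hτ : τ ≠ 0) {c₁ c₂ c₃ c₄ : ℝ} (h₁ : 0 < c₁) (h₂ : 0 < c₂)
    (h₃ : 0 < c₃) (h₄ : 0 < c₄) {P : ℝ} (hP : 0 < P) (hprod : c₁ * c₂ * c₃ * c₄ = P ^ 2) :
    rootFactor τ c₁ * rootFactor τ c₂ * rootFactor τ c₃ * rootFactor τ c₄ =
      -1 / (τ ^ 2 * P) := by
  rw [rootFactor_eq hτ h₁, rootFactor_eq hτ h₂, rootFactor_eq hτ h₃, rootFactor_eq hτ h₄]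
  have hs : Real.sqrt c₁ * Real.sqrt c₂ * Real.sqrt c₃ * Real.sqrt c₄ = P := by
    rw [← Real.sqrt_mul h₁.le, ← Real.sqrt_mul (by positivity), ← Real.sqrt_mul (by positivity),
      hprod, Real.sqrt_sq hP.le]
  have hs' := congrArg (fun x : ℝ => (x : ℂ)) hs
  simp only [ofReal_mul] at hs'
  set w := (-I * τ) ^ (1 / 2 : ℂ) with hw
  have hw2 : w ^ 2 = -I * τ := by
    rw [hw, ← cpow_nat_mul]
    norm_num
  have hw4 : w * w * w * w = -(τ ^ 2) := by
    linear_combination (w ^ 2 + -I * τ) * hw2 + τ ^ 2 * I_sq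
  rw [← hs']
  simp only [one_div]
  rw [show ((Real.sqrt c₁ : ℝ) : ℂ)⁻¹ * w⁻¹ * (((Real.sqrt c₂ : ℝ) : ℂ)⁻¹ * w⁻¹) *
      (((Real.sqrt c₃ : ℝ) : ℂ)⁻¹ * w⁻¹) * (((Real.sqrt c₄ : ℝ) : ℂ)⁻¹ * w⁻¹) =
      (((Real.sqrt c₁ : ℝ) : ℂ) * (Real.sqrt c₂ : ℝ) * (Real.sqrt c₃ : ℝ) *
        (Real.sqrt c₄ : ℝ))⁻¹ * (w * w * w * w)⁻¹ by simp only [mul_inv]; ring, hw4,
    div_eq_mul_inv, mul_inv, inv_neg]
  ring

end Fermat.Agent.Eis
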