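import Mathlib.Algebra.Field.ZMod
import Mathlib.NumberTheory.LSeries.PrimesInAP
import Mathlib.NumberTheory.LegendreSymbol.QuadraticReciprocity
import Mathlib.Tactic.FieldSimp
import Fermat.Agent.Eis.Poisson

/-!
An explicit quaternary quadratic form of level `p` and discriminant `p²`, and the Poisson formula
for it. Its theta series is the auxiliary form of weight two and level `p`.
-/

noncomputable section

open Complex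
open scoped Real

namespace Fermat.Agent.Eis

/-- Parameters of the form: `q = 4 h - 1 > 0` with `q s - r² = p`. -/
structure FormData (p : ℕ) where
  /-- The parameter `h`, with `q = 4 h - 1`. -/
  h : ℤ
  /-- The parameter `s` in `q s - r² = p`. -/
  s : ℤ
  /-- The parameter `r` in `q s - r² = p`. -/
  r : ℤ
  q_pos : 0 < 4 * h - 1
  eq : (4 * h - 1) * s - r ^ 2 = p

/-- Four-vectors with entries in `R`. -/
abbrev Vec4 (R : Type*) := R × R × R × R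

variable {p : ℕ} (D : FormData p)

/-- The quadratic form. -/
def FormData.Q {R : Type*} [CommRing R] (v : Vec4 R) : R :=
  v.1 ^ 2 + v.1 * v.2.1 + (D.h : R) * v.2.1 ^ 2 +
    (D.r : R) * (v.1 * v.2.2.2 - v.2.1 * v.2.2.1) +
    (D.s : R) * v.2.2.1 ^ 2 + (D.s : R) * (v.2.2.1 * v.2.2.2) +
    (D.h : R) * (D.s : R) * v.2.2.2 ^ 2

/-- The Gram map. -/
def FormData.A {R : Type*} [CommRing R] (v : Vec4 R) : Vec4 R :=
  (2 * v.1 + v.2.1 + (D.r : R) * v.2.2.2,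
   v.1 + 2 * (D.h : R) * v.2.1 - (D.r : R) * v.2.2.1,
   -(D.r : R) * v.2.1 + 2 * (D.s : R) * v.2.2.1 + (D.s : R) * v.2.2.2,
   (D.r : R) * v.1 + (D.s : R) * v.2.2.1 + 2 * (D.h : R) * (D.s : R) * v.2.2.2)

/-- `p` times the inverse of the Gram map. -/
def FormData.Ad {R : Type*} [CommRing R] (m : Vec4 R) : Vec4 R :=
  (2 * (D.h : R) * (D.s : R) * m.1 - (D.s : R) * m.2.1 - (D.r : R) * m.2.2.2,
   -(D.s : R) * m.1 + 2 * (D.s : R) * m.2.1 + (D.r : R) * m.2.2.1,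
   (D.r : R) * m.2.1 + 2 * (D.h : R) * m.2.2.1 - m.2.2.2,
   -(D.r : R) * m.1 - m.2.2.1 + 2 * m.2.2.2)

/-- `p` times the dual form. -/
def FormData.Qs {R : Type*} [CommRing R] (m : Vec4 R) : R :=
  (D.h : R) * (D.s : R) * m.1 ^ 2 + (D.s : R) * m.2.1 ^ 2 + (D.h : R) * m.2.2.1 ^ 2 +
    m.2.2.2 ^ 2 - (D.s : R) * (m.1 * m.2.1) - (D.r : R) * (m.1 * m.2.2.2) +
    (D.r : R) * (m.2.1 * m.2.2.1) - m.2.2.1 * m.2.2.2

/-- The dot product. -/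
def dot {R : Type*} [CommRing R] (u v : Vec4 R) : R :=
  u.1 * v.1 + u.2.1 * v.2.1 + u.2.2.1 * v.2.2.1 + u.2.2.2 * v.2.2.2

theorem FormData.eq_cast (R : Type*) [CommRing R] :
    (4 * (D.h : R) - 1) * (D.s : R) - (D.r : R) ^ 2 = (p : R) := by
  have := congrArg (Int.cast (R := R)) D.eq
  push_cast at this
  exact this

theorem FormData.Q_add {R : Type*} [CommRing R] (u v : Vec4 R) :
    D.Q (u + v) = D.Q u + D.Q v + dot (D.A u) v := by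
  simp only [FormData.Q, FormData.A, dot, Prod.fst_add, Prod.snd_add]
  ring

theorem FormData.dot_A_comm {R : Type*} [CommRing R] (u v : Vec4 R) :
    dot (D.A u) v = dot (D.A v) u := by
  simp only [FormData.A, dot]
  ring

theorem FormData.Q_smul {R : Type*} [CommRing R] (c : R) (v : Vec4 R) :
    D.Q (c • v) = c ^ 2 * D.Q v := by
  simp only [FormData.Q, Prod.smul_fst, Prod.smul_snd, smul_eq_mul]
  ring

theorem FormData.A_Ad {R : Type*} [CommRing R] (m : Vec4 R) : D.A (D.Ad m) = (p : R) • m := by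
  have h := D.eq_cast R
  simp only [FormData.A, FormData.Ad, Prod.ext_iff, Prod.smul_fst, Prod.smul_snd, smul_eq_mul]
  refine ⟨?_, ?_, ?_, ?_⟩
  · linear_combination m.1 * h
  · linear_combination m.2.1 * h
  · linear_combination m.2.2.1 * h
  · linear_combination m.2.2.2 * h

theorem FormData.Ad_A {R : Type*} [CommRing R] (v : Vec4 R) : D.Ad (D.A v) = (p : R) • v := by
  have h := D.eq_cast R
  simp only [FormData.A, FormData.Ad, Prod.ext_iff, Prod.smul_fst, Prod.smul_snd, smul_eq_mul]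
  refine ⟨?_, ?_, ?_, ?_⟩
  · linear_combination v.1 * h
  · linear_combination v.2.1 * h
  · linear_combination v.2.2.1 * h
  · linear_combination v.2.2.2 * h

theorem FormData.Qs_A {R : Type*} [CommRing R] (v : Vec4 R) :
    D.Qs (D.A v) = (p : R) * D.Q v := by
  have h := D.eq_cast R
  simp only [FormData.A, FormData.Qs, FormData.Q]
  linear_combination (v.1 ^ 2 + v.1 * v.2.1 + (D.h : R) * v.2.1 ^ 2 +
    (D.r : R) * (v.1 * v.2.2.2 - v.2.1 * v.2.2.1) +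
    (D.s : R) * v.2.2.1 ^ 2 + (D.s : R) * (v.2.2.1 * v.2.2.2) +
    (D.h : R) * (D.s : R) * v.2.2.2 ^ 2) * h

theorem FormData.Q_Ad {R : Type*} [CommRing R] (m : Vec4 R) :
    D.Q (D.Ad m) = (p : R) * D.Qs m := by
  have h := D.eq_cast R
  simp only [FormData.Ad, FormData.Qs, FormData.Q]
  linear_combination ((D.h : R) * (D.s : R) * m.1 ^ 2 + (D.s : R) * m.2.1 ^ 2 +
    (D.h : R) * m.2.2.1 ^ 2 + m.2.2.2 ^ 2 - (D.s : R) * (m.1 * m.2.1) -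
    (D.r : R) * (m.1 * m.2.2.2) + (D.r : R) * (m.2.1 * m.2.2.1) - m.2.2.1 * m.2.2.2) * h

theorem FormData.dot_Ad_comm {R : Type*} [CommRing R] (u v : Vec4 R) :
    dot (D.Ad u) v = dot u (D.Ad v) := by
  simp only [FormData.Ad, dot]
  ring

/-- Map a vector along a ring homomorphism. -/
def mapVec {R S : Type*} [CommRing R] [CommRing S] (φ : R →+* S) (v : Vec4 R) : Vec4 S :=
  (φ v.1, φ v.2.1, φ v.2.2.1, φ v.2.2.2)

theorem FormData.Q_map {R S : Type*} [CommRing R] [CommRing S] (φ : R →+* S) (v : Vec4 R) :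
    φ (D.Q v) = D.Q (mapVec φ v) := by
  simp [FormData.Q, mapVec]

theorem FormData.Qs_map {R S : Type*} [CommRing R] [CommRing S] (φ : R →+* S) (v : Vec4 R) :
    φ (D.Qs v) = D.Qs (mapVec φ v) := by
  simp [FormData.Qs, mapVec]

theorem FormData.Ad_map {R S : Type*} [CommRing R] [CommRing S] (φ : R →+* S) (v : Vec4 R) :
    mapVec φ (D.Ad v) = D.Ad (mapVec φ v) := by
  simp [FormData.Ad, mapVec, map_ofNat]

theorem FormData.A_map {R S : Type*} [CommRing R] [CommRing S] (φ : R →+* S) (v : Vec4 R) :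
    mapVec φ (D.A v) = D.A (mapVec φ v) := by
  simp [FormData.A, mapVec, map_ofNat]

/-- The cast of an integral vector. -/
abbrev castVec (R : Type*) [CommRing R] (v : Vec4 ℤ) : Vec4 R := mapVec (Int.castRingHom R) v

theorem FormData.Q_cast {R : Type*} [CommRing R] (v : Vec4 ℤ) :
    ((D.Q v : ℤ) : R) = D.Q (castVec R v) := D.Q_map (Int.castRingHom R) v

theorem FormData.Qs_cast {R : Type*} [CommRing R] (v : Vec4 ℤ) :
    ((D.Qs v : ℤ) : R) = D.Qs (castVec R v) := D.Qs_map (Int.castRingHom R) v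

/-- The term of the theta series of the form, with a real shift. -/
def FormData.term (τ : ℂ) (ρ : Vec4 ℝ) (v : Vec4 ℤ) : ℂ :=
  cexp (2 * π * I * τ * (D.Q (castVec ℝ v + ρ) : ℝ))

/-- The term of the dual theta series, with a real character. -/
def FormData.dualTerm (τ : ℂ) (ρ : Vec4 ℝ) (m : Vec4 ℤ) : ℂ :=
  cexp (2 * π * I * τ * ((D.Qs (castVec ℝ m) : ℝ) / p : ℝ)) * eChar (dot ρ (castVec ℝ m))

/-- Summability of four Gaussians in triangular coordinates. -/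
theorem summable_gau_triangular {τ : ℂ} (hτ : 0 < τ.im) {c₁ c₂ c₃ c₄ : ℝ} (h₁ : 0 < c₁)
    (h₂ : 0 < c₂) (h₃ : 0 < c₃) (h₄ : 0 < c₄) (A₁ : ℤ × ℤ × ℤ → ℝ) (A₂ : ℤ × ℤ → ℝ) (A₃ : ℤ → ℝ)
    (d : ℝ) : Summable fun v : Vec4 ℤ => ‖gau τ c₁ (v.1 + A₁ v.2) * (gau τ c₂ (v.2.1 + A₂ v.2.2) *
      (gau τ c₃ (v.2.2.1 + A₃ v.2.2.2) * gau τ c₄ (v.2.2.2 + d)))‖ := by
  have h4 : Summable fun w : ℤ => ‖gau τ c₄ (w + d)‖ := summable_gau hτ h₄ d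
  have h3 : Summable fun v : ℤ × ℤ => ‖gau τ c₃ (v.1 + A₃ v.2) * gau τ c₄ (v.2 + d)‖ := by
    simpa [eChar_zero] using summable_step hτ h₃ A₃ (fun _ => 0) h4
  have h2 : Summable fun v : ℤ × ℤ × ℤ => ‖gau τ c₂ (v.1 + A₂ v.2) *
      (gau τ c₃ (v.2.1 + A₃ v.2.2) * gau τ c₄ (v.2.2 + d))‖ := by
    simpa [eChar_zero] using summable_step hτ h₂ A₂ (fun _ => 0) h3
  simpa [eChar_zero] using summable_step hτ h₁ A₁ (fun _ => 0) h2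

/-- Data of a quadratic form written as a sum of four squares in triangular coordinates,
with a shift. -/
structure TriData where
  /-- coefficient of the first square -/
  c₁ : ℝ
  /-- coefficient of the second square -/
  c₂ : ℝ
  /-- coefficient of the third square -/
  c₃ : ℝ
  /-- coefficient of the fourth square -/
  c₄ : ℝ
  /-- coefficient of the second variable in the first coordinate -/
  a₂ : ℝ
  /-- coefficient of the fourth variable in the first coordinate -/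
  a₄ : ℝ
  /-- coefficient of the third variable in the second coordinate -/
  b₃ : ℝ
  /-- coefficient of the fourth variable in the second coordinate -/
  b₄ : ℝ
  /-- coefficient of the fourth variable in the third coordinate -/
  e₄ : ℝ
  /-- the shift of the coordinates -/
  d : Vec4 ℝ

/-- The Gaussian of the triangular coordinates. -/
def TriData.primal (T : TriData) (τ : ℂ) (v : Vec4 ℤ) : ℂ :=
  gau τ T.c₁ (v.1 + (T.a₂ * v.2.1 + T.a₄ * v.2.2.2 + T.d.1)) *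
    (gau τ T.c₂ (v.2.1 + (T.b₃ * v.2.2.1 + T.b₄ * v.2.2.2 + T.d.2.1)) *
      (gau τ T.c₃ (v.2.2.1 + (T.e₄ * v.2.2.2 + T.d.2.2.1)) *
        gau τ T.c₄ (v.2.2.2 + T.d.2.2.2)))

/-- The second dual coordinate. -/
def TriData.η₂ (T : TriData) (m₁ m₂ : ℤ) : ℝ := m₂ - T.a₂ * m₁

/-- The third dual coordinate. -/
def TriData.η₃ (T : TriData) (m₁ m₂ m₃ : ℤ) : ℝ := m₃ - T.b₃ * T.η₂ m₁ m₂

/-- The fourth dual coordinate. -/
def TriData.η₄ (T : TriData) (m₁ m₂ m₃ m₄ : ℤ) : ℝ :=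
  m₄ - (T.a₄ * m₁ + T.b₄ * T.η₂ m₁ m₂ + T.e₄ * T.η₃ m₁ m₂ m₃)

/-- The dual Gaussian, with the character of the shift. -/
def TriData.dual (T : TriData) (σ : ℂ) (m : Vec4 ℤ) : ℂ :=
  gau σ T.c₁⁻¹ m.1 * (gau σ T.c₂⁻¹ (T.η₂ m.1 m.2.1) *
    (gau σ T.c₃⁻¹ (T.η₃ m.1 m.2.1 m.2.2.1) *
      (gau σ T.c₄⁻¹ (T.η₄ m.1 m.2.1 m.2.2.1 m.2.2.2) *
        eChar (T.d.1 * m.1 + T.d.2.1 * T.η₂ m.1 m.2.1 + T.d.2.2.1 * T.η₃ m.1 m.2.1 m.2.2.1 +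
          T.d.2.2.2 * T.η₄ m.1 m.2.1 m.2.2.1 m.2.2.2))))

/-- Summability of the dual Gaussians, in triangular coordinates. -/
theorem summable_gau_dual {σ : ℂ} (hσ : 0 < σ.im) {c₁ c₂ c₃ c₄ : ℝ} (hc₁ : 0 < c₁) (hc₂ : 0 < c₂)
    (hc₃ : 0 < c₃) (hc₄ : 0 < c₄) (a₂ a₄ b₃ b₄ e₄ d₁ d₂ d₃ d₄ : ℝ) :
    let η₂ : ℤ → ℤ → ℝ := fun m₁ m₂ => m₂ - a₂ * m₁
    let η₃ : ℤ → ℤ → ℤ → ℝ := fun m₁ m₂ m₃ => m₃ - b₃ * η₂ m₁ m₂
    let η₄ : ℤ → ℤ → ℤ → ℤ → ℝ := fun m₁ m₂ m₃ m₄ =>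
      m₄ - (a₄ * m₁ + b₄ * η₂ m₁ m₂ + e₄ * η₃ m₁ m₂ m₃)
    Summable fun m : Vec4 ℤ => ‖gau σ c₁⁻¹ m.1 * (gau σ c₂⁻¹ (η₂ m.1 m.2.1) *
    (gau σ c₃⁻¹ (η₃ m.1 m.2.1 m.2.2.1) *
      (gau σ c₄⁻¹ (η₄ m.1 m.2.1 m.2.2.1 m.2.2.2) *
        eChar (d₁ * m.1 + d₂ * η₂ m.1 m.2.1 + d₃ * η₃ m.1 m.2.1 m.2.2.1 +
          d₄ * η₄ m.1 m.2.1 m.2.2.1 m.2.2.2))))‖ := by
  intro η₂ η₃ η₄
  have hG := summable_gau_triangular hσ (inv_pos.mpr hc₄) (inv_pos.mpr hc₃) (inv_pos.mpr hc₂)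
    (inv_pos.mpr hc₁) (fun x => -(a₄ * x.2.2 + b₄ * η₂ x.2.2 x.2.1 + e₄ * η₃ x.2.2 x.2.1 x.1))
    (fun x => -(b₃ * η₂ x.2 x.1)) (fun m₁ => -(a₂ * m₁)) 0
  let e : Vec4 ℤ ≃ Vec4 ℤ :=
    { toFun := fun m => (m.2.2.2, m.2.2.1, m.2.1, m.1)
      invFun := fun m => (m.2.2.2, m.2.2.1, m.2.1, m.1)
      left_inv := fun _ => rfl
      right_inv := fun _ => rfl }
  refine ((e.summable_iff.mpr hG :)).congr fun m => ?_
  rw [Function.comp_apply]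
  simp only [e, η₂, η₃, η₄, Equiv.coe_fn_mk, norm_mul, norm_eChar, add_zero, ← sub_eq_add_neg]
  ring

/-- Poisson summation in triangular coordinates. -/
theorem TriData.poisson (T : TriData) {τ : ℂ} (hτ : 0 < τ.im) (hc₁ : 0 < T.c₁) (hc₂ : 0 < T.c₂)
    (hc₃ : 0 < T.c₃) (hc₄ : 0 < T.c₄) :
    Summable (fun v => ‖T.primal τ v‖) ∧ Summable (fun m => ‖T.dual (-1 / τ) m‖) ∧
      ∑' v, T.primal τ v = rootFactor τ T.c₁ * rootFactor τ T.c₂ * rootFactor τ T.c₃ *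
        rootFactor τ T.c₄ * ∑' m, T.dual (-1 / τ) m := by
  have hτ' := im_neg_inv_pos hτ
  obtain ⟨c₁, c₂, c₃, c₄, a₂, a₄, b₃, b₄, e₄, d₁, d₂, d₃, d₄⟩ := T
  simp only [TriData.primal, TriData.dual, TriData.η₂, TriData.η₃, TriData.η₄] at *
  let A₁ : ℤ × ℤ × ℤ → ℝ := fun v => a₂ * v.1 + a₄ * v.2.2 + d₁
  let A₂ : ℤ × ℤ → ℝ := fun v => b₃ * v.1 + b₄ * v.2 + d₂
  let A₃ : ℤ → ℝ := fun w => e₄ * w + d₃
  let F₄ : ℤ → ℂ := fun w => gau τ c₄ (w + d₄)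
  let F₃ : ℤ × ℤ → ℂ := fun v => gau τ c₃ (v.1 + A₃ v.2) * F₄ v.2
  let F₂ : ℤ × ℤ × ℤ → ℂ := fun v => gau τ c₂ (v.1 + A₂ v.2) * F₃ v.2
  have hF₄ : Summable fun w => ‖F₄ w‖ := summable_gau hτ hc₄ d₄
  have hF₃ : Summable fun v => ‖F₃ v‖ := by
    simpa [F₃, eChar_zero] using summable_step hτ hc₃ A₃ (fun _ => 0) hF₄
  have hF₂ : Summable fun v => ‖F₂ v‖ := by
    simpa [F₂, eChar_zero] using summable_step hτ hc₂ A₂ (fun _ => 0) hF₃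
  have hF₁ : Summable fun v : Vec4 ℤ => ‖gau τ c₁ (v.1 + A₁ v.2) * F₂ v.2‖ :=
    summable_gau_triangular hτ hc₁ hc₂ hc₃ hc₄ A₁ A₂ A₃ d₄
  let η₂ : ℤ → ℤ → ℝ := fun m₁ m₂ => m₂ - a₂ * m₁
  let η₃ : ℤ → ℤ → ℤ → ℝ := fun m₁ m₂ m₃ => m₃ - b₃ * η₂ m₁ m₂
  let η₄ : ℤ → ℤ → ℤ → ℤ → ℝ := fun m₁ m₂ m₃ m₄ =>
    m₄ - (a₄ * m₁ + b₄ * η₂ m₁ m₂ + e₄ * η₃ m₁ m₂ m₃)
  set σ : ℂ := -1 / τ with hσ
  have hdsum : Summable fun m : Vec4 ℤ => ‖gau σ c₁⁻¹ m.1 * (gau σ c₂⁻¹ (η₂ m.1 m.2.1) *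
      (gau σ c₃⁻¹ (η₃ m.1 m.2.1 m.2.2.1) *
        (gau σ c₄⁻¹ (η₄ m.1 m.2.1 m.2.2.1 m.2.2.2) *
          eChar (d₁ * m.1 + d₂ * η₂ m.1 m.2.1 + d₃ * η₃ m.1 m.2.1 m.2.2.1 +
            d₄ * η₄ m.1 m.2.1 m.2.2.1 m.2.2.2))))‖ :=
    summable_gau_dual hτ' hc₁ hc₂ hc₃ hc₄ a₂ a₄ b₃ b₄ e₄ d₁ d₂ d₃ d₄
  refine ⟨hF₁, hdsum, ?_⟩
  have step4 : ∀ m₁ m₂ m₃ : ℤ,
      ∑' w : ℤ, eChar (A₃ w * η₃ m₁ m₂ m₃ + (b₄ * w + d₂) * η₂ m₁ m₂ + (a₄ * w + d₁) * m₁) * F₄ w =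
        rootFactor τ c₄ * ∑' m₄ : ℤ, gau σ c₄⁻¹ (η₄ m₁ m₂ m₃ m₄) *
          eChar (d₁ * m₁ + d₂ * η₂ m₁ m₂ + d₃ * η₃ m₁ m₂ m₃ + d₄ * η₄ m₁ m₂ m₃ m₄) := by
    intro m₁ m₂ m₃
    set k : ℝ := d₁ * m₁ + d₂ * η₂ m₁ m₂ + d₃ * η₃ m₁ m₂ m₃
    have h1 : ∀ w : ℤ, eChar (A₃ w * η₃ m₁ m₂ m₃ + (b₄ * w + d₂) * η₂ m₁ m₂ + (a₄ * w + d₁) * m₁) *
        F₄ w = eChar k * (gau τ c₄ (w + d₄) *
          eChar (w * (a₄ * m₁ + b₄ * η₂ m₁ m₂ + e₄ * η₃ m₁ m₂ m₃))) := by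
      intro w
      rw [show A₃ w * η₃ m₁ m₂ m₃ + (b₄ * w + d₂) * η₂ m₁ m₂ + (a₄ * w + d₁) * m₁ =
        k + w * (a₄ * m₁ + b₄ * η₂ m₁ m₂ + e₄ * η₃ m₁ m₂ m₃) by simp only [A₃, k]; ring,
        eChar_add]
      simp only [F₄]
      ring
    rw [tsum_congr h1, tsum_mul_left, tsum_gau hτ hc₄, mul_left_comm, ← tsum_mul_left]
    congr 1
    refine tsum_congr fun m₄ => ?_
    rw [eChar_add k]
    simp only [η₄, hσ]
    ring
  have step3 : ∀ m₁ m₂ : ℤ,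
      ∑' v : ℤ × ℤ, eChar (A₂ v * η₂ m₁ m₂ + (a₄ * v.2 + d₁) * m₁) * F₃ v =
        rootFactor τ c₃ * ∑' m₃ : ℤ, gau σ c₃⁻¹ (η₃ m₁ m₂ m₃) *
          ∑' w : ℤ, eChar (A₃ w * η₃ m₁ m₂ m₃ + (b₄ * w + d₂) * η₂ m₁ m₂ + (a₄ * w + d₁) * m₁) *
            F₄ w := by
    intro m₁ m₂
    have hph : Summable fun w : ℤ =>
        ‖eChar ((b₄ * w + d₂) * η₂ m₁ m₂ + (a₄ * w + d₁) * m₁) * F₄ w‖ := by
      simpa [norm_eChar] using hF₄
    rw [show (∑' v : ℤ × ℤ, eChar (A₂ v * η₂ m₁ m₂ + (a₄ * v.2 + d₁) * m₁) * F₃ v) =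
      ∑' v : ℤ × ℤ, gau τ c₃ (v.1 + A₃ v.2) * eChar (v.1 * (b₃ * η₂ m₁ m₂)) *
        (eChar ((b₄ * v.2 + d₂) * η₂ m₁ m₂ + (a₄ * v.2 + d₁) * m₁) * F₄ v.2) from
      tsum_congr fun v => by
        rw [show A₂ v * η₂ m₁ m₂ + (a₄ * v.2 + d₁) * m₁ = (v.1 : ℝ) * (b₃ * η₂ m₁ m₂) +
          ((b₄ * v.2 + d₂) * η₂ m₁ m₂ + (a₄ * v.2 + d₁) * m₁) by simp only [A₂]; ring, eChar_add]
        simp only [F₃]
        ring, tsum_step hτ hc₃ A₃ _ hph]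
    congr 1
    refine tsum_congr fun m₃ => ?_
    congr 1
    refine tsum_congr fun w => ?_
    rw [← mul_assoc, ← eChar_add]
    congr 2
    simp only [η₃]
    ring
  have step2 : ∀ m₁ : ℤ, ∑' v : ℤ × ℤ × ℤ, eChar (A₁ v * m₁) * F₂ v =
      rootFactor τ c₂ * ∑' m₂ : ℤ, gau σ c₂⁻¹ (η₂ m₁ m₂) *
        ∑' v : ℤ × ℤ, eChar (A₂ v * η₂ m₁ m₂ + (a₄ * v.2 + d₁) * m₁) * F₃ v := by
    intro m₁
    have hph : Summable fun v : ℤ × ℤ => ‖eChar ((a₄ * v.2 + d₁) * m₁) * F₃ v‖ := by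
      simpa [norm_eChar] using hF₃
    rw [show (∑' v : ℤ × ℤ × ℤ, eChar (A₁ v * m₁) * F₂ v) =
      ∑' v : ℤ × ℤ × ℤ, gau τ c₂ (v.1 + A₂ v.2) * eChar (v.1 * (a₂ * m₁)) *
        (eChar ((a₄ * v.2.2 + d₁) * m₁) * F₃ v.2) from
      tsum_congr fun v => by
        rw [show A₁ v * m₁ = (v.1 : ℝ) * (a₂ * m₁) + (a₄ * v.2.2 + d₁) * m₁ by
          simp only [A₁]; ring, eChar_add]
        simp only [F₂]
        ring, tsum_step hτ hc₂ A₂ _ hph]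
    congr 1
    refine tsum_congr fun m₂ => ?_
    congr 1
    refine tsum_congr fun v => ?_
    rw [← mul_assoc, ← eChar_add]
  have step1 : ∑' v : Vec4 ℤ, gau τ c₁ (v.1 + A₁ v.2) * F₂ v.2 =
      rootFactor τ c₁ * ∑' m₁ : ℤ, gau σ c₁⁻¹ m₁ * ∑' v, eChar (A₁ v * m₁) * F₂ v := by
    have := tsum_step hτ hc₁ A₁ 0 hF₂
    simp only [mul_zero, eChar_zero, mul_one, sub_zero] at this
    exact this
  refine step1.trans ?_
  have pull : ∀ {ι : Type} (K : ℂ) (g X : ι → ℂ),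
      ∑' m, g m * (K * X m) = K * ∑' m, g m * X m := fun K g X => by
    rw [← tsum_mul_left]
    exact tsum_congr fun m => by ring
  simp only [step2, step3, step4, pull]
  rw [← mul_assoc, ← mul_assoc, ← mul_assoc]
  congr 1
  rw [hdsum.of_norm.tsum_prod]
  refine tsum_congr fun m₁ => ?_
  have h1 := hdsum.of_norm.prod_factor m₁
  rw [h1.tsum_prod, ← tsum_mul_left]
  refine tsum_congr fun m₂ => ?_
  have h2 := h1.prod_factor m₂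
  rw [h2.tsum_prod, ← tsum_mul_left, ← tsum_mul_left]
  refine tsum_congr fun m₃ => ?_
  rw [← tsum_mul_left, ← tsum_mul_left, ← tsum_mul_left]

/-- Summability and the Poisson formula for the form. -/
theorem FormData.poisson [NeZero p] {τ : ℂ} (hτ : 0 < τ.im) (ρ : Vec4 ℝ) :
    Summable (fun v => ‖D.term τ ρ v‖) ∧ Summable (fun m => ‖D.dualTerm (-1 / τ) ρ m‖) ∧
      ∑' v, D.term τ ρ v = -1 / (τ ^ 2 * p) * ∑' m, D.dualTerm (-1 / τ) ρ m := by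
  have hτ' := im_neg_inv_pos hτ
  have hτ0 : τ ≠ 0 := fun h => by simp [h] at hτ
  set q : ℝ := 4 * (D.h : ℝ) - 1 with hqdef
  have hq : 0 < q := by
    have : ((0 : ℤ) : ℝ) < ((4 * D.h - 1 : ℤ) : ℝ) := Int.cast_lt.mpr D.q_pos
    rw [hqdef]; push_cast at this; linarith
  have hpR : (0 : ℝ) < p := by exact_mod_cast Nat.pos_of_ne_zero (NeZero.ne p)
  have heq : q * (D.s : ℝ) - (D.r : ℝ) ^ 2 = p := D.eq_cast ℝ
  have hs : (D.s : ℝ) = ((p : ℝ) + (D.r : ℝ) ^ 2) / q := by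
    field_simp
    linarith
  set r : ℝ := (D.r : ℝ)
  -- completion of squares
  obtain ⟨c₁, hc₁def⟩ : ∃ x : ℝ, x = 2 := ⟨_, rfl⟩
  obtain ⟨c₂, hc₂def⟩ : ∃ x : ℝ, x = q / 2 := ⟨_, rfl⟩
  obtain ⟨c₃, hc₃def⟩ : ∃ x : ℝ, x = 2 * p / q := ⟨_, rfl⟩
  obtain ⟨c₄, hc₄def⟩ : ∃ x : ℝ, x = p / 2 := ⟨_, rfl⟩
  have hc₁ : 0 < c₁ := by norm_num [hc₁def]
  have hc₂ : 0 < c₂ := by rw [hc₂def]; positivity
  have hc₃ : 0 < c₃ := by rw [hc₃def]; positivity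
  have hc₄ : 0 < c₄ := by rw [hc₄def]; positivity
  obtain ⟨a₂, ha₂⟩ : ∃ x : ℝ, x = 1 / 2 := ⟨_, rfl⟩
  obtain ⟨a₄, ha₄⟩ : ∃ x : ℝ, x = r / 2 := ⟨_, rfl⟩
  obtain ⟨b₃, hb₃⟩ : ∃ x : ℝ, x = -(2 * r / q) := ⟨_, rfl⟩
  obtain ⟨b₄, hb₄⟩ : ∃ x : ℝ, x = -(r / q) := ⟨_, rfl⟩
  obtain ⟨e₄, he₄⟩ : ∃ x : ℝ, x = 1 / 2 := ⟨_, rfl⟩
  obtain ⟨d₁, hd₁⟩ : ∃ x : ℝ, x = ρ.1 + a₂ * ρ.2.1 + a₄ * ρ.2.2.2 := ⟨_, rfl⟩
  obtain ⟨d₂, hd₂⟩ : ∃ x : ℝ, x = ρ.2.1 + b₃ * ρ.2.2.1 + b₄ * ρ.2.2.2 := ⟨_, rfl⟩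
  obtain ⟨d₃, hd₃⟩ : ∃ x : ℝ, x = ρ.2.2.1 + e₄ * ρ.2.2.2 := ⟨_, rfl⟩
  obtain ⟨d₄, hd₄⟩ : ∃ x : ℝ, x = ρ.2.2.2 := ⟨_, rfl⟩
  let T : TriData := ⟨c₁, c₂, c₃, c₄, a₂, a₄, b₃, b₄, e₄, d₁, d₂, d₃, d₄⟩
  obtain ⟨h₁, h₂, h₃⟩ := T.poisson hτ hc₁ hc₂ hc₃ hc₄
  have hterm : ∀ v : Vec4 ℤ, T.primal τ v = D.term τ ρ v := by
    intro v
    have hQ : 2 * D.Q (castVec ℝ v + ρ) = c₁ * (v.1 + (a₂ * v.2.1 + a₄ * v.2.2.2 + d₁)) ^ 2 +
        c₂ * (v.2.1 + (b₃ * v.2.2.1 + b₄ * v.2.2.2 + d₂)) ^ 2 +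
        c₃ * (v.2.2.1 + (e₄ * v.2.2.2 + d₃)) ^ 2 +
        c₄ * (v.2.2.2 + d₄) ^ 2 := by
      simp only [FormData.Q, mapVec, Prod.fst_add, Prod.snd_add, hc₁def, hc₂def,
        hc₃def, hc₄def, ha₂, ha₄, hb₃, hb₄, he₄, hd₁, hd₂, hd₃, hd₄, Int.coe_castRingHom, hs]
      rw [show (D.h : ℝ) = (q + 1) / 4 by rw [hqdef]; ring]
      field_simp
      ring
    simp only [T, TriData.primal, gau, FormData.term, ← Complex.exp_add]
    congr 1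
    have hQ' := congrArg (fun x : ℝ => (x : ℂ)) hQ
    simp only [ofReal_mul, ofReal_add, ofReal_pow, ofReal_ofNat] at hQ'
    push_cast
    linear_combination -(π * I * τ) * hQ'
  set σ : ℂ := -1 / τ with hσ
  have hdual : ∀ m : Vec4 ℤ, D.dualTerm σ ρ m = T.dual σ m := by
    intro m
    have hQ : 2 * (D.Qs (castVec ℝ m) / p) = c₁⁻¹ * (m.1 : ℝ) ^ 2 +
        c₂⁻¹ * (T.η₂ m.1 m.2.1) ^ 2 + c₃⁻¹ * (T.η₃ m.1 m.2.1 m.2.2.1) ^ 2 +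
        c₄⁻¹ * (T.η₄ m.1 m.2.1 m.2.2.1 m.2.2.2) ^ 2 := by
      simp only [FormData.Qs, mapVec, T, TriData.η₂, TriData.η₃, TriData.η₄, hc₁def,
        hc₂def, hc₃def, hc₄def, ha₂, ha₄, hb₃, hb₄, he₄, Int.coe_castRingHom, hs]
      rw [show (D.h : ℝ) = (q + 1) / 4 by rw [hqdef]; ring]
      field_simp
      ring
    have hd : dot ρ (castVec ℝ m) = d₁ * m.1 + d₂ * T.η₂ m.1 m.2.1 + d₃ * T.η₃ m.1 m.2.1 m.2.2.1 +
        d₄ * T.η₄ m.1 m.2.1 m.2.2.1 m.2.2.2 := by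
      simp only [dot, mapVec, T, TriData.η₂, TriData.η₃, TriData.η₄, hd₁, hd₂, hd₃, hd₄,
        Int.coe_castRingHom]
      ring
    rw [FormData.dualTerm, hd, TriData.dual]
    simp only [← mul_assoc]
    congr 1
    simp only [gau, ← Complex.exp_add]
    congr 1
    have hQ' := congrArg (fun x : ℝ => (x : ℂ)) hQ
    simp only [ofReal_mul, ofReal_add, ofReal_pow, ofReal_ofNat] at hQ'
    linear_combination (π * I * σ) * hQ'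
  refine ⟨h₁.congr fun v => by rw [hterm], h₂.congr fun m => by rw [hdual], ?_⟩
  rw [tsum_congr fun v => (hterm v).symm, h₃, tsum_congr hdual, rootFactor_prod hτ0 hc₁ hc₂ hc₃ hc₄
    hpR (by rw [hc₁def, hc₂def, hc₃def, hc₄def]; field_simp), ofReal_natCast]

/-- For a prime `p ≥ 5` there is a form of level `p` and discriminant `p²`. -/
theorem exists_formData {p : ℕ} [hp : Fact p.Prime] (h5 : 5 ≤ p) : Nonempty (FormData p) := by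
  have hp2 : p ≠ 2 := by omega
  rcases Nat.odd_mod_four_iff.mp (hp.out.eq_two_or_odd.resolve_left hp2) with h | h
  swap
  · refine ⟨⟨((p : ℤ) + 1) / 4, 1, 0, ?_, ?_⟩⟩ <;> · push_cast; omega
  -- `p ≡ 1 (mod 4)`
  obtain ⟨u, hu⟩ := FiniteField.exists_nonsquare (F := ZMod p)
    (by rw [ZMod.ringChar_zmod_n]; exact hp2)
  have hcop : Nat.Coprime 4 p := by
    rw [Nat.coprime_comm, hp.out.coprime_iff_not_dvd]
    intro h'; have := Nat.le_of_dvd (by norm_num) h'; omega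
  let a : ℕ := Nat.chineseRemainder hcop 3 u.val
  have ha4 : (a : ℕ) ≡ 3 [MOD 4] := (Nat.chineseRemainder hcop 3 u.val).2.1
  have hap : (a : ℕ) ≡ u.val [MOD p] := (Nat.chineseRemainder hcop 3 u.val).2.2
  have hu0 : u ≠ 0 := fun h' => hu (h' ▸ IsSquare.zero)
  have hacop : Nat.Coprime a (4 * p) := by
    refine Nat.Coprime.mul_right ?_ ?_
    · rw [Nat.Coprime, ha4.gcd_eq]; rfl
    · rw [Nat.coprime_comm, hp.out.coprime_iff_not_dvd, ← ZMod.natCast_eq_zero_iff,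
        (ZMod.natCast_eq_natCast_iff' a u.val p).mpr hap, ZMod.natCast_zmod_val]
      exact hu0
  obtain ⟨q, -, hq, hqa⟩ := Nat.forall_exists_prime_gt_and_modEq p (by omega : 4 * p ≠ 0) hacop
  have := Fact.mk hq
  have hq4 : q % 4 = 3 := by
    have := (hqa.of_dvd (Dvd.intro p rfl)).trans ha4
    simpa [Nat.ModEq] using this
  have hqp : ((q : ℕ) : ZMod p) = u := by
    rw [(ZMod.natCast_eq_natCast_iff' q u.val p).mpr
      ((hqa.of_dvd (Dvd.intro_left 4 rfl)).trans hap), ZMod.natCast_zmod_val]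
  have hnsq : ¬ IsSquare (p : ZMod q) := fun hh =>
    hu (hqp ▸ (ZMod.exists_sq_eq_prime_iff_of_mod_four_eq_one (p := p) (q := q) h
      (by omega)).mpr hh)
  have hneg : ¬ IsSquare (-1 : ZMod q) := fun hh => by
    have := ZMod.exists_sq_eq_neg_one_iff.mp hh
    omega
  have hp0 : (p : ZMod q) ≠ 0 := fun hh => hnsq (hh ▸ IsSquare.zero)
  obtain ⟨x, hx⟩ : IsSquare (-(p : ZMod q)) := by
    rw [← quadraticChar_one_iff_isSquare (neg_ne_zero.mpr hp0), neg_eq_neg_one_mul, map_mul,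
      quadraticChar_neg_one_iff_not_isSquare.mpr hneg,
      quadraticChar_neg_one_iff_not_isSquare.mpr hnsq]
    norm_num
  have hdvd : (q : ℤ) ∣ (x.val : ℤ) ^ 2 + p := by
    rw [← ZMod.intCast_zmod_eq_zero_iff_dvd]
    push_cast
    rw [ZMod.natCast_zmod_val]
    linear_combination -hx
  obtain ⟨s, hs⟩ := hdvd
  refine ⟨⟨((q : ℤ) + 1) / 4, s, x.val, by omega, ?_⟩⟩
  have : 4 * (((q : ℤ) + 1) / 4) - 1 = q := by omega
  rw [this]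
  linarith

end Fermat.Agent.Eis
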