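import Mathlib.Analysis.SpecialFunctions.Complex.CircleAddChar
import Mathlib.RingTheory.Polynomial.Cyclotomic.Roots
import Fermat.Agent.Eis.Pair
import Fermat.Agent.Eis.QuadForm

/-!
The theta series of a quaternary form of level `p` is a modular form of weight two for `Γ₀(p)`.
Together with the Eisenstein series it gives the lower bound for the Eisenstein index.
-/

noncomputable section

open Complex ModularGroup CongruenceSubgroup Polynomial
open UpperHalfPlane hiding I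
open scoped Real MatrixGroups ModularForm Manifold

local notation "𝕢" => Function.Periodic.qParam

namespace Fermat.Agent.Eis

variable {p : ℕ} [hp : Fact p.Prime] (D : FormData p)

/-- The representative with entries in `[0, p)`. -/
def valVec (r : Vec4 (ZMod p)) : Vec4 ℤ :=
  ((r.1.val : ℤ), (r.2.1.val : ℤ), (r.2.2.1.val : ℤ), (r.2.2.2.val : ℤ))

theorem cast_add_mul_self (r : ZMod p) (y : ℤ) :
    (((r.val : ℤ) + (p : ℤ) * y : ℤ) : ZMod p) = r := by
  have : NeZero p := ⟨hp.out.ne_zero⟩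
  simp

theorem ediv_add_mul_self (r : ZMod p) (y : ℤ) :
    ((r.val : ℤ) + (p : ℤ) * y) / (p : ℤ) = y := by
  have : NeZero p := ⟨hp.out.ne_zero⟩
  rw [Int.add_mul_ediv_left _ _ (by exact_mod_cast NeZero.ne p : (p : ℤ) ≠ 0),
    Int.ediv_eq_zero_of_lt (by positivity) (by exact_mod_cast ZMod.val_lt r), zero_add]

theorem val_cast_add_ediv (n : ℤ) :
    (((n : ZMod p).val : ℤ)) + (p : ℤ) * (n / (p : ℤ)) = n := by
  have : NeZero p := ⟨hp.out.ne_zero⟩
  rw [ZMod.val_intCast, Int.emod_add_mul_ediv]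

/-- Division with remainder by `p`, componentwise. -/
def splitEquiv : Vec4 (ZMod p) × Vec4 ℤ ≃ Vec4 ℤ where
  toFun x := valVec x.1 + (p : ℤ) • x.2
  invFun v := (castVec (ZMod p) v, (v.1 / (p : ℤ), v.2.1 / (p : ℤ), v.2.2.1 / (p : ℤ),
    v.2.2.2 / (p : ℤ)))
  left_inv x := by
    have : NeZero p := ⟨hp.out.ne_zero⟩
    simp only [valVec, mapVec, Prod.smul_fst, Prod.smul_snd, smul_eq_mul,
      Prod.fst_add, Prod.snd_add, Int.coe_castRingHom, cast_add_mul_self, ediv_add_mul_self]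
  right_inv v := by
    have : NeZero p := ⟨hp.out.ne_zero⟩
    simp only [valVec, mapVec, Prod.ext_iff, Prod.fst_add, Prod.snd_add, Prod.smul_fst,
      Prod.smul_snd, smul_eq_mul, Int.coe_castRingHom, val_cast_add_ediv, and_self]

theorem map_dot {R S : Type*} [CommRing R] [CommRing S] (φ : R →+* S) (u v : Vec4 R) :
    φ (dot u v) = dot (mapVec φ u) (mapVec φ v) := by
  simp [dot, mapVec]

theorem castVec_valVec (r : Vec4 (ZMod p)) : castVec (ZMod p) (valVec r) = r := by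
  have : NeZero p := ⟨hp.out.ne_zero⟩
  simp [valVec, mapVec]

/-- The theta series. -/
def FormData.theta (τ : ℍ) : ℂ := ∑' v : Vec4 ℤ, cexp (2 * π * I * τ * (D.Q v : ℤ))

omit hp in
theorem FormData.term_zero (τ : ℂ) (v : Vec4 ℤ) :
    D.term τ 0 v = cexp (2 * π * I * τ * (D.Q v : ℤ)) := by
  rw [FormData.term, add_zero, ← D.Q_cast, ofReal_intCast]

omit hp in
theorem FormData.dualTerm_zero (σ : ℂ) (m : Vec4 ℤ) :
    D.dualTerm σ 0 m = cexp (2 * π * I * σ * (D.Qs m : ℤ) / p) := by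
  rw [FormData.dualTerm, ← D.Qs_cast, show dot (0 : Vec4 ℝ) (castVec ℝ m) = 0 by simp [dot],
    eChar_zero, mul_one]
  congr 1
  push_cast
  ring

theorem summable_theta (τ : ℍ) :
    Summable fun v : Vec4 ℤ => ‖cexp (2 * π * I * τ * (D.Q v : ℤ))‖ := by
  have : NeZero p := ⟨hp.out.ne_zero⟩
  simpa only [D.term_zero] using (D.poisson τ.im_pos 0).1

theorem eChar_intCast_div (j : ℤ) : eChar ((j : ℝ) / p) = ZMod.stdAddChar ((j : ℤ) : ZMod p) := by
  have : NeZero p := ⟨hp.out.ne_zero⟩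
  rw [ZMod.stdAddChar_coe, eChar]
  congr 1
  push_cast
  ring

/-- The Gauss sum of the form. -/
def FormData.gaussSum (a : ZMod p) (k : Vec4 (ZMod p)) : ℂ :=
  haveI : NeZero p := ⟨hp.out.ne_zero⟩
  ∑ r : Vec4 (ZMod p), ZMod.stdAddChar (a * D.Q r + dot r k)

/-- The Gauss sum vanishes at `k` unless `Ad k = 0`. -/
theorem gaussSum_eq_zero (a : ZMod p) {k : Vec4 (ZMod p)} (hk : D.Ad k ≠ 0) :
    D.gaussSum a k = 0 := by
  have : NeZero p := ⟨hp.out.ne_zero⟩
  by_contra hG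
  apply hk
  have key : ∀ e : Vec4 (ZMod p), dot e (D.Ad k) = 0 := fun e => by
    have hA : D.A (D.Ad e) = 0 := by rw [D.A_Ad, ZMod.natCast_self, zero_smul]
    have hQ : D.Q (D.Ad e) = 0 := by rw [D.Q_Ad, ZMod.natCast_self, zero_mul]
    have h : D.gaussSum a k = ZMod.stdAddChar (dot e (D.Ad k)) * D.gaussSum a k := by
      rw [FormData.gaussSum, Finset.mul_sum]
      conv_lhs => rw [← Equiv.sum_comp (Equiv.addRight (D.Ad e))]
      refine Finset.sum_congr rfl fun x _ => ?_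
      rw [Equiv.coe_addRight, D.Q_add, hQ, add_zero, D.dot_A_comm x (D.Ad e), hA,
        ← AddChar.map_add_eq_mul]
      congr 1
      rw [← D.dot_Ad_comm e k]
      simp only [dot, Prod.fst_add, Prod.snd_add, Prod.fst_zero, Prod.snd_zero]
      ring
    have h1 : ZMod.stdAddChar (dot e (D.Ad k)) = (1 : ℂ) :=
      (mul_eq_right₀ hG).mp h.symm
    rw [← AddChar.map_zero_eq_one (ZMod.stdAddChar (N := p))] at h1
    exact ZMod.injective_stdAddChar h1
  have h1 := key (1, 0, 0, 0)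
  have h2 := key (0, 1, 0, 0)
  have h3 := key (0, 0, 1, 0)
  have h4 := key (0, 0, 0, 1)
  simp [dot] at h1 h2 h3 h4
  simp [Prod.ext_iff, h1, h2, h3, h4]

/-- At `A s` the Gauss sum is a root of unity times its value at `0`. -/
theorem gaussSum_A (a d : ZMod p) (had : a * d = 1) (s : Vec4 (ZMod p)) :
    D.gaussSum a (D.A s) = ZMod.stdAddChar (-d * D.Q s) * D.gaussSum a 0 := by
  have : NeZero p := ⟨hp.out.ne_zero⟩
  rw [FormData.gaussSum, FormData.gaussSum, Finset.mul_sum]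
  conv_lhs => rw [← Equiv.sum_comp (Equiv.addRight ((-d) • s))]
  refine Finset.sum_congr rfl fun x _ => ?_
  rw [Equiv.coe_addRight, ← AddChar.map_add_eq_mul, D.Q_add, D.Q_smul]
  congr 1
  simp only [FormData.Q, FormData.A, dot, Prod.fst_add, Prod.snd_add, Prod.smul_fst,
    Prod.smul_snd, smul_eq_mul, Prod.fst_zero, Prod.snd_zero]
  linear_combination (d * (s.1 ^ 2 + s.1 * s.2.1 + (D.h : ZMod p) * s.2.1 ^ 2 +
      (D.r : ZMod p) * (s.1 * s.2.2.2 - s.2.1 * s.2.2.1) +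
      (D.s : ZMod p) * s.2.2.1 ^ 2 + (D.s : ZMod p) * (s.2.2.1 * s.2.2.2) +
      (D.h : ZMod p) * (D.s : ZMod p) * s.2.2.2 ^ 2) -
    ((2 * x.1 + x.2.1 + (D.r : ZMod p) * x.2.2.2) * s.1 +
      (x.1 + 2 * (D.h : ZMod p) * x.2.1 - (D.r : ZMod p) * x.2.2.1) * s.2.1 +
      (-(D.r : ZMod p) * x.2.1 + 2 * (D.s : ZMod p) * x.2.2.1 +
        (D.s : ZMod p) * x.2.2.2) * s.2.2.1 +
      ((D.r : ZMod p) * x.1 + (D.s : ZMod p) * x.2.2.1 +
        2 * (D.h : ZMod p) * (D.s : ZMod p) * x.2.2.2) * s.2.2.2)) * had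

theorem FormData.A_injective : Function.Injective (D.A (R := ℤ)) := by
  intro u v huv
  have := congrArg (D.Ad (R := ℤ)) huv
  rw [D.Ad_A, D.Ad_A] at this
  exact smul_right_injective _ (by exact_mod_cast hp.out.ne_zero : ((p : ℕ) : ℤ) ≠ 0) this

/-- An integral vector killed by `Ad` modulo `p` is in the image of the Gram map. -/
theorem FormData.mem_range_A {m : Vec4 ℤ} (h : D.Ad (castVec (ZMod p) m) = 0) :
    m ∈ Set.range (D.A (R := ℤ)) := by
  rw [castVec, ← D.Ad_map] at h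
  simp only [mapVec, Prod.ext_iff, Prod.fst_zero, Prod.snd_zero, Int.coe_castRingHom,
    ZMod.intCast_zmod_eq_zero_iff_dvd] at h
  obtain ⟨⟨t1, h1⟩, ⟨t2, h2⟩, ⟨t3, h3⟩, ⟨t4, h4⟩⟩ := h
  refine ⟨(t1, t2, t3, t4), smul_right_injective _
    (by exact_mod_cast hp.out.ne_zero : ((p : ℕ) : ℤ) ≠ 0) ?_⟩
  have e : D.Ad m = (p : ℤ) • (t1, t2, t3, t4) := by
    simp only [Prod.ext_iff, Prod.smul_fst, Prod.smul_snd, smul_eq_mul]
    exact ⟨h1, h2, h3, h4⟩
  show (p : ℤ) • D.A (t1, t2, t3, t4) = (p : ℤ) • m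
  rw [← D.A_Ad m, e]
  simp only [FormData.A, Prod.smul_mk, smul_eq_mul, Prod.ext_iff]
  refine ⟨?_, ?_, ?_, ?_⟩ <;> ring

/-- The real shift `r / p` attached to a residue class. -/
def residueShift (r : Vec4 (ZMod p)) : Vec4 ℝ := (p : ℝ)⁻¹ • castVec ℝ (valVec r)

/-- The dual term at the shift `r / p` and the parameter `w / p`. -/
theorem FormData.dualTerm_residueShift {w : ℂ} (hw0 : w ≠ 0) (r : Vec4 (ZMod p)) (m : Vec4 ℤ) :
    D.dualTerm (-1 / (-(p : ℂ) / w)) (residueShift r) m =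
      cexp (2 * π * I * w * (D.Qs m : ℤ) / (p : ℂ) ^ 2) *
        ZMod.stdAddChar (dot r (castVec (ZMod p) m)) := by
  have : NeZero p := ⟨hp.out.ne_zero⟩
  have hpC : (p : ℂ) ≠ 0 := Nat.cast_ne_zero.mpr hp.out.ne_zero
  have hdot : dot (residueShift r) (castVec ℝ m) = ((dot (valVec r) m : ℤ) : ℝ) / p := by
    rw [show ((dot (valVec r) m : ℤ) : ℝ) = dot (castVec ℝ (valVec r)) (castVec ℝ m) from
      map_dot (Int.castRingHom ℝ) _ _]
    simp only [residueShift, dot, Prod.smul_fst, Prod.smul_snd, smul_eq_mul]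
    ring
  rw [FormData.dualTerm, hdot, eChar_intCast_div, ← D.Qs_cast]
  congr 1
  · congr 1
    push_cast
    field_simp
  · congr 1
    rw [show ((dot (valVec r) m : ℤ) : ZMod p) = dot (castVec (ZMod p) (valVec r))
      (castVec (ZMod p) m) from map_dot (Int.castRingHom (ZMod p)) _ _, castVec_valVec]

/-- A term of the theta series at `a / p - 1 / (p w)`, split by the residue class modulo `p`. -/
theorem FormData.exp_Q_splitEquiv (a : ℤ) {w : ℂ} (hw0 : w ≠ 0) (r : Vec4 (ZMod p)) (y : Vec4 ℤ) :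
    cexp (2 * π * I * ((a : ℂ) / p - 1 / (p * w)) * (D.Q (splitEquiv (r, y)) : ℤ)) =
      ZMod.stdAddChar ((a : ZMod p) * D.Q r) *
        D.term (-(p : ℂ) / w) (residueShift r) y := by
  have : NeZero p := ⟨hp.out.ne_zero⟩
  have hpC : (p : ℂ) ≠ 0 := Nat.cast_ne_zero.mpr hp.out.ne_zero
  set v := splitEquiv (r, y) with hv
  have hv' : castVec (ZMod p) v = r := congrArg Prod.fst (splitEquiv.symm_apply_apply (r, y))
  have hR : castVec ℝ v = (p : ℝ) • (castVec ℝ y + residueShift r) := by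
    have hpR : (p : ℝ) ≠ 0 := Nat.cast_ne_zero.mpr hp.out.ne_zero
    simp only [hv, splitEquiv, Equiv.coe_fn_mk, residueShift, mapVec, valVec, Prod.ext_iff,
      Prod.fst_add, Prod.snd_add, Prod.smul_fst, Prod.smul_snd, smul_eq_mul, Int.coe_castRingHom,
      Int.cast_add, Int.cast_mul, Int.cast_natCast]
    refine ⟨?_, ?_, ?_, ?_⟩ <;> field_simp <;> ring
  have hQ : ((D.Q v : ℤ) : ℝ) = (p : ℝ) ^ 2 * D.Q (castVec ℝ y + residueShift r) := by
    rw [D.Q_cast, hR, D.Q_smul]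
  have e1 : ((a * D.Q v : ℤ) : ZMod p) = (a : ZMod p) * D.Q r := by
    rw [Int.cast_mul, D.Q_cast, hv']
  rw [← e1, ZMod.stdAddChar_coe, FormData.term, ← Complex.exp_add]
  congr 1
  have hQ' := congrArg (fun x : ℝ => (x : ℂ)) hQ
  simp only [ofReal_intCast, ofReal_mul, ofReal_pow, ofReal_natCast] at hQ'
  rw [hQ']
  push_cast
  rw [hQ']
  field_simp
  ring

/-- The transformation of the theta series under a matrix with lower left entry `p`. -/
theorem theta_smul_of_lower (γ : SL(2, ℤ)) (hγ : γ 1 0 = (p : ℤ)) (τ : ℍ) :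
    D.theta (γ • τ) = -D.gaussSum (γ 0 0 : ZMod p) 0 / (p : ℂ) ^ 3 *
      (denom γ τ) ^ 2 * D.theta τ := by
  have : NeZero p := ⟨hp.out.ne_zero⟩
  have hpC : (p : ℂ) ≠ 0 := Nat.cast_ne_zero.mpr hp.out.ne_zero
  have hdet : γ 0 0 * γ 1 1 - γ 0 1 * γ 1 0 = 1 := by
    have := γ.det_coe
    rwa [Matrix.det_fin_two] at this
  set a : ℤ := γ 0 0
  set b : ℤ := γ 0 1
  set d : ℤ := γ 1 1
  set w : ℂ := (p : ℂ) * τ + d with hwdef
  have hw : denom γ τ = w := by
    rw [ModularGroup.denom_apply, hγ]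
    simp [hwdef, d]
  have him : 0 < w.im := by
    have := hp.out.pos
    simp [hwdef, τ.im_pos, this]
  have hw0 : w ≠ 0 := fun h => by simp [h] at him
  rw [hw]
  have hγτ : ((γ • τ : ℍ) : ℂ) = (a : ℂ) / p - 1 / (p * w) := by
    rw [UpperHalfPlane.coe_specialLinearGroup_apply]
    have hd := congrArg (Int.cast (R := ℂ)) hdet
    rw [hγ] at hd
    simp only [algebraMap_int_eq, eq_intCast, Int.cast_mul, Int.cast_sub, Int.cast_one,
      Int.cast_natCast] at hd ⊢
    rw [hγ]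
    simp only [Int.cast_natCast, ofReal_natCast, ofReal_intCast]
    change ((a : ℂ) * τ + b) / ((p : ℂ) * τ + d) = _
    rw [← hwdef]
    field_simp
    rw [hwdef]
    linear_combination -hd
  -- the Poisson formula on each class
  set τ' : ℂ := -(p : ℂ) / w with hτ'
  have hτ'im : 0 < τ'.im := by
    have h := im_neg_inv_pos him
    rw [hτ', show -(p : ℂ) / w = ((p : ℝ) : ℂ) * (-1 / w) by push_cast; ring, im_ofReal_mul]
    exact mul_pos (by exact_mod_cast hp.out.pos) h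
  let ρ : Vec4 (ZMod p) → Vec4 ℝ := residueShift
  let ex : Vec4 ℤ → ℂ := fun m => cexp (2 * π * I * w * (D.Qs m : ℤ) / (p : ℂ) ^ 2)
  have hdual : ∀ (r : Vec4 (ZMod p)) (m : Vec4 ℤ), D.dualTerm (-1 / τ') (ρ r) m =
      ex m * ZMod.stdAddChar (dot r (castVec (ZMod p) m)) := D.dualTerm_residueShift hw0
  have hterm : ∀ (r : Vec4 (ZMod p)) (y : Vec4 ℤ),
      cexp (2 * π * I * ((γ • τ : ℍ) : ℂ) * (D.Q (splitEquiv (r, y)) : ℤ)) =
        ZMod.stdAddChar ((a : ZMod p) * D.Q r) * D.term τ' (ρ r) y := by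
    rw [hγτ]
    exact D.exp_Q_splitEquiv a hw0
  have hconst : -1 / (τ' ^ 2 * p) = -(w ^ 2) / (p : ℂ) ^ 3 := by
    rw [hτ']
    field_simp
  have hex : Summable fun m => ‖ex m‖ := by
    refine (D.poisson hτ'im (ρ 0)).2.1.congr fun m => ?_
    rw [hdual, norm_mul, AddChar.norm_apply, mul_one]
  have hall : Summable fun x : Vec4 (ZMod p) × Vec4 ℤ =>
      cexp (2 * π * I * ((γ • τ : ℍ) : ℂ) * (D.Q (splitEquiv x) : ℤ)) :=
    (splitEquiv.summable_iff
      (f := fun v => cexp (2 * π * I * ((γ • τ : ℍ) : ℂ) * (D.Q v : ℤ)))).mpr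
      (summable_theta D (γ • τ)).of_norm
  calc D.theta (γ • τ)
      = ∑ r : Vec4 (ZMod p), ZMod.stdAddChar ((a : ZMod p) * D.Q r) *
          (-(w ^ 2) / (p : ℂ) ^ 3 *
            ∑' m, ex m * ZMod.stdAddChar (dot r (castVec (ZMod p) m))) := by
        rw [FormData.theta, ← (splitEquiv (p := p)).tsum_eq, hall.tsum_prod, tsum_fintype]
        refine Finset.sum_congr rfl fun r _ => ?_
        rw [tsum_congr (hterm r), tsum_mul_left, (D.poisson hτ'im (ρ r)).2.2, hconst,
          tsum_congr (hdual r)]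
    _ = -(w ^ 2) / (p : ℂ) ^ 3 * ∑' m, ex m * D.gaussSum a (castVec (ZMod p) m) := by
        have hs : ∀ r ∈ (Finset.univ : Finset (Vec4 (ZMod p))), Summable fun m => ex m *
            ZMod.stdAddChar ((a : ZMod p) * D.Q r + dot r (castVec (ZMod p) m)) := fun r _ =>
          Summable.of_norm (hex.congr fun m => by rw [norm_mul, AddChar.norm_apply, mul_one])
        rw [show (fun m => ex m * D.gaussSum a (castVec (ZMod p) m)) = fun m =>
            ∑ r : Vec4 (ZMod p), ex m *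
              ZMod.stdAddChar ((a : ZMod p) * D.Q r + dot r (castVec (ZMod p) m)) from
            funext fun m => by rw [FormData.gaussSum, Finset.mul_sum],
          Summable.tsum_finsetSum hs, Finset.mul_sum]
        refine Finset.sum_congr rfl fun r _ => ?_
        rw [mul_left_comm, ← tsum_mul_left]
        congr 1
        refine tsum_congr fun m => ?_
        rw [AddChar.map_add_eq_mul]
        ring
    _ = -(w ^ 2) / (p : ℂ) ^ 3 * ∑' s, ex (D.A s) * D.gaussSum a (castVec (ZMod p) (D.A s)) := by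
        congr 1
        refine ((FormData.A_injective D).tsum_eq ?_).symm
        intro m hm
        refine FormData.mem_range_A D ?_
        by_contra h
        exact hm (by simp [gaussSum_eq_zero D _ h])
    _ = -(w ^ 2) / (p : ℂ) ^ 3 *
          ∑' s : Vec4 ℤ, D.gaussSum a 0 * cexp (2 * π * I * τ * (D.Q s : ℤ)) := by
        congr 1
        refine tsum_congr fun s => ?_
        have had : (a : ZMod p) * (d : ZMod p) = 1 := by
          have := congrArg (Int.cast (R := ZMod p)) hdet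
          rw [hγ] at this
          push_cast at this
          simpa using this
        rw [castVec, D.A_map, gaussSum_A D _ _ had, ← D.Q_map,
          show -(d : ZMod p) * (Int.castRingHom (ZMod p) (D.Q s)) =
            ((-d * D.Q s : ℤ) : ZMod p) by simp, ZMod.stdAddChar_coe]
        rw [← mul_assoc, mul_comm (ex _ * _) (D.gaussSum _ _)]
        congr 1
        simp only [ex, D.Qs_A]
        rw [← Complex.exp_add]
        congr 1
        push_cast
        rw [hwdef]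
        field_simp
        ring
    _ = -D.gaussSum a 0 / (p : ℂ) ^ 3 * w ^ 2 * D.theta τ := by
        rw [tsum_mul_left, FormData.theta]
        ring

/-- The theta series of the dual form. -/
def FormData.thetaDual (τ : ℍ) : ℂ := ∑' m : Vec4 ℤ, cexp (2 * π * I * τ * (D.Qs m : ℤ) / p)

theorem summable_thetaDual (τ : ℍ) :
    Summable fun m : Vec4 ℤ => ‖cexp (2 * π * I * τ * (D.Qs m : ℤ) / p)‖ := by
  have : NeZero p := ⟨hp.out.ne_zero⟩
  have h := (D.poisson (im_neg_inv_pos τ.im_pos) 0).2.1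
  refine h.congr fun m => ?_
  rw [D.dualTerm_zero, show -1 / (-1 / (τ : ℂ)) = τ by field_simp [τ.ne_zero]]

/-- The theta series at the cusp `0` is given by the dual form. -/
theorem theta_slash_S : D.theta ∣[(2 : ℤ)] S = fun τ => -(1 / (p : ℂ)) * D.thetaDual τ := by
  have : NeZero p := ⟨hp.out.ne_zero⟩
  funext τ
  have hpC : (p : ℂ) ≠ 0 := Nat.cast_ne_zero.mpr hp.out.ne_zero
  have hτ0 : (τ : ℂ) ≠ 0 := τ.ne_zero
  rw [ModularForm.SL_slash_apply, UpperHalfPlane.modular_S_smul]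
  have hd : denom (S : SL(2, ℤ)) τ = τ := by
    rw [ModularGroup.denom_apply]; simp [ModularGroup.coe_S]
  rw [hd, FormData.theta, FormData.thetaDual]
  have h := (D.poisson (im_neg_inv_pos τ.im_pos) 0).2.2
  simp only [D.term_zero, D.dualTerm_zero] at h
  have e : (-(τ : ℂ))⁻¹ = -1 / τ := by field_simp
  simp only [e, h]
  rw [show -1 / (-1 / (τ : ℂ)) = τ by field_simp]
  rw [zpow_neg]
  field_simp

/-- The number of indices at which `F` takes the value `n`. -/
def cnt {ι : Type*} (F : ι → ℕ) (n : ℕ) : ℕ := Nat.card {i : ι // F i = n}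

omit hp in
/-- A summable series `∑ q ^ F i` is the power series counting the fibres of `F`, which are
finite. -/
theorem hasSum_fiber {ι : Type*} (F : ι → ℕ) {q : ℂ} (hq : q ≠ 0)
    (hs : Summable fun i => ‖q ^ F i‖) :
    (∀ n, Finite {i : ι // F i = n}) ∧
      HasSum (fun n => (cnt F n : ℂ) * q ^ n) (∑' i, q ^ F i) := by
  have hfin : ∀ n, Finite {i : ι // F i = n} := fun n => by
    by_contra hinf
    rw [not_finite_iff_infinite] at hinf
    have h1 : Summable fun i : {i : ι // F i = n} => ‖q ^ n‖ :=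
      (hs.subtype {i : ι | F i = n}).congr fun i => by rw [Function.comp_apply, i.2]
    exact norm_ne_zero_iff.mpr (pow_ne_zero n hq) ((summable_const_iff _).mp h1)
  refine ⟨hfin, ?_⟩
  have h2 : HasSum (fun x : Σ n, {i : ι // F i = n} => q ^ F x.2.1) (∑' i, q ^ F i) :=
    ((Equiv.sigmaFiberEquiv F).hasSum_iff.mpr hs.of_norm.hasSum :)
  refine h2.sigma fun n => ?_
  have := hfin n
  have := Fintype.ofFinite {i : ι // F i = n}
  have h3 : (fun i : {i : ι // F i = n} => q ^ F i.1) = fun _ => q ^ n :=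
    funext fun i => by rw [i.2]
  rw [h3, cnt, Nat.card_eq_fintype_card]
  simpa using hasSum_fintype fun _ : {i : ι // F i = n} => q ^ n

omit hp in
theorem FormData.four_q_mul (v : Vec4 ℤ) :
    4 * (4 * D.h - 1) * D.Q v = (4 * D.h - 1) * (2 * v.1 + v.2.1 + D.r * v.2.2.2) ^ 2 +
      ((4 * D.h - 1) * v.2.1 - 2 * D.r * v.2.2.1 - D.r * v.2.2.2) ^ 2 +
      p * (2 * v.2.2.1 + v.2.2.2) ^ 2 + p * (4 * D.h - 1) * v.2.2.2 ^ 2 := by
  have h := D.eq
  simp only [FormData.Q, Int.cast_id]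
  linear_combination (4 * v.2.2.1 ^ 2 + 4 * v.2.2.1 * v.2.2.2 + v.2.2.2 ^ 2 +
    (4 * D.h - 1) * v.2.2.2 ^ 2) * h

omit hp in
theorem Q_nonneg (v : Vec4 ℤ) : 0 ≤ D.Q v := by
  have hq := D.q_pos
  refine nonneg_of_mul_nonneg_right (a := 4 * (4 * D.h - 1)) ?_ (by linarith)
  rw [D.four_q_mul v]
  positivity

theorem eq_zero_of_Q_eq_zero (v : Vec4 ℤ) (h : D.Q v = 0) : v = 0 := by
  have hq := D.q_pos
  have hpZ : (0 : ℤ) < p := by exact_mod_cast hp.out.pos
  have e := D.four_q_mul v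
  rw [h, mul_zero] at e
  have s1 : (0:ℤ) ≤ (4 * D.h - 1) * (2 * v.1 + v.2.1 + D.r * v.2.2.2) ^ 2 := by positivity
  have s2 : (0:ℤ) ≤ ((4 * D.h - 1) * v.2.1 - 2 * D.r * v.2.2.1 - D.r * v.2.2.2) ^ 2 := by positivity
  have s3 : (0:ℤ) ≤ (p:ℤ) * (2 * v.2.2.1 + v.2.2.2) ^ 2 := by positivity
  have s4 : (0:ℤ) ≤ (p:ℤ) * (4 * D.h - 1) * v.2.2.2 ^ 2 := by positivity
  have h4 : v.2.2.2 = 0 := by
    have : (p:ℤ) * (4 * D.h - 1) * v.2.2.2 ^ 2 = 0 := by linarith
    simpa [hpZ.ne', hp.out.ne_zero, hq.ne'] using this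
  have h3 : v.2.2.1 = 0 := by
    have : (p:ℤ) * (2 * v.2.2.1 + v.2.2.2) ^ 2 = 0 := by linarith
    simpa [hpZ.ne', hp.out.ne_zero, h4] using this
  have h2 : v.2.1 = 0 := by
    have : ((4 * D.h - 1) * v.2.1 - 2 * D.r * v.2.2.1 - D.r * v.2.2.2) ^ 2 = 0 := by linarith
    simpa [h3, h4, hq.ne'] using this
  have h1 : v.1 = 0 := by
    have : (4 * D.h - 1) * (2 * v.1 + v.2.1 + D.r * v.2.2.2) ^ 2 = 0 := by linarith
    simpa [h2, h4, hq.ne'] using this
  simp [Prod.ext_iff, h1, h2, h3, h4]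

theorem Qs_nonneg (m : Vec4 ℤ) : 0 ≤ D.Qs m := by
  have h := Q_nonneg D (D.Ad m)
  rw [D.Q_Ad] at h
  exact nonneg_of_mul_nonneg_right (b := D.Qs m) h (by exact_mod_cast hp.out.pos)

/-- The coefficients of the theta series. -/
def FormData.coef (n : ℕ) : ℕ := cnt (fun v : Vec4 ℤ => (D.Q (R := ℤ) v).toNat) n

theorem hasSum_theta (τ : ℍ) :
    (∀ n, Finite {v : Vec4 ℤ // (D.Q (R := ℤ) v).toNat = n}) ∧
      HasSum (fun n => (D.coef n : ℂ) * 𝕢 (1 : ℝ) τ ^ n) (D.theta τ) := by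
  have e : ∀ v, 𝕢 (1 : ℝ) τ ^ (D.Q (R := ℤ) v).toNat = cexp (2 * π * I * τ * (D.Q v : ℤ)) := by
    intro v
    rw [Function.Periodic.qParam, ← Complex.exp_nat_mul]
    congr 1
    have : (((D.Q (R := ℤ) v).toNat : ℕ) : ℂ) = ((D.Q v : ℤ) : ℂ) := by
      rw [← Int.cast_natCast, Int.toNat_of_nonneg (Q_nonneg D v)]
    rw [this]
    push_cast
    ring
  have h := hasSum_fiber (fun v : Vec4 ℤ => (D.Q (R := ℤ) v).toNat) (q := 𝕢 (1 : ℝ) τ)
    (Complex.exp_ne_zero _) ((summable_theta D τ).congr fun v => by rw [e])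
  simp only [e] at h
  exact h

theorem hasSum_thetaDual (τ : ℍ) :
    HasSum (fun n => (cnt (fun m : Vec4 ℤ => (D.Qs (R := ℤ) m).toNat) n : ℂ) * 𝕢 (p : ℝ) τ ^ n)
      (D.thetaDual τ) := by
  have e : ∀ m, 𝕢 (p : ℝ) τ ^ (D.Qs (R := ℤ) m).toNat =
      cexp (2 * π * I * τ * (D.Qs m : ℤ) / p) := by
    intro m
    rw [Function.Periodic.qParam, ← Complex.exp_nat_mul]
    congr 1
    have : (((D.Qs (R := ℤ) m).toNat : ℕ) : ℂ) = ((D.Qs m : ℤ) : ℂ) := by
      rw [← Int.cast_natCast, Int.toNat_of_nonneg (Qs_nonneg D m)]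
    rw [this]
    push_cast
    ring
  have h := (hasSum_fiber (fun m : Vec4 ℤ => (D.Qs (R := ℤ) m).toNat) (q := 𝕢 (p : ℝ) τ)
    (Complex.exp_ne_zero _) ((summable_thetaDual D τ).congr fun v => by rw [e])).2
  simp only [e] at h
  exact h

theorem coef_zero : D.coef 0 = 1 := by
  rw [FormData.coef, cnt, Nat.card_eq_one_iff_unique]
  refine ⟨⟨fun u v => Subtype.ext ?_⟩, ⟨⟨0, by simp [FormData.Q]⟩⟩⟩
  have key : ∀ w : {v : Vec4 ℤ // (D.Q (R := ℤ) v).toNat = 0}, w.1 = 0 := fun w =>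
    eq_zero_of_Q_eq_zero D _ (le_antisymm (Int.toNat_eq_zero.mp w.2) (Q_nonneg D _))
  rw [key u, key v]

theorem two_dvd_coef {n : ℕ} (hn : n ≠ 0) : 2 ∣ D.coef n := by
  have := (hasSum_theta D UpperHalfPlane.I).1 n
  have := Fintype.ofFinite {v : Vec4 ℤ // (D.Q (R := ℤ) v).toNat = n}
  rw [FormData.coef, cnt, Nat.card_eq_fintype_card, ← ZMod.natCast_eq_zero_iff]
  have hneg : ∀ v : Vec4 ℤ, D.Q (-v) = D.Q v := fun v => by
    simp only [FormData.Q, Prod.fst_neg, Prod.snd_neg]; ring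
  have := Finset.sum_involution
    (s := (Finset.univ : Finset {v : Vec4 ℤ // (D.Q (R := ℤ) v).toNat = n}))
    (f := fun _ => (1 : ZMod 2)) (fun v _ => ⟨-v.1, by rw [hneg]; exact v.2⟩)
    (fun _ _ => by decide) (fun v _ _ h => hn ?_) (fun _ _ => Finset.mem_univ _)
    (fun v _ => Subtype.ext (neg_neg v.1))
  · simpa using this
  · have h' : -v.1 = v.1 := congrArg Subtype.val h
    have : v.1 = 0 := by
      simp only [Prod.ext_iff, Prod.fst_neg, Prod.snd_neg, Prod.fst_zero, Prod.snd_zero] at h' ⊢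
      omega
    rw [← v.2, this]
    simp [FormData.Q]

theorem exists_theta_ne_zero : ∃ τ : ℍ, D.theta τ ≠ 0 := by
  by_contra h
  push Not at h
  have h1 := qExpansion_eq_of_hasSum one_pos (f := D.theta)
    (PowerSeries.mk fun n => (D.coef n : ℂ)) fun τ => by simpa using (hasSum_theta D τ).2
  have h2 := qExpansion_eq_of_hasSum one_pos (f := D.theta) 0 fun τ => by
    simp [h τ]
  have := congrArg (PowerSeries.coeff 0) (h1.symm.trans h2)
  simp [coef_zero] at this

/-- The Gauss sum at `a = 1` is `-p³`, by comparing the theta series with its transform. -/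
theorem gaussSum_one : D.gaussSum 1 0 = -(p : ℂ) ^ 3 := by
  have : NeZero p := ⟨hp.out.ne_zero⟩
  have hpC : (p : ℂ) ≠ 0 := Nat.cast_ne_zero.mpr hp.out.ne_zero
  obtain ⟨τ, hτ⟩ := exists_theta_ne_zero D
  let γ : SL(2, ℤ) := ⟨!![1, 0; (p : ℤ), 1], by simp [Matrix.det_fin_two]⟩
  have h10 : γ 1 0 = (p : ℤ) := rfl
  have h00 : γ 0 0 = 1 := rfl
  have hden : denom γ τ = (p : ℂ) * τ + 1 := by
    rw [ModularGroup.denom_apply]; simp [γ]
  have hw0 : (p : ℂ) * τ + 1 ≠ 0 := hden ▸ denom_ne_zero γ τ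
  have hcoe : ((γ • τ : ℍ) : ℂ) = τ / ((p : ℂ) * τ + 1) := by
    rw [UpperHalfPlane.coe_specialLinearGroup_apply]; simp [γ]
  have h := theta_smul_of_lower D γ h10 τ
  rw [h00, Int.cast_one, hden] at h
  have hθ : D.theta (γ • τ) = ((p : ℂ) * τ + 1) ^ 2 * D.theta τ := by
    have h1 := (D.poisson (γ • τ).im_pos 0).2.2
    have h2 := (D.poisson τ.im_pos 0).2.2
    simp only [D.term_zero, D.dualTerm_zero] at h1 h2
    rw [FormData.theta, FormData.theta, h1, h2, hcoe]
    have hτ0 : (τ : ℂ) ≠ 0 := τ.ne_zero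
    have hper : ∀ m : Vec4 ℤ,
        cexp (2 * π * I * (-1 / ((τ : ℂ) / ((p : ℂ) * τ + 1))) * (D.Qs m : ℤ) / p) =
          cexp (2 * π * I * (-1 / (τ : ℂ)) * (D.Qs m : ℤ) / p) := fun m => by
      have : (2 * π * I * (-1 / ((τ : ℂ) / ((p : ℂ) * τ + 1))) * (D.Qs m : ℤ) / p : ℂ) =
          2 * π * I * (-1 / (τ : ℂ)) * (D.Qs m : ℤ) / p + ((-D.Qs m : ℤ) : ℂ) * (2 * π * I) := by
        push_cast
        field_simp
        ring
      rw [this, Complex.exp_add, Complex.exp_int_mul_two_pi_mul_I, mul_one]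
    rw [tsum_congr hper]
    field_simp
  rw [hθ] at h
  have h3 := mul_right_cancel₀ hτ h
  field_simp at h3
  linear_combination h3

/-- The Gauss sums of the form at `a ≠ 0` are equal to `-p³`. -/
theorem gaussSum_eq (a : ZMod p) (ha : a ≠ 0) : D.gaussSum a 0 = -(p : ℂ) ^ 3 := by
  have : NeZero p := ⟨hp.out.ne_zero⟩
  set ζ : ℂ := ZMod.stdAddChar (1 : ZMod p) with hζdef
  have hζ : IsPrimitiveRoot ζ p := by
    have := ZMod.stdAddChar_coe (N := p) 1
    rw [Int.cast_one] at this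
    rw [hζdef, this]
    simpa using Complex.isPrimitiveRoot_exp p hp.out.ne_zero
  have hpow : ∀ x : ZMod p, ZMod.stdAddChar x = ζ ^ x.val := fun x => by
    rw [hζdef, ← AddChar.map_nsmul_eq_pow, nsmul_one, ZMod.natCast_zmod_val]
  set P : ℚ[X] := (∑ r : Vec4 (ZMod p), X ^ (D.Q r).val) + C ((p : ℚ) ^ 3) with hP
  have heval : ∀ b : ZMod p, aeval (ZMod.stdAddChar b : ℂ) P =
      D.gaussSum b 0 + (p : ℂ) ^ 3 := fun b => by
    simp only [hP, map_add, map_sum, map_pow, aeval_X, aeval_C, FormData.gaussSum,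
      ← AddChar.map_nsmul_eq_pow]
    congr 1
    · refine Finset.sum_congr rfl fun r _ => ?_
      congr 1
      simp [dot, mul_comm]
  have hz : aeval ζ P = 0 := by rw [hζdef, heval, gaussSum_one]; ring
  have hcop : a.val.Coprime p := by
    rw [Nat.coprime_comm, hp.out.coprime_iff_not_dvd]
    exact fun h => ha ((ZMod.val_eq_zero a).mp (Nat.eq_zero_of_dvd_of_lt h (ZMod.val_lt a)))
  have hζa := hζ.pow_of_coprime a.val hcop
  have hdvd := minpoly.dvd ℚ ζ hz
  rw [← cyclotomic_eq_minpoly_rat hζ hp.out.pos, cyclotomic_eq_minpoly_rat hζa hp.out.pos] at hdvd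
  have hz' := Polynomial.aeval_eq_zero_of_dvd_aeval_eq_zero hdvd (minpoly.aeval ℚ _)
  rw [← hpow, heval] at hz'
  linear_combination hz'

/-- Invariance under the generators `γ` with lower left entry `p`. -/
theorem theta_slash_of_lower (γ : SL(2, ℤ)) (hγ : γ 1 0 = (p : ℤ)) :
    D.theta ∣[(2 : ℤ)] γ = D.theta := by
  funext τ
  have ha : ((γ 0 0 : ℤ) : ZMod p) ≠ 0 := by
    intro h
    have := γ.det_coe
    rw [Matrix.det_fin_two] at this
    have := congrArg (Int.cast (R := ZMod p)) this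
    rw [hγ] at this
    push_cast at this
    simp [h] at this
  have hpC : (p : ℂ) ≠ 0 := Nat.cast_ne_zero.mpr hp.out.ne_zero
  have hd0 : denom γ τ ≠ 0 := denom_ne_zero γ τ
  rw [ModularForm.SL_slash_apply, theta_smul_of_lower D γ hγ, gaussSum_eq D _ ha, zpow_neg]
  field_simp

omit hp in
theorem theta_periodic (τ : ℍ) : D.theta ((1 : ℝ) +ᵥ τ) = D.theta τ := by
  refine tsum_congr fun v => ?_
  rw [UpperHalfPlane.coe_vadd, ofReal_one, mul_add, add_mul, mul_one, Complex.exp_add,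
    mul_comm (2 * π * I) ((D.Q v : ℤ) : ℂ), Complex.exp_int_mul_two_pi_mul_I, one_mul]

/-- The theta series is invariant under `Γ₀(p)` in weight two. -/
theorem inv0_theta : Inv0 p 2 D.theta := by
  let H : Subgroup SL(2, ℤ) :=
    { carrier := {g | D.theta ∣[(2 : ℤ)] g = D.theta}
      one_mem' := SlashAction.slash_one _ _
      mul_mem' := fun {g h} hg hh => by
        simp only [Set.mem_ofPred_eq] at hg hh ⊢
        rw [SlashAction.slash_mul, hg, hh]
      inv_mem' := fun {g} hg => by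
        simp only [Set.mem_ofPred_eq] at hg ⊢
        nth_rewrite 1 [← hg]
        rw [← SlashAction.slash_mul, mul_inv_cancel, SlashAction.slash_one] }
  refine fun γ hγ => Gamma0_le_of_generators H ?_ ?_ (theta_slash_of_lower D) hγ
  · show D.theta ∣[(2 : ℤ)] (-1 : SL(2, ℤ)) = D.theta
    funext τ
    rw [ModularForm.SL_slash_apply, ModularGroup.SL_neg_smul, one_smul,
      ModularGroup.denom_apply]
    simp
  · show D.theta ∣[(2 : ℤ)] T = D.theta
    funext τ
    have := slash_T_zpow_apply (k := 2) D.theta 1 τ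
    rw [zpow_one, Int.cast_one, theta_periodic] at this
    exact this

theorem goodFn_theta : GoodFn 1 D.theta :=
  goodFn_of_hasSum one_pos fun τ => (hasSum_theta D τ).2

theorem goodFn_theta_slash_S : GoodFn (p : ℝ) (D.theta ∣[(2 : ℤ)] S) :=
  goodFn_of_hasSum cast_p_pos
    (c := fun n => -(1 / (p : ℂ)) * (cnt (fun m : Vec4 ℤ => (D.Qs (R := ℤ) m).toNat) n : ℂ))
    fun τ => by
    rw [theta_slash_S]
    simpa only [mul_assoc] using (hasSum_thetaDual D τ).mul_left (-(1 / (p : ℂ)))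

/-- The theta series as a modular form. -/
def FormData.thetaForm : ModularForm (Gamma0 p) 2 :=
  mkForm D.theta (inv0_theta D) (goodFn_theta D).holo (goodFn_theta D).bdd
    (goodFn_theta_slash_S D).bdd

/-- A weight two pair with constant term `1/2` and otherwise integral coefficients. -/
theorem exists_theta_pair (h5 : 5 ≤ p) : ∃ (A B : PowerSeries ℂ), IsPair p 2 A B ∧
    A.coeff 0 = 1 / 2 ∧ ∃ z : ℕ → ℤ, ∀ n, n ≠ 0 → A.coeff n = z n := by
  obtain ⟨D⟩ := exists_formData (p := p) h5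
  have h : IsPair p 2 _ _ := ⟨D.thetaForm, rfl, rfl⟩
  have hA : qExpansion (1 : ℝ) ⇑D.thetaForm = PowerSeries.mk fun n => (D.coef n : ℂ) :=
    qExpansion_eq_of_hasSum one_pos _ fun τ => by
      simpa [FormData.thetaForm] using (hasSum_theta D τ).2
  refine ⟨_, _, h.smul (1 / 2 : ℂ), ?_, fun n => ((D.coef n / 2 : ℕ) : ℤ), fun n hn => ?_⟩
  · rw [hA, map_smul, PowerSeries.coeff_mk, coef_zero, smul_eq_mul]
    norm_num
  · obtain ⟨c, hc⟩ := two_dvd_coef D hn
    beta_reduce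
    rw [hA, map_smul, PowerSeries.coeff_mk, hc, Nat.mul_div_cancel_left _ two_pos, smul_eq_mul]
    push_cast
    ring

end Fermat.Agent.Eis
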