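import Fermat.Agent.Eis.Duality
import Fermat.Agent.Eis.EisP
import Fermat.Agent.Eis.NearOne
import Fermat.Agent.Eis.Theta

/-!
An integral cusp form congruent to the Eisenstein series modulo the numerator of `(p - 1) / 12`.
This is the lower bound for the index of the Eisenstein ideal.
-/

noncomputable section

open CongruenceSubgroup ModularFormClass CuspForm ModularCurve ModularGroup UpperHalfPlane
open scoped Real MatrixGroups ModularForm Manifold

local notation "𝕢" => Function.Periodic.qParam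

namespace Fermat.Agent.Eis

theorem GoodFn.isZeroAtImInfty {h : ℝ} {f : ℍ → ℂ} (hf : GoodFn h f) (hh : 0 < h)
    (h0 : (qExpansion h f).coeff 0 = 0) : IsZeroAtImInfty f := by
  have hanal := hf.analyticAt hh
  have hval : cuspFunction h f 0 = 0 := by
    rw [cuspFunction_apply_zero hh hanal hf.periodic,
      ← UpperHalfPlane.qExpansion_coeff_zero hh hanal hf.periodic, h0]
  have := (hanal.continuousAt.tendsto.comp (qParam_tendsto_atImInfty hh))
  rw [hval] at this
  exact this.congr fun τ => eq_cuspFunction τ hh.ne' hf.periodic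

variable {p : ℕ} [hp : Fact p.Prime]

/-- A pair vanishing at `∞` in weight two comes from a cusp form. -/
theorem exists_cuspForm_of_isPair {A B : PowerSeries ℂ} (h : IsPair p 2 A B) (hA : A.coeff 0 = 0) :
    ∃ F : CuspForm (Gamma0 p) 2, ∀ j, qCoeff F j = A.coeff j := by
  have hB : B.coeff 0 = 0 := by
    have h1 := congrArg (PowerSeries.coeff 0) h.weight_two_uOp
    simpa [uOp, hA, hp.out.ne_zero] using h1
  obtain ⟨f, rfl, rfl⟩ := h
  have h0 : IsZeroAtImInfty ⇑f := (goodFn_form f).isZeroAtImInfty one_pos hA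
  have hS : IsZeroAtImInfty (⇑f ∣[(2 : ℤ)] S) :=
    (goodFn_slash_S f).isZeroAtImInfty cast_p_pos hB
  have hinv := inv0_of_modularForm f
  have hall : ∀ γ : SL(2, ℤ), IsZeroAtImInfty (⇑f ∣[(2 : ℤ)] γ) := fun γ => by
    rcases mem_or_exists_coset (p := p) γ with hγ | ⟨n, hγ⟩
    · rwa [hinv γ hγ]
    · rw [hinv.slash_eq_of_mul_inv_mem hγ, stMat, SlashAction.slash_mul, isZeroAtImInfty_iff]
      intro ε hε
      obtain ⟨M, hM⟩ := isZeroAtImInfty_iff.mp hS ε hε
      exact ⟨M, fun z hz => by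
        rw [slash_T_zpow_apply]; exact hM _ (by simpa [UpperHalfPlane.vadd_im] using hz)⟩
  let F : CuspForm (Gamma0 p) 2 :=
    { f with
      zero_at_cusps' := by
        intro c hc
        rw [Subgroup.IsArithmetic.isCusp_iff_isCusp_SL2Z, isCusp_SL2Z_iff'] at hc
        obtain ⟨g, rfl⟩ := hc
        rw [OnePoint.IsZeroAt.smul_iff, OnePoint.isZeroAt_infty_iff]
        exact hall g }
  exact ⟨F, fun j => rfl⟩

theorem eisensteinNumerator_two : eisensteinNumerator 2 = 1 := by decide

theorem eisensteinNumerator_three : eisensteinNumerator 3 = 1 := by decide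

/-- An integral cusp form is congruent to the Eisenstein series modulo the numerator of
`(p - 1) / 12`. -/
theorem eisCong_eisensteinNumerator : EisCong p (eisensteinNumerator p) := by
  rcases lt_or_ge p 5 with hlt | h5
  · have hn : eisensteinNumerator p = 1 := by
      have h2 := hp.out.two_le
      interval_cases p
      · exact eisensteinNumerator_two
      · exact eisensteinNumerator_three
      · exact absurd hp.out (by decide)
    refine ⟨0, zero_mem _, fun j _ => ⟨-(eisA p j : ℤ), ?_⟩⟩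
    rw [qCoeff_zero_form, hn]
    push_cast
    ring
  obtain ⟨A, B, hA, hA0, z, hz⟩ := exists_theta_pair (p := p) h5
  obtain ⟨B', hE⟩ := exists_eis_pair (p := p)
  set g : ℕ := Nat.gcd 12 (p - 1)
  set n : ℕ := eisensteinNumerator p
  have hng : n * g = p - 1 := by
    simp only [n, g, eisensteinNumerator, Nat.gcd_comm (p - 1) 12]
    exact Nat.div_mul_cancel (Nat.gcd_dvd_right 12 (p - 1))
  set u : ℤ := Nat.gcdA 12 (p - 1)
  set v : ℤ := Nat.gcdB 12 (p - 1)
  have hg : (g : ℤ) = 12 * u + ((p - 1 : ℕ) : ℤ) * v := Nat.gcd_eq_gcd_ab 12 (p - 1)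
  have hpair := hE.sub ((hA.smul ((n : ℂ) * u)).add (hE.smul ((n : ℂ) * v)))
  set X : PowerSeries ℂ := eisSeries p - (((n : ℂ) * u) • A + ((n : ℂ) * v) • eisSeries p)
  have hp1 : ((p - 1 : ℕ) : ℂ) = (p : ℂ) - 1 := by
    rw [Nat.cast_sub hp.out.one_le, Nat.cast_one]
  have h0 : X.coeff 0 = 0 := by
    have hg' : (g : ℂ) = 12 * (u : ℂ) + ((p - 1 : ℕ) : ℂ) * (v : ℂ) := by exact_mod_cast hg
    have hng' : (n : ℂ) * (g : ℂ) = ((p - 1 : ℕ) : ℂ) := by exact_mod_cast hng
    simp only [X, map_sub, map_add, map_smul, smul_eq_mul, hA0, eisSeries, PowerSeries.coeff_mk,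
      if_true]
    rw [← hp1]
    linear_combination (-(1 : ℂ) / 24) * hng' + ((n : ℂ) / 24) * hg'
  obtain ⟨F, hF⟩ := exists_cuspForm_of_isPair hpair h0
  have hcoef : ∀ j : ℕ, j ≠ 0 → qCoeff F j =
      (eisA p j : ℂ) + (n : ℂ) * ((-(u * z j + v * (eisA p j : ℤ)) : ℤ) : ℂ) := by
    intro j hj
    rw [hF]
    simp only [X, map_sub, map_add, map_smul, smul_eq_mul, hz j hj, eisSeries,
      PowerSeries.coeff_mk, if_neg hj]
    push_cast
    ring
  refine ⟨F, (mem_intLattice_iff F).mpr fun j => ?_, fun j hj => ⟨_, hcoef j hj⟩⟩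
  rcases eq_or_ne j 0 with rfl | hj
  · exact ⟨0, by rw [qCoeff_cusp_zero, Int.cast_zero]⟩
  · exact ⟨(eisA p j : ℤ) + n * (-(u * z j + v * (eisA p j : ℤ))), by
      rw [hcoef j hj]; push_cast; ring⟩

end Fermat.Agent.Eis
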