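import Mathlib.RingTheory.Ideal.GoingUp
import Fermat.Agent.Eis.LevelOne

/-!
The mod `ℓ` Sturm bound at prime level, for forms congruent at the two cusps. It detects
congruences with a constant in the proof of the upper bound.
-/

noncomputable section

open PowerSeries

namespace Fermat.Agent.Eis

/-- `A` and `B` are integral series whose images in `ℂ⟦q⟧` form a pair of weight `k` and level
`p`. -/
def ZPair (p : ℕ) (k : ℤ) (A B : PowerSeries ℤ) : Prop := IsPair p k (toC A) (toC B)

theorem map_rescale {R S : Type*} [CommRing R] [CommRing S] (φ : R →+* S) (a : R)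
    (B : PowerSeries R) :
    PowerSeries.map φ (rescale a B) = rescale (φ a) (PowerSeries.map φ B) := by
  ext n
  simp [coeff_rescale]

/-- Rescaling by a `p`-th root of unity fixes series in `q ^ p`. -/
theorem rescale_vOp {R : Type*} [CommRing R] (p : ℕ) [NeZero p] {c : R} (hc : c ^ p = 1)
    (X : PowerSeries R) : rescale c (vOp p X) = vOp p X := by
  ext n
  rw [coeff_rescale]
  by_cases h : p ∣ n
  · obtain ⟨m, rfl⟩ := h
    rw [pow_mul, hc, one_pow, one_mul]
  · simp [coeff_expand_of_not_dvd _ _ _ h]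

/-- Reducing an integral series through the algebraic integers is reducing it directly. -/
theorem map_map_intCast {F : Type*} [Field F] (φ : AlgInt →+* F) (A : PowerSeries ℤ) :
    PowerSeries.map φ (PowerSeries.map (Int.castRingHom AlgInt) A) =
      PowerSeries.map (Int.castRingHom F) A := by
  rw [← RingHom.comp_apply, ← PowerSeries.map_comp,
    RingHom.ext_int (φ.comp (Int.castRingHom AlgInt)) (Int.castRingHom F)]

/-- The algebraic integers map to a field of characteristic `ℓ`. -/
theorem exists_hom_charP {ℓ : ℕ} (hℓ : ℓ.Prime) :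
    ∃ (F : Type) (_ : Field F) (_ : CharP F ℓ), Nonempty (AlgInt →+* F) := by
  have : (Ideal.span {(ℓ : ℤ)}).IsMaximal :=
    PrincipalIdealRing.isMaximal_of_irreducible
      (Nat.prime_iff_prime_int.mp hℓ).irreducible
  obtain ⟨M, hM, hMc⟩ := Ideal.exists_ideal_over_maximal_of_isIntegral (S := AlgInt)
    (Ideal.span {(ℓ : ℤ)})
    (by rw [(RingHom.injective_iff_ker_eq_bot _).mp (algebraMap ℤ AlgInt).injective_int]; simp)
  let := Ideal.Quotient.field M
  refine ⟨AlgInt ⧸ M, inferInstance, ?_, ⟨Ideal.Quotient.mk M⟩⟩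
  refine (CharP.charP_iff_prime_eq_zero hℓ).mpr ?_
  have : (ℓ : ℤ) ∈ M.comap (algebraMap ℤ AlgInt) := hMc.symm ▸ Ideal.mem_span_singleton_self _
  rw [Ideal.mem_comap, map_natCast] at this
  rw [← map_natCast (Ideal.Quotient.mk M)]
  exact Ideal.Quotient.eq_zero_iff_mem.mpr this

/-- An integral pair of weight `< 12` is not congruent modulo `ℓ` to `(X, X(q ^ p))` for a series
`X` of order exactly one modulo `ℓ`. -/
theorem not_zPair_order_one {p : ℕ} [hp : Fact p.Prime] [NeZero p] {ℓ k : ℕ} (hℓ : ℓ.Prime)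
    (hk : k < 12) {A B : PowerSeries ℤ} (h : ZPair p k A B)
    {X : PowerSeries ℤ} (hA : PowerSeries.map (Int.castRingHom (ZMod ℓ)) A =
      PowerSeries.map (Int.castRingHom (ZMod ℓ)) X)
    (hB : PowerSeries.map (Int.castRingHom (ZMod ℓ)) B =
      PowerSeries.map (Int.castRingHom (ZMod ℓ)) (vOp p X))
    (h0 : coeff 0 X = 0) (h1 : ¬ (ℓ : ℤ) ∣ coeff 1 X) : False := by
  obtain ⟨C, hC, hCeq⟩ := IsPair.norm h
  obtain ⟨F, _, _, ⟨φ⟩⟩ := exists_hom_charP hℓ
  have hζ : IsIntegral ℤ (zetaP p) :=
    (isPrimitiveRoot_zetaP (p := p)).isIntegral hp.out.pos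
  set ζ : AlgInt := ⟨zetaP p, hζ⟩
  set A' := PowerSeries.map (Int.castRingHom AlgInt) A with hA'
  set B' := PowerSeries.map (Int.castRingHom AlgInt) B with hB'
  set P : PowerSeries AlgInt := vOp p A' * ∏ j : ZMod p, rescale (ζ ^ j.val) B'
  have hP : algToC P = vOp p C := by
    rw [hCeq, map_mul, map_prod, map_vOp, hA', ← toC_eq_algToC]
    congr 1
  set C' : PowerSeries AlgInt := PowerSeries.mk fun n => coeff (p * n) P
  have hCC : algToC C' = C := by
    ext n
    rw [coeff_map, coeff_mk, ← coeff_map, hP, coeff_expand_mul]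
  have hC'P : vOp p C' = P := by
    refine PowerSeries.map_injective AlgInt.val.toRingHom Subtype.val_injective ?_
    show algToC (vOp p C') = algToC P
    rw [map_vOp, hCC, hP]
  have hfac : (Int.castRingHom F) = (ZMod.castHom dvd_rfl F).comp (Int.castRingHom (ZMod ℓ)) :=
    RingHom.ext_int _ _
  have hred : ∀ {Y Z : PowerSeries ℤ}, PowerSeries.map (Int.castRingHom (ZMod ℓ)) Y =
      PowerSeries.map (Int.castRingHom (ZMod ℓ)) Z →
      PowerSeries.map (Int.castRingHom F) Y = PowerSeries.map (Int.castRingHom F) Z := by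
    intro Y Z hYZ
    rw [hfac, PowerSeries.map_comp, RingHom.comp_apply, RingHom.comp_apply, hYZ]
  set Y := PowerSeries.map (Int.castRingHom F) X with hY
  have hζp : φ ζ ^ p = 1 := by
    rw [← map_pow, show ζ ^ p = 1 from Subtype.ext (isPrimitiveRoot_zetaP (p := p)).pow_eq_one,
      map_one]
  have hprod : PowerSeries.map φ C' = Y ^ (p + 1) := by
    refine vOp_injective p ?_
    rw [← map_vOp, hC'P, map_mul, map_prod, map_vOp, hA', map_map_intCast, hred hA, map_pow,
      pow_succ']
    congr 1
    have : ∀ j : ZMod p, PowerSeries.map φ (rescale (ζ ^ j.val) B') = vOp p Y := fun j => by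
      rw [map_rescale, hB', map_map_intCast, hred hB, map_vOp,
        rescale_vOp p (by rw [map_pow, ← pow_mul, mul_comm, pow_mul, hζp, one_pow])]
    simp only [this, Finset.prod_const, Finset.card_univ, ZMod.card]
  have hY0 : constantCoeff Y = 0 := by
    rw [← coeff_zero_eq_constantCoeff_apply, hY, coeff_map, h0, map_zero]
  have hzero : PowerSeries.map φ C' = 0 := by
    refine sturm_mod φ (K := k * (p + 1)) (r := p + 1) ?_
      (Nat.mul_lt_mul_of_pos_right hk p.succ_pos) fun i hi => ?_
    · rw [hCC]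
      exact hC.congr_weight (by push_cast; ring)
    · rw [← coeff_map, hprod]
      exact coeff_of_lt_order _ (lt_of_lt_of_le (by exact_mod_cast hi)
        (le_order_pow_of_constantCoeff_eq_zero _ hY0))
  rw [hprod, pow_eq_zero_iff (Nat.succ_ne_zero p)] at hzero
  have := congrArg (coeff 1) hzero
  rw [hY, coeff_map, map_zero] at this
  exact h1 ((CharP.intCast_eq_zero_iff F ℓ _).mp this)

end Fermat.Agent.Eis
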