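import Fermat.Agent.Basic.SmallLevel
import Fermat.Agent.Eis.Duality
import Fermat.Agent.Eis.EisP
import Fermat.Agent.Eis.NearOne
import Fermat.Agent.Grp.Index

/-!
A congruence between an integral cusp form and the Eisenstein series has modulus dividing the
numerator of `(p - 1) / 12`. This is the upper bound for the index of the Eisenstein ideal.
-/

noncomputable section

open CongruenceSubgroup ModularFormClass CuspForm ModularCurve

namespace Fermat.Agent.Eis

variable {p : ℕ} [hp : Fact p.Prime]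

omit hp in
theorem EisCong.of_dvd {m k : ℕ} (h : EisCong p m) (hk : k ∣ m) : EisCong p k := by
  obtain ⟨F, hF, hcong⟩ := h
  obtain ⟨c, rfl⟩ := hk
  refine ⟨F, hF, fun j hj => ?_⟩
  obtain ⟨z, hz⟩ := hcong j hj
  exact ⟨c * z, by rw [hz]; push_cast; ring⟩

omit hp in
theorem isPair_cuspForm (F : CuspForm (Gamma0 p) 2) :
    ∃ B : PowerSeries ℂ, IsPair p 2 (UpperHalfPlane.qExpansion 1 ⇑F) B :=
  ⟨_, (ModularFormClass.modularForm F : ModularForm (Gamma0 p) 2), rfl, rfl⟩

/-- A congruence with the Eisenstein series modulo `ℓ ^ b` gives a form `≡ 1` modulo `ℓ ^ a`, when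
`ℓ ^ v` is the part of `p - 1` and `ℓ ^ a ℓ ^ v` divides `24 ℓ ^ b`. -/
theorem nearOne_of_eisCong {ℓ a b v c c' : ℕ} (hℓ : ℓ ≠ 0) (hp1 : p - 1 = ℓ ^ v * c)
    (h24 : 24 * ℓ ^ b = c' * ℓ ^ a * ℓ ^ v) (hco : Nat.Coprime c (ℓ ^ a))
    (h : EisCong p (ℓ ^ b)) : NearOne p (ℓ ^ a) := by
  obtain ⟨F, -, hF⟩ := h
  obtain ⟨B, hB⟩ := isPair_cuspForm F
  obtain ⟨B', hE⟩ := exists_eis_pair (p := p)
  set s : ℤ := Nat.gcdA c (ℓ ^ a)
  have hst : (1 : ℤ) = (c : ℤ) * s + ((ℓ ^ a : ℕ) : ℤ) * Nat.gcdB c (ℓ ^ a) := by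
    rw [← Nat.gcd_eq_gcd_ab, hco.gcd_eq_one, Nat.cast_one]
  choose z hz using hF
  let K : PowerSeries ℤ := PowerSeries.mk fun j =>
    if hj : j = 0 then s * c else -(s * c' * (ℓ : ℤ) ^ a * z j hj)
  have hℓC : (ℓ : ℂ) ^ v ≠ 0 := pow_ne_zero _ (Nat.cast_ne_zero.mpr hℓ)
  have hp1' : (p : ℂ) - 1 = (ℓ : ℂ) ^ v * c := by
    have := congrArg (Nat.cast (R := ℂ)) hp1
    rw [Nat.cast_sub hp.out.one_le] at this
    push_cast at this
    exact this
  have h24' : (24 : ℂ) * (ℓ : ℂ) ^ b = (c' : ℂ) * (ℓ : ℂ) ^ a * (ℓ : ℂ) ^ v := by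
    exact_mod_cast h24
  have hK : toC K = ((s : ℂ) * 24 / (ℓ : ℂ) ^ v) •
      (eisSeries p - UpperHalfPlane.qExpansion 1 ⇑F) := by
    ext j
    rw [PowerSeries.coeff_map, map_smul, map_sub, smul_eq_mul, eisSeries, PowerSeries.coeff_mk,
      show (UpperHalfPlane.qExpansion 1 ⇑F).coeff j = qCoeff F j from rfl, PowerSeries.coeff_mk]
    rcases eq_or_ne j 0 with rfl | hj
    · rw [qCoeff_cusp_zero, if_pos rfl, dif_pos rfl, hp1']
      simp only [Int.coe_castRingHom]
      push_cast
      field_simp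
      ring
    · rw [if_neg hj, dif_neg hj, hz j hj]
      simp only [Int.coe_castRingHom]
      push_cast
      field_simp
      linear_combination ((s : ℂ) * (z j hj : ℂ)) * h24'
  have hpair := (hE.sub hB).smul ((s : ℂ) * 24 / (ℓ : ℂ) ^ v)
  rw [← hK] at hpair
  refine nearOne_of_isPair hpair ?_
  ext j
  rw [PowerSeries.coeff_map, PowerSeries.coeff_mk, PowerSeries.coeff_one]
  rcases eq_or_ne j 0 with rfl | hj
  · have := congrArg (Int.cast (R := ZMod (ℓ ^ a))) hst
    simp only [Int.cast_add, Int.cast_mul, Int.cast_natCast, ZMod.natCast_self, zero_mul,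
      add_zero, Int.cast_one] at this
    rw [if_pos rfl, dif_pos rfl, this]
    simp [mul_comm]
  · have : ((ℓ : ZMod (ℓ ^ a))) ^ a = 0 := by
      rw [← Nat.cast_pow, ZMod.natCast_self]
    rw [if_neg hj, dif_neg hj]
    simp [this]

theorem factorization_24 {ℓ : ℕ} :
    (24 : ℕ).factorization ℓ = (if ℓ = 2 then 3 else 0) + (if ℓ = 3 then 1 else 0) := by
  rw [show (24 : ℕ) = 2 ^ 3 * 3 by norm_num, Nat.factorization_mul (by norm_num) (by norm_num),
    Nat.Prime.factorization_pow Nat.prime_two, Nat.Prime.factorization Nat.prime_three]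
  simp [Finsupp.single_apply, eq_comm]

theorem factorization_12 {ℓ : ℕ} :
    (12 : ℕ).factorization ℓ = (if ℓ = 2 then 2 else 0) + (if ℓ = 3 then 1 else 0) := by
  rw [show (12 : ℕ) = 2 ^ 2 * 3 by norm_num, Nat.factorization_mul (by norm_num) (by norm_num),
    Nat.Prime.factorization_pow Nat.prime_two, Nat.Prime.factorization Nat.prime_three]
  simp [Finsupp.single_apply, eq_comm]

theorem eisensteinNumerator_ne_zero : eisensteinNumerator p ≠ 0 := by
  have h2 := hp.out.two_le
  refine (Nat.div_pos (Nat.le_of_dvd (by omega) (Nat.gcd_dvd_left _ _)) ?_).ne'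
  exact Nat.gcd_pos_of_pos_right _ (by norm_num)

/-- The exponent of `ℓ` in the numerator of `(p - 1) / 12`. -/
theorem factorization_numerator (ℓ : ℕ) :
    (eisensteinNumerator p).factorization ℓ =
      (p - 1).factorization ℓ - min ((p - 1).factorization ℓ) ((12 : ℕ).factorization ℓ) := by
  have h2 := hp.out.two_le
  rw [eisensteinNumerator, Nat.factorization_div (Nat.gcd_dvd_left _ _),
    Nat.factorization_gcd (by omega) (by norm_num)]
  simp

/-- For `p ≥ 5` a nonzero modulus of an Eisenstein congruence divides the numerator of `(p - 1) /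
12`. -/
theorem dvd_eisensteinNumerator_of_five_le (h5 : 5 ≤ p) {m : ℕ} (hm : m ≠ 0) (h : EisCong p m) :
    m ∣ eisensteinNumerator p := by
  have : NeZero p := ⟨hp.out.ne_zero⟩
  rw [← Nat.factorization_prime_le_iff_dvd hm eisensteinNumerator_ne_zero]
  intro ℓ hℓ
  by_contra hlt
  rw [not_le, factorization_numerator] at hlt
  set v := (p - 1).factorization ℓ with hv
  set w := (24 : ℕ).factorization ℓ with hw
  set t := min v ((12 : ℕ).factorization ℓ) with ht
  have htw : t ≤ w := by
    rw [ht, hw, factorization_12, factorization_24]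
    split_ifs <;> omega
  have hb : EisCong p (ℓ ^ (v - t + 1)) :=
    h.of_dvd ((pow_dvd_pow ℓ (by omega : v - t + 1 ≤ m.factorization ℓ)).trans
      (Nat.ordProj_dvd m ℓ))
  have hne : p - 1 ≠ 0 := by omega
  have hnear : NearOne p (ℓ ^ (w + 1 - t)) := by
    refine nearOne_of_eisCong hℓ.ne_zero (v := v) (c := ordCompl[ℓ] (p - 1))
      (c' := ordCompl[ℓ] 24) (Nat.ordProj_mul_ordCompl_eq_self _ _).symm ?_
      ((Nat.coprime_ordCompl hℓ hne).symm.pow_right _) hb
    conv_lhs => rw [← Nat.ordProj_mul_ordCompl_eq_self 24 ℓ, ← hw]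
    rw [mul_assoc, mul_assoc, mul_left_comm, ← pow_add, ← pow_add]
    congr 2
    omega
  have hdvd1 : ℓ ^ v ∣ p - 1 := Nat.ordProj_dvd _ _
  rcases eq_or_ne ℓ p with rfl | hℓp
  · have hw0 : w = 0 := by rw [hw, factorization_24, if_neg (by omega), if_neg (by omega)]
    have he : w + 1 - t = 1 := by omega
    rw [he, pow_one] at hnear
    exact not_nearOne_self h5 hnear
  have hsucc : ℓ ^ (w + 1 - t) ∣ p + 1 :=
    hnear.dvd_succ (((Nat.coprime_primes hp.out hℓ).mpr hℓp.symm).pow_right _)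
  rcases eq_or_ne ℓ 2 with rfl | hℓ2
  · simp only [factorization_24, factorization_12, if_true,
      show ¬ ((2 : ℕ) = 3) by decide, if_false, add_zero] at hw ht
    have hv1 : 1 ≤ v := by
      refine (Nat.prime_two.dvd_iff_one_le_factorization hne).mp ?_
      rcases hp.out.eq_two_or_odd with h' | h' <;> omega
    rcases eq_or_lt_of_le hv1 with hv' | hv'
    · have he : w + 1 - t = 3 := by omega
      rw [he] at hnear hsucc
      exact not_nearOne_eight hsucc hnear
    · have he : w + 1 - t = 2 := by omega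
      rw [he] at hsucc
      have : 2 ^ 2 ∣ p - 1 := (pow_dvd_pow 2 hv').trans hdvd1
      omega
  rcases eq_or_ne ℓ 3 with rfl | hℓ3
  · simp only [factorization_24, factorization_12, if_true,
      show ¬ ((3 : ℕ) = 2) by decide, if_false, zero_add] at hw ht
    rcases Nat.eq_zero_or_pos v with hv' | hv'
    · have he : w + 1 - t = 2 := by omega
      rw [he] at hnear hsucc
      exact not_nearOne_nine hsucc hnear
    · have he : w + 1 - t = 1 := by omega
      rw [he] at hsucc
      have : 3 ^ 1 ∣ p - 1 := (pow_dvd_pow 3 hv').trans hdvd1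
      omega
  have he : w + 1 - t = 1 := by
    have hw0 : w = 0 := by rw [hw, factorization_24, if_neg hℓ2, if_neg hℓ3]
    omega
  rw [he, pow_one] at hnear hsucc
  rcases lt_or_ge ℓ 7 with hlt7 | h7
  · have hℓ5 : ℓ = 5 := by
      have := hℓ.two_le
      interval_cases ℓ <;> first | omega | exact absurd hℓ (by norm_num)
    subst hℓ5
    exact not_nearOne_five hsucc hnear
  · exact not_nearOne_large hℓ h7 hsucc hnear

/-- The modulus of an Eisenstein congruence divides the numerator of `(p - 1) / 12`. -/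
theorem eisensteinNumerator_dvd_of_eisCong {m : ℕ} (h : EisCong p m) :
    m ∣ eisensteinNumerator p := by
  rcases lt_or_ge p 5 with hlt | h5
  · have hzero : ∀ F : CuspForm (Gamma0 p) 2, F = 0 := by
      have h2 := hp.out.two_le
      interval_cases p
      · exact Basic.S2_Gamma0_two
      · exact Basic.cusp_eq_zero (by
          rw [Grp.index_Gamma0_eq, ← pow_one 3, Grp.dedekindPsi_prime_pow Nat.prime_three one_pos]
          norm_num)
      · exact absurd hp.out (by decide)
    obtain ⟨F, -, hF⟩ := h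
    obtain ⟨z, hz⟩ := hF 1 one_ne_zero
    rw [hzero F, qCoeff_zero_form, eisA_one] at hz
    have : (1 : ℤ) = (m : ℤ) * (-z) := by
      have h' : ((1 : ℤ) : ℂ) = (((m : ℤ) * (-z) : ℤ) : ℂ) := by
        push_cast at hz ⊢; linear_combination -hz
      exact_mod_cast h'
    have h1 : m ∣ 1 := Int.natCast_dvd_natCast.mp ⟨_, this⟩
    exact h1.trans (one_dvd _)
  rcases eq_or_ne m 0 with rfl | hm
  · have hd := dvd_eisensteinNumerator_of_five_le h5 (m := eisensteinNumerator p + 1) (by omega)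
      (h.of_dvd (dvd_zero _))
    exact absurd (Nat.le_of_dvd (Nat.pos_of_ne_zero eisensteinNumerator_ne_zero) hd) (by omega)
  · exact dvd_eisensteinNumerator_of_five_le h5 hm h

end Fermat.Agent.Eis
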